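/-
Basic algebra on triples: the underlying `R`-modules, the trivial triple, twists by units of `W`,
and the two-chart structure used by `SecondCohomology`.
-/
import Fermat.Agent.Picard.Data
import Fermat.Agent.Picard.SecondCohomology

set_option autoImplicit false

universe u

open scoped TensorProduct

noncomputable section

namespace Fermat.Agent.Picard.TwoChart

variable {k : Type u} [Field k] {X : TwoChart k}
variable {R : Type u} [CommRing R] [Algebra k R]

instance Tri.moduleRA (L : X.Tri R) : Module R L.MA :=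
  Module.compHom L.MA (algebraMap R (R ⊗[k] X.A))
instance Tri.moduleRB (L : X.Tri R) : Module R L.MB :=
  Module.compHom L.MB (algebraMap R (R ⊗[k] X.B))
instance Tri.moduleRW (L : X.Tri R) : Module R L.MW :=
  Module.compHom L.MW (algebraMap R (R ⊗[k] X.W))
instance Tri.towerRA (L : X.Tri R) : IsScalarTower R (R ⊗[k] X.A) L.MA :=
  IsScalarTower.of_algebraMap_smul fun _ _ => rfl
instance Tri.towerRB (L : X.Tri R) : IsScalarTower R (R ⊗[k] X.B) L.MB :=
  IsScalarTower.of_algebraMap_smul fun _ _ => rfl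
instance Tri.towerRW (L : X.Tri R) : IsScalarTower R (R ⊗[k] X.W) L.MW :=
  IsScalarTower.of_algebraMap_smul fun _ _ => rfl

@[simp] theorem resA_tmul (r : R) (a : X.A) :
    X.resA R (r ⊗ₜ[k] a) = r ⊗ₜ[k] algebraMap X.A X.W a := by
  simp [resA]

@[simp] theorem resB_tmul (r : R) (b : X.B) :
    X.resB R (r ⊗ₜ[k] b) = r ⊗ₜ[k] algebraMap X.B X.W b := by
  simp [resB]

theorem resA_algebraMap (r : R) :
    X.resA R (algebraMap R (R ⊗[k] X.A) r) = algebraMap R (R ⊗[k] X.W) r := by
  simp [Algebra.TensorProduct.algebraMap_apply]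

theorem resB_algebraMap (r : R) :
    X.resB R (algebraMap R (R ⊗[k] X.B) r) = algebraMap R (R ⊗[k] X.W) r := by
  simp [Algebra.TensorProduct.algebraMap_apply]

/-- The restriction `MA → MW` as an `R`-linear map. -/
def Tri.rA (L : X.Tri R) : L.MA →ₗ[R] L.MW where
  toFun := L.fA
  map_add' := L.fA.map_add
  map_smul' r m := by
    rw [RingHom.id_apply, ← algebraMap_smul (R ⊗[k] X.A) r m, L.fA.map_smulₛₗ, resA_algebraMap,
      algebraMap_smul]

/-- The restriction `MB → MW` as an `R`-linear map. -/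
def Tri.rB (L : X.Tri R) : L.MB →ₗ[R] L.MW where
  toFun := L.fB
  map_add' := L.fB.map_add
  map_smul' r m := by
    rw [RingHom.id_apply, ← algebraMap_smul (R ⊗[k] X.B) r m, L.fB.map_smulₛₗ, resB_algebraMap,
      algebraMap_smul]

@[simp] theorem Tri.rA_apply (L : X.Tri R) (m : L.MA) : L.rA m = L.fA m := rfl
@[simp] theorem Tri.rB_apply (L : X.Tri R) (m : L.MB) : L.rB m = L.fB m := rfl

/-- The Cech differential of a triple. -/
def Tri.diff (L : X.Tri R) : L.MA × L.MB →ₗ[R] L.MW := cechDiff L.rA L.rB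

theorem Tri.diff_apply (L : X.Tri R) (a : L.MA) (b : L.MB) :
    L.diff (a, b) = L.fA a - L.fB b := by
  simp [Tri.diff]

/-- Global sections of a triple. -/
abbrev Tri.H0 (L : X.Tri R) : Submodule R (L.MA × L.MB) := LinearMap.ker L.diff

/-- Multiplication by `x` on the first chart. -/
def Tri.mulX (L : X.Tri R) : Module.End R L.MA :=
  Algebra.lsmul R R L.MA ((1 : R) ⊗ₜ[k] X.x)

/-- Multiplication by `y` on the second chart. -/
def Tri.mulY (L : X.Tri R) : Module.End R L.MB :=
  Algebra.lsmul R R L.MB ((1 : R) ⊗ₜ[k] X.y)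

@[simp] theorem Tri.mulX_apply (L : X.Tri R) (m : L.MA) :
    L.mulX m = ((1 : R) ⊗ₜ[k] X.x) • m := rfl

@[simp] theorem Tri.mulY_apply (L : X.Tri R) (m : L.MB) :
    L.mulY m = ((1 : R) ⊗ₜ[k] X.y) • m := rfl

variable (X) in
/-- `x` as a unit of `W`. -/
def xUnit : X.Wˣ where
  val := algebraMap X.A X.W X.x
  inv := algebraMap X.B X.W X.y
  val_inv := X.x_mul_y
  inv_val := by rw [mul_comm]; exact X.x_mul_y

variable (X R) in
/-- `1 ⊗ u` for a unit `u` of `W`. -/
def tensorUnit (u : X.Wˣ) : (R ⊗[k] X.W)ˣ :=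
  Units.map (Algebra.TensorProduct.includeRight : X.W →ₐ[k] R ⊗[k] X.W).toMonoidHom u

@[simp] theorem tensorUnit_val (u : X.Wˣ) :
    ((X.tensorUnit R u : (R ⊗[k] X.W)ˣ) : R ⊗[k] X.W) = (1 : R) ⊗ₜ[k] (u : X.W) := rfl

/-- Multiplication by a unit of `W` on the overlap module. -/
def Tri.unitEquiv (L : X.Tri R) (u : X.Wˣ) : L.MW ≃ₗ[R] L.MW where
  toFun m := (X.tensorUnit R u : R ⊗[k] X.W) • m
  invFun m := ((X.tensorUnit R u)⁻¹ : (R ⊗[k] X.W)ˣ).val • m
  map_add' := smul_add _
  map_smul' r m := smul_comm _ r m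
  left_inv m := by show _ • (_ • m) = m; rw [smul_smul, Units.inv_mul, one_smul]
  right_inv m := by show _ • (_ • m) = m; rw [smul_smul, Units.mul_inv, one_smul]

@[simp] theorem Tri.unitEquiv_apply (L : X.Tri R) (u : X.Wˣ) (m : L.MW) :
    L.unitEquiv u m = (X.tensorUnit R u : R ⊗[k] X.W) • m := rfl

theorem Tri.unitEquiv_pow (L : X.Tri R) (u : X.Wˣ) (n : ℕ) (m : L.MW) :
    (L.unitEquiv u ^ n) m = ((1 : R) ⊗ₜ[k] (u : X.W)) ^ n • m := by
  induction n with
  | zero => simp
  | succ n ih => rw [pow_succ', LinearEquiv.mul_apply, ih, unitEquiv_apply, tensorUnit_val,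
      smul_smul, pow_succ']

theorem Tri.unitEquiv_symm (L : X.Tri R) (u : X.Wˣ) :
    (L.unitEquiv u).symm = L.unitEquiv u⁻¹ := by
  ext m
  show ((X.tensorUnit R u)⁻¹ : (R ⊗[k] X.W)ˣ).val • m = (X.tensorUnit R u⁻¹ : R ⊗[k] X.W) • m
  simp [tensorUnit, map_inv]

/-- Twisting by a unit of `W`: the gluing on the second chart is multiplied by it. -/
def Tri.twist (L : X.Tri R) (u : X.Wˣ) : X.Tri R where
  MA := L.MA
  MB := L.MB
  MW := L.MW
  fA := L.fA
  fB :=
    { toFun := fun m => (X.tensorUnit R u : R ⊗[k] X.W) • L.fB m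
      map_add' := fun m m' => by rw [map_add, smul_add]
      map_smul' := fun s m => by rw [L.fB.map_smulₛₗ, smul_comm] }
  surjA := L.surjA
  injA := L.injA
  surjB w := by
    obtain ⟨n, m, hm⟩ := L.surjB (((X.tensorUnit R u)⁻¹ : (R ⊗[k] X.W)ˣ).val • w)
    refine ⟨n, m, ?_⟩
    show _ = (X.tensorUnit R u : R ⊗[k] X.W) • L.fB m
    rw [← hm, smul_comm _ (_ ^ n), smul_smul (X.tensorUnit R u : R ⊗[k] X.W), Units.mul_inv,
      one_smul]
  injB m hm := by
    refine L.injB m ?_
    have h : (X.tensorUnit R u : R ⊗[k] X.W) • L.fB m = 0 := hm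
    exact (X.tensorUnit R u).isUnit.smul_eq_zero.mp h

@[simp] theorem Tri.twist_fB (L : X.Tri R) (u : X.Wˣ) (m : L.MB) :
    (L.twist u).fB m = (X.tensorUnit R u : R ⊗[k] X.W) • L.fB m := rfl

@[simp] theorem Tri.twist_fA (L : X.Tri R) (u : X.Wˣ) (m : L.MA) :
    (L.twist u).fA m = L.fA m := rfl

/-- Twisting is functorial in isomorphisms. -/
def Tri.Equiv.twist {L L' : X.Tri R} (e : L.Equiv L') (u : X.Wˣ) :
    (L.twist u).Equiv (L'.twist u) where
  eA := e.eA
  eB := e.eB
  eW := e.eW
  commA := e.commA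
  commB m := by
    show e.eW ((X.tensorUnit R u : R ⊗[k] X.W) • L.fB m) =
      (X.tensorUnit R u : R ⊗[k] X.W) • L'.fB (e.eB m)
    rw [map_smul]
    exact congrArg _ (e.commB m)

/-- The identity isomorphism. -/
def Tri.Equiv.refl (L : X.Tri R) : L.Equiv L where
  eA := .refl _ _
  eB := .refl _ _
  eW := .refl _ _
  commA _ := rfl
  commB _ := rfl

/-- The inverse isomorphism. -/
def Tri.Equiv.symm {L L' : X.Tri R} (e : L.Equiv L') : L'.Equiv L where
  eA := e.eA.symm
  eB := e.eB.symm
  eW := e.eW.symm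
  commA m := by rw [LinearEquiv.symm_apply_eq, e.commA, LinearEquiv.apply_symm_apply]
  commB m := by rw [LinearEquiv.symm_apply_eq, e.commB, LinearEquiv.apply_symm_apply]

/-- Composition of isomorphisms. -/
def Tri.Equiv.trans {L L' L'' : X.Tri R} (e : L.Equiv L') (e' : L'.Equiv L'') : L.Equiv L'' where
  eA := e.eA.trans e'.eA
  eB := e.eB.trans e'.eB
  eW := e.eW.trans e'.eW
  commA m := by simp [e.commA, e'.commA]
  commB m := by simp [e.commB, e'.commB]

/-! ### Freeness over `R[X]` -/

section Coordinates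

variable (R) {S : Type u} [CommRing S] [Algebra k S]

/-- A finite injective `k[X] → S` (with `S` a domain) makes `R ⊗ S` finite free over `R[X]`. -/
theorem exists_tensor_equiv_polynomial [IsDomain S] (s : S)
    (hfin : (Polynomial.aeval s : Polynomial k →ₐ[k] S).toRingHom.Finite)
    (hinj : Function.Injective (Polynomial.aeval s : Polynomial k →ₐ[k] S)) :
    ∃ (n : ℕ) (e : R ⊗[k] S ≃ₗ[R] (Fin n → Polynomial R)),
      ∀ z i, e (((1 : R) ⊗ₜ[k] s) * z) i = Polynomial.X * e z i := by
  let : Algebra (Polynomial k) S := (Polynomial.aeval s : Polynomial k →ₐ[k] S).toRingHom.toAlgebra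
  have : IsScalarTower k (Polynomial k) S :=
    IsScalarTower.of_algebraMap_eq fun r => by
      show _ = Polynomial.aeval s (Polynomial.C r)
      simp
  have : Module.Finite (Polynomial k) S := hfin
  have : FaithfulSMul (Polynomial k) S :=
    (faithfulSMul_iff_algebraMap_injective (Polynomial k) S).mpr hinj
  have : Module.Free (Polynomial k) S := inferInstance
  let b := Module.finBasis (Polynomial k) S
  let e : R ⊗[k] S ≃ₗ[R] (Fin _ → Polynomial R) :=
    (TensorProduct.AlgebraTensorModule.congr (LinearEquiv.refl R R)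
      (b.equivFun.restrictScalars k)) ≪≫ₗ
      TensorProduct.piRight k R R _ ≪≫ₗ
      LinearEquiv.piCongrRight fun _ => (polyEquivTensor' k R).symm.toLinearEquiv
  refine ⟨_, e, fun z i => ?_⟩
  induction z using TensorProduct.induction_on with
  | zero => simp
  | tmul r t =>
    have hst : s * t = (Polynomial.X : Polynomial k) • t := by
      rw [Algebra.smul_def]
      show s * t = Polynomial.aeval s Polynomial.X * t
      simp
    simp only [Algebra.TensorProduct.tmul_mul_tmul, one_mul, hst]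
    simp [e]
  | add z w hz hw => simp [mul_add, hz, hw]

/-- Coordinates for a finite projective module over such a ring. -/
theorem nonempty_polyCoords [IsDomain S] (s : S)
    (hfin : (Polynomial.aeval s : Polynomial k →ₐ[k] S).toRingHom.Finite)
    (hinj : Function.Injective (Polynomial.aeval s : Polynomial k →ₐ[k] S))
    (M : Type u) [AddCommGroup M] [Module (R ⊗[k] S) M] [Module R M]
    [IsScalarTower R (R ⊗[k] S) M] [Module.Finite (R ⊗[k] S) M]
    [Module.Projective (R ⊗[k] S) M] :
    Nonempty (PolyCoords (Algebra.lsmul R R M ((1 : R) ⊗ₜ[k] s))) := by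
  obtain ⟨n, e, he⟩ := exists_tensor_equiv_polynomial R s hfin hinj
  obtain ⟨m, f, hf⟩ := Module.Finite.exists_fin' (R ⊗[k] S) M
  obtain ⟨g, hg⟩ := Module.projective_lifting_property f LinearMap.id hf
  let E : (Fin m → R ⊗[k] S) ≃ₗ[R] (Fin (m * n) → Polynomial R) :=
    LinearEquiv.piCongrRight (fun _ => e) ≪≫ₗ (LinearEquiv.curry R (Polynomial R) _ _).symm ≪≫ₗ
      LinearEquiv.funCongrLeft R (Polynomial R) finProdFinEquiv.symm
  have hE : ∀ (v : Fin m → R ⊗[k] S) (i),
      E (((1 : R) ⊗ₜ[k] s) • v) i = Polynomial.X * E v i := fun v i => by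
    simp [E, he, LinearEquiv.funCongrLeft_apply, LinearMap.funLeft]
  refine ⟨{
    r := m * n
    coord := E.toLinearMap ∘ₗ g.restrictScalars R
    retr := f.restrictScalars R ∘ₗ E.symm.toLinearMap
    retr_coord := fun a => by
      simpa using LinearMap.congr_fun hg a
    coord_X := fun a i => by
      simp only [LinearMap.comp_apply, LinearMap.coe_restrictScalars, LinearEquiv.coe_coe,
        Algebra.lsmul_coe, map_smul]
      exact hE _ i
    retr_X := fun v => by
      have h : E.symm (fun i => Polynomial.X * v i) = ((1 : R) ⊗ₜ[k] s) • E.symm v := by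
        rw [LinearEquiv.symm_apply_eq]
        ext1 i
        rw [hE, LinearEquiv.apply_symm_apply]
      simp only [LinearMap.comp_apply, LinearMap.coe_restrictScalars, LinearEquiv.coe_coe,
        Algebra.lsmul_coe, h, map_smul] }⟩

end Coordinates

/-- Coordinates on the first chart of a triple. -/
def Tri.coordA (L : X.Tri R) : PolyCoords L.mulX :=
  (nonempty_polyCoords R X.x X.finite_x X.injective_x L.MA).some

/-- Coordinates on the second chart of a triple. -/
def Tri.coordB (L : X.Tri R) : PolyCoords L.mulY :=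
  (nonempty_polyCoords R X.y X.finite_y X.injective_y L.MB).some

theorem Tri.fA_smul_x (L : X.Tri R) (m : L.MA) :
    L.fA (((1 : R) ⊗ₜ[k] X.x) • m) = L.unitEquiv X.xUnit (L.fA m) := by
  rw [L.fA.map_smulₛₗ, resA_tmul, unitEquiv_apply, tensorUnit_val]; rfl

theorem Tri.fB_smul_y (L : X.Tri R) (m : L.MB) :
    L.fB (((1 : R) ⊗ₜ[k] X.y) • m) = (L.unitEquiv X.xUnit).symm (L.fB m) := by
  rw [L.fB.map_smulₛₗ, resB_tmul, unitEquiv_symm, unitEquiv_apply, tensorUnit_val]; rfl

/-- A triple is a two chart module. -/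
theorem Tri.isTwoChart (L : X.Tri R) :
    IsTwoChart L.mulX L.mulY (L.unitEquiv X.xUnit) L.rA L.rB where
  map_X₀ := L.fA_smul_x
  map_X₁ := L.fB_smul_y
  surj₀ m := by
    obtain ⟨n, a, ha⟩ := L.surjA m
    exact ⟨n, a, by rw [unitEquiv_pow]; exact ha.symm⟩
  surj₁ m := by
    obtain ⟨n, b, hb⟩ := L.surjB m
    exact ⟨n, b, by rw [unitEquiv_symm, unitEquiv_pow]; exact hb.symm⟩
  injective₀ := (injective_iff_map_eq_zero L.rA).mpr fun m hm => by
    obtain ⟨n, hn⟩ := L.injA m hm
    refine L.coordA.eq_zero_of_pow n m ?_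
    rw [mulX, ← map_pow]
    exact hn
  injective₁ := (injective_iff_map_eq_zero L.rB).mpr fun m hm => by
    obtain ⟨n, hn⟩ := L.injB m hm
    refine L.coordB.eq_zero_of_pow n m ?_
    rw [mulY, ← map_pow]
    exact hn

theorem Tri.fA_injective (L : X.Tri R) : Function.Injective L.fA := L.isTwoChart.injective₀

theorem Tri.fB_injective (L : X.Tri R) : Function.Injective L.fB := L.isTwoChart.injective₁

instance Tri.projective_MA (L : X.Tri R) : Module.Projective R L.MA :=
  L.coordA.projective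

instance Tri.projective_MB (L : X.Tri R) : Module.Projective R L.MB :=
  L.coordB.projective

instance Tri.projective_MW (L : X.Tri R) : Module.Projective R L.MW := by
  have : Module.Free R (R ⊗[k] X.W) := inferInstance
  obtain ⟨m, f, hf⟩ := Module.Finite.exists_fin' (R ⊗[k] X.W) L.MW
  obtain ⟨g, hg⟩ := Module.projective_lifting_property f LinearMap.id hf
  exact Module.Projective.of_split (g.restrictScalars R) (f.restrictScalars R)
    (LinearMap.ext fun a => LinearMap.congr_fun hg a)

theorem Tri.finite_coker (L : X.Tri R) :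
    Module.Finite R (L.MW ⧸ LinearMap.range L.diff) :=
  L.isTwoChart.finite_coker L.coordB.gen L.coordB.span_gen

theorem Tri.finite_H0 (L : X.Tri R) (hs : Function.Surjective L.diff) :
    Module.Finite R L.H0 :=
  L.isTwoChart.finite_ker L.coordA L.coordB L.coordA.gen L.coordA.span_gen L.coordB.gen
    L.coordB.span_gen hs

theorem Tri.projective_H0 (L : X.Tri R) (hs : Function.Surjective L.diff) :
    Module.Projective R L.H0 :=
  projective_ker_of_surjective L.diff hs

/-- A large twist at infinity kills the first cohomology. -/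
theorem Tri.exists_twist_surjective (L : X.Tri R) :
    ∃ N₀ : ℕ, ∀ N, N₀ ≤ N → Function.Surjective (L.twist (X.xUnit ^ N)).diff := by
  obtain ⟨N₀, h⟩ := L.isTwoChart.exists_twist_surjective L.coordB.gen L.coordB.span_gen
  refine ⟨N₀, fun N hN w => ?_⟩
  obtain ⟨⟨a, b⟩, hab⟩ := h N hN w
  refine ⟨(a, b), ?_⟩
  rw [← hab, cechDiff_apply]
  refine (Tri.diff_apply (L.twist (X.xUnit ^ N)) a b).trans ?_
  simp [Tri.unitEquiv_pow, Algebra.TensorProduct.tmul_pow]
  rfl

end Fermat.Agent.Picard.TwoChart
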