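/-
Generalities on extensions of scalars given by their universal property.
-/
import Fermat.Agent.Picard.Data

set_option autoImplicit false

universe u

open scoped TensorProduct

noncomputable section

namespace Fermat.Agent.Picard

variable {S T U : Type u} [CommRing S] [CommRing T] [CommRing U]
variable {M N P : Type u} [AddCommGroup M] [AddCommGroup N] [AddCommGroup P]
variable [Module S M] [Module T N]

namespace IsScalarExtension

variable {φ : S →+* T} {g : M →ₛₗ[φ] N}

/-- The linear extension of a semilinear map. -/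
def lift (hg : IsScalarExtension φ g) [Module T P] (h : M →ₛₗ[φ] P) : N →ₗ[T] P :=
  (hg P h).choose

@[simp] theorem lift_apply (hg : IsScalarExtension φ g) [Module T P] (h : M →ₛₗ[φ] P) (m : M) :
    hg.lift h (g m) = h m :=
  (hg P h).choose_spec.1 m

theorem hom_ext (hg : IsScalarExtension φ g) [Module T P] {f₁ f₂ : N →ₗ[T] P}
    (h : ∀ m, f₁ (g m) = f₂ (g m)) : f₁ = f₂ := by
  let h0 : M →ₛₗ[φ] P :=
    { toFun := fun m : M => f₂ (g m)
      map_add' := fun a b => by rw [map_add, map_add]
      map_smul' := fun s m => by rw [g.map_smulₛₗ, map_smul] }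
  exact (hg P h0).unique h fun _ => rfl

theorem span_range (hg : IsScalarExtension φ g) : Submodule.span T (Set.range g) = ⊤ := by
  have h := hg.hom_ext (f₁ := (Submodule.span T (Set.range g)).mkQ) (f₂ := 0) fun m => by
    rw [LinearMap.zero_apply, Submodule.mkQ_apply, Submodule.Quotient.mk_eq_zero]
    exact Submodule.subset_span ⟨m, rfl⟩
  rw [eq_top_iff]
  intro x _
  exact (Submodule.Quotient.mk_eq_zero _).mp (LinearMap.congr_fun h x)

@[elab_as_elim]
theorem induction_on (hg : IsScalarExtension φ g) {motive : N → Prop} (x : N)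
    (smul : ∀ (t : T) (m : M), motive (t • g m)) (add : ∀ a b, motive a → motive b → motive (a + b)) :
    motive x := by
  have hx : x ∈ Submodule.span T (Set.range g) := by rw [hg.span_range]; trivial
  suffices h : ∀ t : T, motive (t • x) by simpa using h 1
  induction hx using Submodule.span_induction with
  | mem z hz => obtain ⟨m, rfl⟩ := hz; exact fun t => smul t m
  | zero =>
    intro t
    have h := smul 0 0
    rw [zero_smul] at h
    rwa [smul_zero]
  | add z w _ _ hz hw => intro t; rw [smul_add]; exact add _ _ (hz t) (hw t)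
  | smul c z _ hz => intro t; rw [smul_smul]; exact hz _

/-- Semilinear extension. -/
def liftSemi (hg : IsScalarExtension φ g) {ψ : T →+* U} [Module U P] (h : M →+ P)
    (hh : ∀ s m, h (s • m) = ψ (φ s) • h m) : N →ₛₗ[ψ] P :=
  letI : Module T P := Module.compHom P ψ
  let l : N →ₗ[T] P := hg.lift { toFun := h, map_add' := h.map_add, map_smul' := hh }
  { toFun := l
    map_add' := l.map_add
    map_smul' := l.map_smul }

@[simp] theorem liftSemi_apply (hg : IsScalarExtension φ g) {ψ : T →+* U} [Module U P] (h : M →+ P)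
    (hh : ∀ s m, h (s • m) = ψ (φ s) • h m) (m : M) : hg.liftSemi h hh (g m) = h m :=
  letI : Module T P := Module.compHom P ψ
  hg.lift_apply { toFun := h, map_add' := h.map_add, map_smul' := hh } m

theorem hom_ext_semi (hg : IsScalarExtension φ g) {ψ : T →+* U} [Module U P]
    {f₁ f₂ : N →ₛₗ[ψ] P} (h : ∀ m, f₁ (g m) = f₂ (g m)) : f₁ = f₂ := by
  refine LinearMap.ext fun x => ?_
  refine IsScalarExtension.induction_on hg x (fun t m => ?_) fun a b ha hb => ?_
  · rw [f₁.map_smulₛₗ, f₂.map_smulₛₗ, h]
  · rw [map_add, map_add, ha, hb]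

/-- Two extensions of scalars of the same module are isomorphic. -/
def equiv (hg : IsScalarExtension φ g) {N' : Type u} [AddCommGroup N'] [Module T N']
    {g' : M →ₛₗ[φ] N'} (hg' : IsScalarExtension φ g') : N ≃ₗ[T] N' :=
  LinearEquiv.ofLinearMap (hg.lift g') (hg'.lift g) (hg'.hom_ext (by simp)) (hg.hom_ext (by simp))

@[simp] theorem equiv_apply (hg : IsScalarExtension φ g) {N' : Type u} [AddCommGroup N']
    [Module T N'] {g' : M →ₛₗ[φ] N'} (hg' : IsScalarExtension φ g') (m : M) :
    hg.equiv hg' (g m) = g' m :=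
  hg.lift_apply g' m

theorem of_equiv (hg : IsScalarExtension φ g) {N' : Type u} [AddCommGroup N'] [Module T N']
    (e : N ≃ₗ[T] N') {g' : M →ₛₗ[φ] N'} (h : ∀ m, g' m = e (g m)) :
    IsScalarExtension φ g' := by
  intro Q _ _ f
  refine ⟨hg.lift f ∘ₗ e.symm.toLinearMap, fun m => by simp [h], fun f' hf' => ?_⟩
  ext x
  have : f' ∘ₗ e.toLinearMap = hg.lift f := hg.hom_ext fun m => by simp [← h, hf']
  simpa using LinearMap.congr_fun this (e.symm x)

/-- Composition of extensions of scalars. -/
theorem comp (hg : IsScalarExtension φ g) {ψ : T →+* U} {χ : S →+* U} (hχ : ∀ s, χ s = ψ (φ s))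
    {O : Type u} [AddCommGroup O] [Module U O] {g₂ : N →ₛₗ[ψ] O} (hg₂ : IsScalarExtension ψ g₂)
    {g₃ : M →ₛₗ[χ] O} (h : ∀ m, g₃ m = g₂ (g m)) : IsScalarExtension χ g₃ := by
  intro Q _ _ f
  let f₂ : N →ₛₗ[ψ] Q := hg.liftSemi f.toAddMonoidHom fun s m => by
    show f (s • m) = _
    rw [f.map_smulₛₗ, hχ]; rfl
  have hf₂ : ∀ m, f₂ (g m) = f m := fun m => hg.liftSemi_apply _ _ m
  refine ⟨hg₂.lift f₂, fun m => by rw [h, hg₂.lift_apply, hf₂], fun f' hf' => ?_⟩
  refine hg₂.hom_ext fun n => ?_
  rw [hg₂.lift_apply]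
  refine IsScalarExtension.induction_on hg n (fun t m => ?_) fun a b ha hb => ?_
  · rw [g₂.map_smulₛₗ, map_smul, f₂.map_smulₛₗ, hf₂, ← h, hf']
  · rw [map_add, map_add, ha, hb, map_add]

/-- Cancellation for extensions of scalars. -/
theorem of_comp (hg : IsScalarExtension φ g) {ψ : T →+* U} {χ : S →+* U}
    (hχ : ∀ s, χ s = ψ (φ s)) {O : Type u} [AddCommGroup O] [Module U O] {g₃ : M →ₛₗ[χ] O}
    (hg₃ : IsScalarExtension χ g₃) {g₂ : N →ₛₗ[ψ] O} (h : ∀ m, g₃ m = g₂ (g m)) :
    IsScalarExtension ψ g₂ := by
  intro Q _ _ f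
  let f₃ : M →ₛₗ[χ] Q :=
    { toFun := fun m => f (g m)
      map_add' := fun a b => by rw [map_add, map_add]
      map_smul' := fun s m => by rw [g.map_smulₛₗ, f.map_smulₛₗ, hχ] }
  refine ⟨hg₃.lift f₃, fun n => ?_, fun f' hf' => ?_⟩
  · refine IsScalarExtension.induction_on hg n (fun t m => ?_) fun a b ha hb => ?_
    · rw [g₂.map_smulₛₗ, map_smul, f.map_smulₛₗ, ← h, hg₃.lift_apply]; rfl
    · rw [map_add, map_add, ha, hb, map_add]
  · refine hg₃.hom_ext fun m => ?_
    rw [hg₃.lift_apply, h, hf']
    rfl

/-- A semilinear map of a projective module along an injective ring map into its extension of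
scalars is injective. -/
theorem injective (hg : IsScalarExtension φ g) (hφ : Function.Injective φ)
    [Module.Projective S M] : Function.Injective g := by
  obtain ⟨s, hs⟩ := (Module.projective_def'.mp ‹Module.Projective S M›)
  rw [injective_iff_map_eq_zero]
  intro m hm
  have h0 : ∀ i, s m i = 0 := fun i => by
    refine hφ ?_
    let l : M →ₛₗ[φ] T :=
      { toFun := fun m => φ (s m i)
        map_add' := fun a b => by simp
        map_smul' := fun r a => by simp }
    have := hg.lift_apply l m
    rw [hm, map_zero] at this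
    rw [map_zero]
    exact this.symm
  have hm' := LinearMap.congr_fun hs m
  rw [LinearMap.comp_apply, show s m = 0 from Finsupp.ext h0, map_zero] at hm'
  exact hm'.symm

end IsScalarExtension

/-- Extension of scalars along a ring homomorphism, by the tensor product. -/
def ExtMod (φ : S →+* T) (M : Type u) [AddCommGroup M] [Module S M] : Type u :=
  letI := φ.toAlgebra
  T ⊗[S] M

namespace ExtMod

variable (φ : S →+* T) {L : Type u} [AddCommGroup L] [Module S L]

noncomputable instance : AddCommGroup (ExtMod φ L) :=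
  @TensorProduct.addCommGroup S _ T L _ _ φ.toAlgebra.toModule _

noncomputable instance : Module T (ExtMod φ L) :=
  letI := φ.toAlgebra
  (TensorProduct.leftModule : Module T (T ⊗[S] L))

/-- The canonical map. -/
def mk : L →ₛₗ[φ] ExtMod φ L :=
  letI := φ.toAlgebra
  { toFun := fun m => (1 : T) ⊗ₜ[S] m
    map_add' := fun a b => TensorProduct.tmul_add (1 : T) a b
    map_smul' := fun s m => by
      show (1 : T) ⊗ₜ[S] (s • m) = φ s • ((1 : T) ⊗ₜ[S] m)
      rw [TensorProduct.tmul_smul, ← algebraMap_smul T s, RingHom.algebraMap_toAlgebra] }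

theorem isScalarExtension : IsScalarExtension φ (mk φ (L := L)) := by
  intro P _ _ h
  let := φ.toAlgebra
  let : Module S P := Module.compHom P φ
  have : IsScalarTower S T P := IsScalarTower.of_algebraMap_smul fun _ _ => rfl
  let h0 : L →ₗ[S] P :=
    { toFun := h
      map_add' := h.map_add
      map_smul' := fun s m => by rw [h.map_smulₛₗ]; rfl }
  refine ⟨(TensorProduct.isBaseChange S L T).lift h0,
    fun m => LinearMap.congr_fun ((TensorProduct.isBaseChange S L T).lift_comp h0) m,
    fun h' hh' => ?_⟩
  refine (TensorProduct.isBaseChange S L T).algHom_ext' _ _ ?_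
  rw [(TensorProduct.isBaseChange S L T).lift_comp]
  exact LinearMap.ext hh'

instance [Module.Invertible S L] : Module.Invertible T (ExtMod φ L) := by
  let := φ.toAlgebra
  exact (inferInstance : Module.Invertible T (T ⊗[S] L))

end ExtMod

theorem IsScalarExtension.invertible {φ : S →+* T} {g : M →ₛₗ[φ] N}
    (hg : IsScalarExtension φ g) [Module.Invertible S M] : Module.Invertible T N :=
  Module.Invertible.congr ((ExtMod.isScalarExtension φ (L := M)).equiv hg)

/-- An extension of scalars along a pushout of rings is a base change. -/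
theorem IsScalarExtension.isBaseChange {R R' : Type u} [CommRing R] [CommRing R'] [Algebra R R']
    [Algebra R S] [Algebra R' T] [Algebra S T] [Algebra R T] [IsScalarTower R R' T]
    [IsScalarTower R S T] [Algebra.IsPushout R R' S T]
    [Module R M] [IsScalarTower R S M] [Module R' N] [IsScalarTower R' T N] [Module R N]
    [IsScalarTower R R' N] {g : M →ₛₗ[algebraMap S T] N} (hg : IsScalarExtension _ g)
    (g₀ : M →ₗ[R] N) (hg₀ : ∀ m, g₀ m = g m) : IsBaseChange R' g₀ := by
  let : Module S N := Module.compHom N (algebraMap S T)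
  have : IsScalarTower S T N := IsScalarTower.of_algebraMap_smul fun _ _ => rfl
  let g₁ : M →ₗ[S] N :=
    { toFun := g
      map_add' := g.map_add
      map_smul' := fun s m => by rw [g.map_smulₛₗ]; rfl }
  have h1 : IsBaseChange T g₁ := by
    refine IsBaseChange.of_lift_unique g₁ fun Q _ _ _ _ r => ?_
    let : AddCommGroup Q := Module.addCommMonoidToAddCommGroup T
    let r' : M →ₛₗ[algebraMap S T] Q :=
      { toFun := r
        map_add' := r.map_add
        map_smul' := fun s m => by rw [r.map_smul, algebraMap_smul] }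
    refine ⟨hg.lift r', LinearMap.ext fun m => hg.lift_apply r' m, fun f hf => ?_⟩
    refine hg.hom_ext fun m => ?_
    rw [hg.lift_apply]
    exact LinearMap.congr_fun hf m
  refine IsBaseChange.of_equiv
    ((Algebra.IsPushout.cancelBaseChange R R' S T M).symm ≪≫ₗ h1.equiv.restrictScalars R')
    fun m => ?_
  rw [LinearEquiv.trans_apply, Algebra.IsPushout.cancelBaseChange_symm_tmul, map_one,
    LinearEquiv.restrictScalars_apply, h1.equiv_tmul, one_smul, hg₀]
  rfl

end Fermat.Agent.Picard
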