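/-
Base change of triples: existence, uniqueness, composition, and compatibility with the Cech
differential.
-/
import Fermat.Agent.Picard.Algebra.Basics
import Fermat.Agent.Picard.Algebra.ScalarExtension

set_option autoImplicit false

universe u

open scoped TensorProduct

noncomputable section

namespace Fermat.Agent.Picard.TwoChart

variable {k : Type u} [Field k] {X : TwoChart k}
variable {R R' R'' : Type u} [CommRing R] [Algebra k R] [CommRing R'] [Algebra k R']
  [CommRing R''] [Algebra k R'']

@[simp] theorem baseHom_tmul (φ : R →ₐ[k] R') {S : Type u} [CommRing S] [Algebra k S] (r : R)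
    (s : S) : baseHom φ S (r ⊗ₜ[k] s) = φ r ⊗ₜ[k] s := by
  simp [baseHom]

theorem baseHom_comp (φ : R →ₐ[k] R') (ψ : R' →ₐ[k] R'') {S : Type u} [CommRing S] [Algebra k S]
    (z : R ⊗[k] S) : baseHom (ψ.comp φ) S z = baseHom ψ S (baseHom φ S z) := by
  induction z using TensorProduct.induction_on with
  | zero => simp
  | tmul r s => simp
  | add z w hz hw => simp [hz, hw]

theorem baseHom_id {S : Type u} [CommRing S] [Algebra k S] (z : R ⊗[k] S) :
    baseHom (AlgHom.id k R) S z = z := by
  induction z using TensorProduct.induction_on with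
  | zero => simp
  | tmul r s => simp
  | add z w hz hw => simp [hz, hw]

theorem baseHom_resA (φ : R →ₐ[k] R') (z : R ⊗[k] X.A) :
    baseHom φ X.W (X.resA R z) = X.resA R' (baseHom φ X.A z) := by
  induction z using TensorProduct.induction_on with
  | zero => simp
  | tmul r s => simp
  | add z w hz hw => simp [hz, hw]

theorem baseHom_resB (φ : R →ₐ[k] R') (z : R ⊗[k] X.B) :
    baseHom φ X.W (X.resB R z) = X.resB R' (baseHom φ X.B z) := by
  induction z using TensorProduct.induction_on with
  | zero => simp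
  | tmul r s => simp
  | add z w hz hw => simp [hz, hw]

theorem baseHom_tensorUnit (φ : R →ₐ[k] R') (u : X.Wˣ) :
    baseHom φ X.W (X.tensorUnit R u : R ⊗[k] X.W) = (X.tensorUnit R' u : R' ⊗[k] X.W) := by
  simp

/-! ### Localisation maps as extensions of scalars -/

section Loc

variable (R) {S T : Type u} [CommRing S] [CommRing T] [Algebra k S] [Algebra k T] [Algebra S T]
  [IsScalarTower k S T] (s : S) [IsLocalization.Away s T]

theorem exists_pow_mul_mem_range (z : R ⊗[k] T) :
    ∃ (n : ℕ) (a : R ⊗[k] S),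
      Algebra.TensorProduct.map (AlgHom.id R R) (IsScalarTower.toAlgHom k S T) a =
        ((1 : R) ⊗ₜ[k] algebraMap S T s) ^ n * z := by
  induction z using TensorProduct.induction_on with
  | zero => exact ⟨0, 0, by simp⟩
  | tmul r t =>
    obtain ⟨n, a, ha⟩ := IsLocalization.Away.surj s t
    refine ⟨n, r ⊗ₜ[k] a, ?_⟩
    simp [← ha, Algebra.TensorProduct.tmul_pow, mul_comm t]
  | add z w hz hw =>
    obtain ⟨n, a, ha⟩ := hz
    obtain ⟨m, b, hb⟩ := hw
    refine ⟨n + m, ((1 : R) ⊗ₜ[k] s) ^ m * a + ((1 : R) ⊗ₜ[k] s) ^ n * b, ?_⟩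
    simp only [map_add, map_mul, map_pow, ha, hb, Algebra.TensorProduct.map_tmul, map_one,
      IsScalarTower.coe_toAlgHom']
    ring

theorem map_injective_of_isDomain [IsDomain S] (hs : s ≠ 0) :
    Function.Injective
      (Algebra.TensorProduct.map (AlgHom.id R R) (IsScalarTower.toAlgHom k S T)) := by
  have h : Function.Injective (IsScalarTower.toAlgHom k S T) :=
    IsLocalization.injective T (powers_le_nonZeroDivisors_of_noZeroDivisors hs)
  have h' : Function.Injective ((IsScalarTower.toAlgHom k S T).toLinearMap.lTensor R) :=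
    Module.Flat.lTensor_preserves_injective_linearMap _ h
  intro a b hab
  refine h' ?_
  have key : ∀ z, (IsScalarTower.toAlgHom k S T).toLinearMap.lTensor R z =
      Algebra.TensorProduct.map (AlgHom.id R R) (IsScalarTower.toAlgHom k S T) z := fun z => by
    induction z using TensorProduct.induction_on with
    | zero => simp
    | tmul r t => simp
    | add z w hz hw => simp [hz, hw]
  rw [key, key, hab]

end Loc

theorem x_ne_zero (X : TwoChart k) : X.x ≠ 0 := by
  intro h
  have := X.injective_x (a₁ := Polynomial.X) (a₂ := 0) (by simp [h])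
  simp at this

theorem y_ne_zero (X : TwoChart k) : X.y ≠ 0 := by
  intro h
  have := X.injective_y (a₁ := Polynomial.X) (a₂ := 0) (by simp [h])
  simp at this

theorem resA_injective (X : TwoChart k) (R : Type u) [CommRing R] [Algebra k R] :
    Function.Injective (X.resA R) :=
  map_injective_of_isDomain R X.x X.x_ne_zero

theorem resB_injective (X : TwoChart k) (R : Type u) [CommRing R] [Algebra k R] :
    Function.Injective (X.resB R) :=
  map_injective_of_isDomain R X.y X.y_ne_zero

/-- A localisation presented elementwise is an extension of scalars. -/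
theorem isScalarExtension_of_loc {S T M N : Type u} [CommRing S] [CommRing T] [AddCommGroup M]
    [AddCommGroup N] [Module S M] [Module T N] {φ : S →+* T} (f : M →ₛₗ[φ] N) (s : S)
    (hs : IsUnit (φ s)) (hinj : Function.Injective f)
    (hT : ∀ z, ∃ (n : ℕ) (a : S), φ a = φ s ^ n * z)
    (hsurj : ∀ w, ∃ (n : ℕ) (m : M), φ s ^ n • w = f m) : IsScalarExtension φ f := by
  intro P _ _ h
  obtain ⟨v, hv⟩ := hs
  have pow_cancel : ∀ n, ((v⁻¹ ^ n : Tˣ) : T) * φ s ^ n = 1 := fun n => by
    rw [← hv, ← Units.val_pow_eq_pow_val, ← Units.val_mul, ← mul_pow, inv_mul_cancel, one_pow,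
      Units.val_one]
  choose n m hm using hsurj
  let g : N → P := fun w => ((v⁻¹ ^ n w : Tˣ) : T) • h (m w)
  have key : ∀ w j a, φ s ^ j • w = f a → φ s ^ j • g w = h a := by
    intro w j a hja
    have h1 : s ^ j • m w = s ^ n w • a := hinj <| by
      rw [f.map_smulₛₗ, f.map_smulₛₗ, map_pow, map_pow, ← hm, ← hja, smul_comm]
    have h2 : φ s ^ j • h (m w) = φ s ^ n w • h a := by
      rw [← map_pow, ← h.map_smulₛₗ, h1, h.map_smulₛₗ, map_pow]
    show φ s ^ j • _ • h (m w) = h a
    rw [smul_comm, h2, smul_smul, pow_cancel, one_smul]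
  have hval : ∀ w j a, φ s ^ j • w = f a → g w = ((v⁻¹ ^ j : Tˣ) : T) • h a := fun w j a hja => by
    rw [← key w j a hja, smul_smul, pow_cancel, one_smul]
  let gl : N →ₗ[T] P :=
    { toFun := g
      map_add' := fun w w' => by
        have h1 : φ s ^ (n w + n w') • (w + w') = f (s ^ n w' • m w + s ^ n w • m w') := by
          rw [map_add, f.map_smulₛₗ, f.map_smulₛₗ, map_pow, map_pow, ← hm, ← hm, smul_smul,
            smul_smul, smul_add, ← pow_add, ← pow_add, add_comm (n w') (n w)]
        rw [hval _ _ _ h1, map_add, h.map_smulₛₗ, h.map_smulₛₗ, map_pow, map_pow,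
          ← key w _ _ (hm w), ← key w' _ _ (hm w'), smul_smul (φ s ^ n w'), smul_smul (φ s ^ n w),
          ← pow_add, ← pow_add, add_comm (n w') (n w), ← smul_add, smul_smul, pow_cancel,
          one_smul]
      map_smul' := fun z w => by
        obtain ⟨j, a, ha⟩ := hT z
        have h1 : φ s ^ (j + n w) • (z • w) = f (a • m w) := by
          rw [f.map_smulₛₗ, ha, ← hm, smul_smul, smul_smul, pow_add]
          congr 1
          ring
        rw [RingHom.id_apply, hval _ _ _ h1, h.map_smulₛₗ, ha, ← key w _ _ (hm w), smul_smul,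
          smul_smul]
        congr 1
        calc _ = ((v⁻¹ ^ (j + n w) : Tˣ) : T) * φ s ^ (j + n w) * z := by ring
          _ = z := by rw [pow_cancel, one_mul] }
  refine ⟨gl, fun a => ?_, fun g' hg' => LinearMap.ext fun w => ?_⟩
  · show g (f a) = h a
    have := key (f a) 0 a (by simp)
    simpa using this
  · show g' w = g w
    have h3 : φ s ^ n w • g' w = h (m w) := by rw [← map_smul, hm, hg']
    show g' w = _ • h (m w)
    rw [← h3, smul_smul, pow_cancel, one_smul]

theorem isUnit_resA_x (X : TwoChart k) (R : Type u) [CommRing R] [Algebra k R] :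
    IsUnit (X.resA R ((1 : R) ⊗ₜ[k] X.x)) := by
  rw [resA_tmul]
  exact (X.tensorUnit R X.xUnit).isUnit

theorem isUnit_resB_y (X : TwoChart k) (R : Type u) [CommRing R] [Algebra k R] :
    IsUnit (X.resB R ((1 : R) ⊗ₜ[k] X.y)) := by
  rw [resB_tmul]
  exact (X.tensorUnit R X.xUnit⁻¹).isUnit

theorem Tri.univ_fA (L : X.Tri R) : IsScalarExtension (X.resA R) L.fA := by
  refine isScalarExtension_of_loc L.fA ((1 : R) ⊗ₜ[k] X.x) (X.isUnit_resA_x R) L.fA_injective
    (fun z => ?_) fun w => ?_
  · obtain ⟨n, a, ha⟩ := exists_pow_mul_mem_range R (T := X.W) X.x z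
    exact ⟨n, a, by rw [resA_tmul]; exact ha⟩
  · rw [resA_tmul]; exact L.surjA w

theorem Tri.univ_fB (L : X.Tri R) : IsScalarExtension (X.resB R) L.fB := by
  refine isScalarExtension_of_loc L.fB ((1 : R) ⊗ₜ[k] X.y) (X.isUnit_resB_y R) L.fB_injective
    (fun z => ?_) fun w => ?_
  · obtain ⟨n, a, ha⟩ := exists_pow_mul_mem_range R (T := X.W) X.y z
    exact ⟨n, a, by rw [resB_tmul]; exact ha⟩
  · rw [resB_tmul]; exact L.surjB w

theorem loc_surj_of_univ {S T M N : Type u} [CommRing S] [CommRing T] [AddCommGroup M]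
    [AddCommGroup N] [Module S M] [Module T N] {φ : S →+* T} {f : M →ₛₗ[φ] N}
    (hf : IsScalarExtension φ f) (s : S) (hT : ∀ z, ∃ (n : ℕ) (a : S), φ a = φ s ^ n * z) (w : N) :
    ∃ (n : ℕ) (m : M), φ s ^ n • w = f m := by
  refine IsScalarExtension.induction_on hf w (fun z m => ?_) fun w w' hw hw' => ?_
  · obtain ⟨n, a, ha⟩ := hT z
    exact ⟨n, a • m, by rw [smul_smul, ← ha, f.map_smulₛₗ]⟩
  · obtain ⟨n, m, h1⟩ := hw
    obtain ⟨n', m', h2⟩ := hw'
    refine ⟨n + n', s ^ n' • m + s ^ n • m', ?_⟩
    rw [map_add, f.map_smulₛₗ, f.map_smulₛₗ, map_pow, map_pow, ← h1, ← h2, smul_smul, smul_smul,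
      smul_add, ← pow_add, ← pow_add, add_comm n' n]

/-! ### The base change of a triple -/

/-- First restriction of the base change. -/
def Tri.baseChangeFA (L : X.Tri R) (φ : R →ₐ[k] R') :
    ExtMod (baseHom φ X.A) L.MA →ₛₗ[X.resA R'] ExtMod (baseHom φ X.W) L.MW :=
  (ExtMod.isScalarExtension (baseHom φ X.A) (L := L.MA)).liftSemi
    ((ExtMod.mk (baseHom φ X.W) (L := L.MW)).toAddMonoidHom.comp L.fA.toAddMonoidHom)
    fun s m => by simp [baseHom_resA]

/-- Second restriction of the base change. -/
def Tri.baseChangeFB (L : X.Tri R) (φ : R →ₐ[k] R') :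
    ExtMod (baseHom φ X.B) L.MB →ₛₗ[X.resB R'] ExtMod (baseHom φ X.W) L.MW :=
  (ExtMod.isScalarExtension (baseHom φ X.B) (L := L.MB)).liftSemi
    ((ExtMod.mk (baseHom φ X.W) (L := L.MW)).toAddMonoidHom.comp L.fB.toAddMonoidHom)
    fun s m => by simp [baseHom_resB]

theorem Tri.baseChangeFA_mk (L : X.Tri R) (φ : R →ₐ[k] R') (m : L.MA) :
    L.baseChangeFA φ (ExtMod.mk _ m) = ExtMod.mk _ (L.fA m) :=
  IsScalarExtension.liftSemi_apply _ _ _ m

theorem Tri.baseChangeFB_mk (L : X.Tri R) (φ : R →ₐ[k] R') (m : L.MB) :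
    L.baseChangeFB φ (ExtMod.mk _ m) = ExtMod.mk _ (L.fB m) :=
  IsScalarExtension.liftSemi_apply _ _ _ m

theorem Tri.univ_baseChangeFA (L : X.Tri R) (φ : R →ₐ[k] R') :
    IsScalarExtension (X.resA R') (L.baseChangeFA φ) :=
  (ExtMod.isScalarExtension (baseHom φ X.A) (L := L.MA)).of_comp (χ := (baseHom φ X.W).comp (X.resA R))
    (fun s => by simp [baseHom_resA])
    (g₃ :=
      { toFun := fun m => ExtMod.mk (baseHom φ X.W) (L.fA m)
        map_add' := fun a b => by simp
        map_smul' := fun s m => by simp })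
    (L.univ_fA.comp (fun _ => rfl) (ExtMod.isScalarExtension (baseHom φ X.W)) fun _ => rfl)
    fun m => (L.baseChangeFA_mk φ m).symm

theorem Tri.univ_baseChangeFB (L : X.Tri R) (φ : R →ₐ[k] R') :
    IsScalarExtension (X.resB R') (L.baseChangeFB φ) :=
  (ExtMod.isScalarExtension (baseHom φ X.B) (L := L.MB)).of_comp (χ := (baseHom φ X.W).comp (X.resB R))
    (fun s => by simp [baseHom_resB])
    (g₃ :=
      { toFun := fun m => ExtMod.mk (baseHom φ X.W) (L.fB m)
        map_add' := fun a b => by simp
        map_smul' := fun s m => by simp })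
    (L.univ_fB.comp (fun _ => rfl) (ExtMod.isScalarExtension (baseHom φ X.W)) fun _ => rfl)
    fun m => (L.baseChangeFB_mk φ m).symm

/-- The base change of a triple. -/
def Tri.baseChange (L : X.Tri R) (φ : R →ₐ[k] R') : X.Tri R' where
  MA := ExtMod (baseHom φ X.A) L.MA
  MB := ExtMod (baseHom φ X.B) L.MB
  MW := ExtMod (baseHom φ X.W) L.MW
  fA := L.baseChangeFA φ
  fB := L.baseChangeFB φ
  surjA w := by
    obtain ⟨n, m, h⟩ := loc_surj_of_univ (L.univ_baseChangeFA φ) ((1 : R') ⊗ₜ[k] X.x) (fun z => by
      obtain ⟨n, a, ha⟩ := exists_pow_mul_mem_range R' (T := X.W) X.x z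
      exact ⟨n, a, by rw [resA_tmul]; exact ha⟩) w
    exact ⟨n, m, by rwa [resA_tmul] at h⟩
  injA m hm := ⟨0, by
    rw [pow_zero, one_smul]
    exact (L.univ_baseChangeFA φ).injective (X.resA_injective R') (hm.trans (map_zero _).symm)⟩
  surjB w := by
    obtain ⟨n, m, h⟩ := loc_surj_of_univ (L.univ_baseChangeFB φ) ((1 : R') ⊗ₜ[k] X.y) (fun z => by
      obtain ⟨n, a, ha⟩ := exists_pow_mul_mem_range R' (T := X.W) X.y z
      exact ⟨n, a, by rw [resB_tmul]; exact ha⟩) w
    exact ⟨n, m, by rwa [resB_tmul] at h⟩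
  injB m hm := ⟨0, by
    rw [pow_zero, one_smul]
    exact (L.univ_baseChangeFB φ).injective (X.resB_injective R') (hm.trans (map_zero _).symm)⟩

/-- The base change is a pullback. -/
def Tri.pullbackBaseChange (L : X.Tri R) (φ : R →ₐ[k] R') : Tri.Pullback φ L (L.baseChange φ) where
  gA := ExtMod.mk _
  gB := ExtMod.mk _
  gW := ExtMod.mk _
  commA m := (L.baseChangeFA_mk φ m).symm
  commB m := (L.baseChangeFB_mk φ m).symm
  univA := ExtMod.isScalarExtension _
  univB := ExtMod.isScalarExtension _
  univW := ExtMod.isScalarExtension _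

variable {φ : R →ₐ[k] R'} {L : X.Tri R} {L' L'' : X.Tri R'}

/-- Pullbacks are unique up to isomorphism. -/
def Tri.Pullback.equiv (P : Tri.Pullback φ L L') (P' : Tri.Pullback φ L L'') :
    L'.Equiv L'' where
  eA := P.univA.equiv P'.univA
  eB := P.univB.equiv P'.univB
  eW := P.univW.equiv P'.univW
  commA m := by
    refine IsScalarExtension.induction_on P.univA m (fun t m => ?_) fun a b ha hb => ?_
    · simp only [LinearMap.map_smulₛₗ, map_smul, IsScalarExtension.equiv_apply, ← P.commA,
        ← P'.commA]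
    · simp only [map_add, ha, hb]
  commB m := by
    refine IsScalarExtension.induction_on P.univB m (fun t m => ?_) fun a b ha hb => ?_
    · simp only [LinearMap.map_smulₛₗ, map_smul, IsScalarExtension.equiv_apply, ← P.commB,
        ← P'.commB]
    · simp only [map_add, ha, hb]

/-- Post-composing a pullback with an isomorphism. -/
def Tri.Pullback.congrRight (P : Tri.Pullback φ L L') (e : L'.Equiv L'') :
    Tri.Pullback φ L L'' where
  gA := { toFun := fun m => e.eA (P.gA m), map_add' := fun a b => by simp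
          map_smul' := fun s m => by simp }
  gB := { toFun := fun m => e.eB (P.gB m), map_add' := fun a b => by simp
          map_smul' := fun s m => by simp }
  gW := { toFun := fun m => e.eW (P.gW m), map_add' := fun a b => by simp
          map_smul' := fun s m => by simp }
  commA m := by simp [P.commA, e.commA]
  commB m := by simp [P.commB, e.commB]
  univA := P.univA.of_equiv e.eA fun _ => rfl
  univB := P.univB.of_equiv e.eB fun _ => rfl
  univW := P.univW.of_equiv e.eW fun _ => rfl

theorem isScalarExtension_precomp_equiv {S T M M' N : Type u} [CommRing S] [CommRing T]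
    [AddCommGroup M] [AddCommGroup M'] [AddCommGroup N] [Module S M] [Module S M'] [Module T N]
    {φ : S →+* T} {g : M →ₛₗ[φ] N} (hg : IsScalarExtension φ g) (e : M' ≃ₗ[S] M)
    {g' : M' →ₛₗ[φ] N} (h : ∀ m, g' m = g (e m)) : IsScalarExtension φ g' := by
  intro Q _ _ f
  let f' : M →ₛₗ[φ] Q :=
    { toFun := fun m => f (e.symm m)
      map_add' := fun a b => by simp
      map_smul' := fun s m => by simp }
  refine ⟨hg.lift f', fun m => ?_, fun l hl => hg.hom_ext fun m => ?_⟩
  · rw [h, hg.lift_apply]
    show f (e.symm (e m)) = f m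
    rw [e.symm_apply_apply]
  · rw [hg.lift_apply]
    show l (g m) = f (e.symm m)
    rw [← hl, h, e.apply_symm_apply]

/-- Pre-composing a pullback with an isomorphism. -/
def Tri.Pullback.congrLeft {L₁ : X.Tri R} (e : L₁.Equiv L) (P : Tri.Pullback φ L L') :
    Tri.Pullback φ L₁ L' where
  gA := { toFun := fun m => P.gA (e.eA m), map_add' := fun a b => by simp
          map_smul' := fun s m => by simp }
  gB := { toFun := fun m => P.gB (e.eB m), map_add' := fun a b => by simp
          map_smul' := fun s m => by simp }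
  gW := { toFun := fun m => P.gW (e.eW m), map_add' := fun a b => by simp
          map_smul' := fun s m => by simp }
  commA m := by simp [← P.commA, e.commA]
  commB m := by simp [← P.commB, e.commB]
  univA := isScalarExtension_precomp_equiv P.univA e.eA fun _ => rfl
  univB := isScalarExtension_precomp_equiv P.univB e.eB fun _ => rfl
  univW := isScalarExtension_precomp_equiv P.univW e.eW fun _ => rfl

/-- Composition of pullbacks. -/
def Tri.Pullback.comp {ψ : R' →ₐ[k] R''} {L₂ : X.Tri R''} (P : Tri.Pullback φ L L')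
    (Q : Tri.Pullback ψ L' L₂) : Tri.Pullback (ψ.comp φ) L L₂ where
  gA := { toFun := fun m => Q.gA (P.gA m), map_add' := fun a b => by simp
          map_smul' := fun s m => by simp [baseHom_comp] }
  gB := { toFun := fun m => Q.gB (P.gB m), map_add' := fun a b => by simp
          map_smul' := fun s m => by simp [baseHom_comp] }
  gW := { toFun := fun m => Q.gW (P.gW m), map_add' := fun a b => by simp
          map_smul' := fun s m => by simp [baseHom_comp] }
  commA m := by simp [P.commA, Q.commA]
  commB m := by simp [P.commB, Q.commB]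
  univA := P.univA.comp (baseHom_comp φ ψ) Q.univA fun _ => rfl
  univB := P.univB.comp (baseHom_comp φ ψ) Q.univB fun _ => rfl
  univW := P.univW.comp (baseHom_comp φ ψ) Q.univW fun _ => rfl

/-- An isomorphism is a pullback along the identity. -/
def Tri.Equiv.toPullback {L L₁ : X.Tri R} (e : L.Equiv L₁) :
    Tri.Pullback (AlgHom.id k R) L L₁ where
  gA := { toFun := e.eA, map_add' := fun a b => by simp
          map_smul' := fun s m => by simp [baseHom_id] }
  gB := { toFun := e.eB, map_add' := fun a b => by simp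
          map_smul' := fun s m => by simp [baseHom_id] }
  gW := { toFun := e.eW, map_add' := fun a b => by simp
          map_smul' := fun s m => by simp [baseHom_id] }
  commA := e.commA
  commB := e.commB
  univA := isScalarExtension_of_id e.eA fun _ => rfl
  univB := isScalarExtension_of_id e.eB fun _ => rfl
  univW := isScalarExtension_of_id e.eW fun _ => rfl
where
  isScalarExtension_of_id {S M N : Type u} [CommRing S] [Algebra k S]
      [AddCommGroup M] [AddCommGroup N] [Module (R ⊗[k] S) M] [Module (R ⊗[k] S) N]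
      (e : M ≃ₗ[R ⊗[k] S] N) {g : M →ₛₗ[baseHom (AlgHom.id k R) S] N} (h : ∀ m, g m = e m) :
      IsScalarExtension (baseHom (AlgHom.id k R) S) g := by
    intro Q _ _ f
    refine ⟨{ toFun := fun n => f (e.symm n), map_add' := fun a b => by simp,
              map_smul' := fun s m => by simp [baseHom_id] },
      fun m => by simp [h], fun l hl => LinearMap.ext fun n => ?_⟩
    show l n = f (e.symm n)
    rw [← hl, h, e.apply_symm_apply]

/-- Twisting commutes with pullback. -/
def Tri.Pullback.twist (P : Tri.Pullback φ L L') (u : X.Wˣ) :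
    Tri.Pullback φ (L.twist u) (L'.twist u) where
  gA := P.gA
  gB := P.gB
  gW := P.gW
  commA := P.commA
  commB m := by
    show P.gW ((X.tensorUnit R u : R ⊗[k] X.W) • L.fB m) =
      (X.tensorUnit R' u : R' ⊗[k] X.W) • L'.fB (P.gB m)
    rw [LinearMap.map_smulₛₗ, baseHom_tensorUnit]
    exact congrArg _ (P.commB m)
  univA := P.univA
  univB := P.univB
  univW := P.univW

end Fermat.Agent.Picard.TwoChart
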