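/-
The trivial triple and tensor products of triples, compatible with base change.
-/
import Fermat.Agent.Picard.Algebra.BaseChange

set_option autoImplicit false

universe u

open scoped TensorProduct

noncomputable section

namespace Fermat.Agent.Picard

namespace IsScalarExtension

variable {S T : Type u} [CommRing S] [CommRing T] {φ : S →+* T}
variable {M N M' N' : Type u} [AddCommGroup M] [AddCommGroup N] [AddCommGroup M'] [AddCommGroup N']
variable [Module S M] [Module T N] [Module S M'] [Module T N']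

/-- The tensor product of two semilinear maps. -/
def tensorMap (g : M →ₛₗ[φ] N) (g' : M' →ₛₗ[φ] N') : M ⊗[S] M' →ₛₗ[φ] N ⊗[T] N' :=
  TensorProduct.lift
    (LinearMap.mk₂'ₛₗ φ φ (fun m m' => g m ⊗ₜ[T] g' m')
      (fun m₁ m₂ m' => by rw [map_add, TensorProduct.add_tmul])
      (fun c m m' => by rw [g.map_smulₛₗ, TensorProduct.smul_tmul'])
      (fun m m₁ m₂ => by rw [map_add, TensorProduct.tmul_add])
      fun c m m' => by rw [g'.map_smulₛₗ, TensorProduct.tmul_smul])

@[simp] theorem tensorMap_tmul (g : M →ₛₗ[φ] N) (g' : M' →ₛₗ[φ] N') (m : M) (m' : M') :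
    tensorMap g g' (m ⊗ₜ[S] m') = g m ⊗ₜ[T] g' m' := rfl

/-- The tensor product of two extensions of scalars is an extension of scalars. -/
theorem tensor {g : M →ₛₗ[φ] N} {g' : M' →ₛₗ[φ] N'} (hg : IsScalarExtension φ g)
    (hg' : IsScalarExtension φ g') : IsScalarExtension φ (tensorMap g g') := by
  intro P _ _ h
  let inner : M' → (M →ₛₗ[φ] P) := fun m' =>
    { toFun := fun m => h (m ⊗ₜ[S] m')
      map_add' := fun a b => by rw [TensorProduct.add_tmul, map_add]
      map_smul' := fun c m => by rw [← TensorProduct.smul_tmul', h.map_smulₛₗ] }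
  let outer : M' →ₛₗ[φ] (N →ₗ[T] P) :=
    { toFun := fun m' => hg.lift (inner m')
      map_add' := fun a b => hg.hom_ext fun m => by
        rw [LinearMap.add_apply, hg.lift_apply, hg.lift_apply, hg.lift_apply]
        show h (m ⊗ₜ[S] (a + b)) = h (m ⊗ₜ[S] a) + h (m ⊗ₜ[S] b)
        rw [TensorProduct.tmul_add, map_add]
      map_smul' := fun c m' => hg.hom_ext fun m => by
        rw [LinearMap.smul_apply, hg.lift_apply, hg.lift_apply]
        show h (m ⊗ₜ[S] (c • m')) = φ c • h (m ⊗ₜ[S] m')
        rw [TensorProduct.tmul_smul, h.map_smulₛₗ] }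
  refine ⟨TensorProduct.lift (hg'.lift outer).flip, fun z => ?_, fun l hl => ?_⟩
  · induction z using TensorProduct.induction_on with
    | zero => simp
    | tmul m m' =>
      rw [tensorMap_tmul, TensorProduct.lift.tmul, LinearMap.flip_apply, hg'.lift_apply]
      exact hg.lift_apply (inner m') m
    | add a b ha hb => simp [ha, hb]
  · refine TensorProduct.ext' fun n n' => ?_
    rw [TensorProduct.lift.tmul, LinearMap.flip_apply]
    refine IsScalarExtension.induction_on hg' n' (fun t m' => ?_) fun a b ha hb => ?_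
    · rw [TensorProduct.tmul_smul, map_smul, map_smul, LinearMap.smul_apply, hg'.lift_apply]
      congr 1
      refine IsScalarExtension.induction_on hg n (fun s m => ?_) fun a b ha hb => ?_
      · rw [← TensorProduct.smul_tmul', map_smul, map_smul, ← tensorMap_tmul, hl]
        exact congrArg _ (hg.lift_apply (inner m') m).symm
      · rw [TensorProduct.add_tmul, map_add, map_add, ha, hb]
    · rw [TensorProduct.tmul_add, map_add, map_add, LinearMap.add_apply, ha, hb]

/-- The ring map itself is an extension of scalars. -/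
theorem self (φ : S →+* T) : IsScalarExtension φ φ.toSemilinearMap := by
  intro P _ _ h
  refine ⟨LinearMap.toSpanSingleton T P (h 1), fun s => ?_, fun l hl => ?_⟩
  · show φ s • h 1 = h s
    rw [← h.map_smulₛₗ, smul_eq_mul, mul_one]
  · ext
    rw [LinearMap.toSpanSingleton_apply, one_smul, ← hl 1]
    show l 1 = l (φ 1)
    exact (congrArg l (map_one φ)).symm

end IsScalarExtension

/-- Two composites out of a tensor product agree if they agree on pure tensors. -/
theorem tensor_comm_ext {S M M' B C P : Type u} [CommRing S] [AddCommGroup M] [AddCommGroup M']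
    [Module S M] [Module S M'] [AddCommGroup B] [AddCommGroup C] [AddCommGroup P]
    {F G F' G' : Type u} [FunLike F (M ⊗[S] M') B] [AddMonoidHomClass F (M ⊗[S] M') B]
    [FunLike G B P] [AddMonoidHomClass G B P] [FunLike F' (M ⊗[S] M') C]
    [AddMonoidHomClass F' (M ⊗[S] M') C] [FunLike G' C P] [AddMonoidHomClass G' C P]
    {f : F} {g : G} {f' : F'} {g' : G'}
    (h : ∀ a b, g (f (a ⊗ₜ[S] b)) = g' (f' (a ⊗ₜ[S] b))) (z : M ⊗[S] M') :
    g (f z) = g' (f' z) := by
  induction z using TensorProduct.induction_on with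
  | zero => simp
  | tmul a b => exact h a b
  | add a b ha hb => simp [ha, hb]

/-- Two composites out of a triple tensor product agree if they agree on pure tensors. -/
theorem tensor_comm_ext₃ {S M M' M'' B C P : Type u} [CommRing S] [AddCommGroup M] [AddCommGroup M']
    [AddCommGroup M''] [Module S M] [Module S M'] [Module S M''] [AddCommGroup B] [AddCommGroup C]
    [AddCommGroup P] {F G F' G' : Type u} [FunLike F ((M ⊗[S] M') ⊗[S] M'') B]
    [AddMonoidHomClass F ((M ⊗[S] M') ⊗[S] M'') B] [FunLike G B P] [AddMonoidHomClass G B P]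
    [FunLike F' ((M ⊗[S] M') ⊗[S] M'') C] [AddMonoidHomClass F' ((M ⊗[S] M') ⊗[S] M'') C]
    [FunLike G' C P] [AddMonoidHomClass G' C P]
    {f : F} {g : G} {f' : F'} {g' : G'}
    (h : ∀ a b c, g (f ((a ⊗ₜ[S] b) ⊗ₜ[S] c)) = g' (f' ((a ⊗ₜ[S] b) ⊗ₜ[S] c)))
    (z : (M ⊗[S] M') ⊗[S] M'') : g (f z) = g' (f' z) := by
  refine tensor_comm_ext (fun ab c => ?_) z
  induction ab using TensorProduct.induction_on with
  | zero => simp
  | tmul a b => exact h a b c
  | add a b ha hb => simp [TensorProduct.add_tmul, ha, hb]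

namespace TwoChart

variable {k : Type u} [Field k] (X : TwoChart k)
variable {R R' : Type u} [CommRing R] [Algebra k R] [CommRing R'] [Algebra k R']

variable (R) in
/-- The structure sheaf as a triple. -/
def trivialTri : X.Tri R where
  MA := R ⊗[k] X.A
  MB := R ⊗[k] X.B
  MW := R ⊗[k] X.W
  fA := (X.resA R).toSemilinearMap
  fB := (X.resB R).toSemilinearMap
  surjA z := by
    obtain ⟨n, a, ha⟩ := exists_pow_mul_mem_range R (T := X.W) X.x z
    exact ⟨n, a, ha.symm⟩
  injA m hm := ⟨0, by
    rw [pow_zero, one_smul]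
    exact X.resA_injective R (hm.trans (map_zero _).symm)⟩
  surjB z := by
    obtain ⟨n, a, ha⟩ := exists_pow_mul_mem_range R (T := X.W) X.y z
    exact ⟨n, a, ha.symm⟩
  injB m hm := ⟨0, by
    rw [pow_zero, one_smul]
    exact X.resB_injective R (hm.trans (map_zero _).symm)⟩

/-- The trivial triple pulls back to the trivial triple. -/
def trivialPullback (φ : R →ₐ[k] R') : Tri.Pullback φ (X.trivialTri R) (X.trivialTri R') where
  gA := (baseHom φ X.A).toSemilinearMap
  gB := (baseHom φ X.B).toSemilinearMap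
  gW := (baseHom φ X.W).toSemilinearMap
  commA m := baseHom_resA φ m
  commB m := baseHom_resB φ m
  univA := IsScalarExtension.self _
  univB := IsScalarExtension.self _
  univW := IsScalarExtension.self _

variable {X}

/-- Tensor product of triples. -/
def Tri.tensor (L M : X.Tri R) : X.Tri R where
  MA := L.MA ⊗[R ⊗[k] X.A] M.MA
  MB := L.MB ⊗[R ⊗[k] X.B] M.MB
  MW := L.MW ⊗[R ⊗[k] X.W] M.MW
  fA := IsScalarExtension.tensorMap L.fA M.fA
  fB := IsScalarExtension.tensorMap L.fB M.fB
  surjA w := by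
    obtain ⟨n, m, h⟩ := loc_surj_of_univ (L.univ_fA.tensor M.univ_fA) ((1 : R) ⊗ₜ[k] X.x)
      (fun z => by
        obtain ⟨n, a, ha⟩ := exists_pow_mul_mem_range R (T := X.W) X.x z
        exact ⟨n, a, by rw [resA_tmul]; exact ha⟩) w
    exact ⟨n, m, by rwa [resA_tmul] at h⟩
  injA m hm := ⟨0, by
    rw [pow_zero, one_smul]
    exact (L.univ_fA.tensor M.univ_fA).injective (X.resA_injective R)
      (hm.trans (map_zero _).symm)⟩
  surjB w := by
    obtain ⟨n, m, h⟩ := loc_surj_of_univ (L.univ_fB.tensor M.univ_fB) ((1 : R) ⊗ₜ[k] X.y)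
      (fun z => by
        obtain ⟨n, a, ha⟩ := exists_pow_mul_mem_range R (T := X.W) X.y z
        exact ⟨n, a, by rw [resB_tmul]; exact ha⟩) w
    exact ⟨n, m, by rwa [resB_tmul] at h⟩
  injB m hm := ⟨0, by
    rw [pow_zero, one_smul]
    exact (L.univ_fB.tensor M.univ_fB).injective (X.resB_injective R)
      (hm.trans (map_zero _).symm)⟩

/-- Pullback commutes with tensor products. -/
def Tri.Pullback.tensor {φ : R →ₐ[k] R'} {L M : X.Tri R} {L' M' : X.Tri R'}
    (P : Tri.Pullback φ L L') (Q : Tri.Pullback φ M M') :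
    Tri.Pullback φ (L.tensor M) (L'.tensor M') where
  gA := IsScalarExtension.tensorMap P.gA Q.gA
  gB := IsScalarExtension.tensorMap P.gB Q.gB
  gW := IsScalarExtension.tensorMap P.gW Q.gW
  commA z := by
    refine tensor_comm_ext (fun a b => ?_) z
    show P.gW (L.fA a) ⊗ₜ[R' ⊗[k] X.W] Q.gW (M.fA b) =
      L'.fA (P.gA a) ⊗ₜ[R' ⊗[k] X.W] M'.fA (Q.gA b)
    rw [P.commA, Q.commA]
  commB z := by
    refine tensor_comm_ext (fun a b => ?_) z
    show P.gW (L.fB a) ⊗ₜ[R' ⊗[k] X.W] Q.gW (M.fB b) =
      L'.fB (P.gB a) ⊗ₜ[R' ⊗[k] X.W] M'.fB (Q.gB b)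
    rw [P.commB, Q.commB]
  univA := P.univA.tensor Q.univA
  univB := P.univB.tensor Q.univB
  univW := P.univW.tensor Q.univW

/-- Tensor products are functorial in isomorphisms. -/
def Tri.Equiv.tensor {L M L' M' : X.Tri R} (e : L.Equiv L') (f : M.Equiv M') :
    (L.tensor M).Equiv (L'.tensor M') where
  eA := TensorProduct.congr e.eA f.eA
  eB := TensorProduct.congr e.eB f.eB
  eW := TensorProduct.congr e.eW f.eW
  commA z := by
    refine tensor_comm_ext (fun a b => ?_) z
    show e.eW (L.fA a) ⊗ₜ[R ⊗[k] X.W] f.eW (M.fA b) =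
      L'.fA (e.eA a) ⊗ₜ[R ⊗[k] X.W] M'.fA (f.eA b)
    rw [e.commA, f.commA]
  commB z := by
    refine tensor_comm_ext (fun a b => ?_) z
    show e.eW (L.fB a) ⊗ₜ[R ⊗[k] X.W] f.eW (M.fB b) =
      L'.fB (e.eB a) ⊗ₜ[R ⊗[k] X.W] M'.fB (f.eB b)
    rw [e.commB, f.commB]

/-- Associativity of tensor products of triples. -/
def Tri.tensorAssoc (L M N : X.Tri R) :
    ((L.tensor M).tensor N).Equiv (L.tensor (M.tensor N)) where
  eA := TensorProduct.assoc _ _ _ _
  eB := TensorProduct.assoc _ _ _ _
  eW := TensorProduct.assoc _ _ _ _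
  commA z := by
    refine tensor_comm_ext₃ (fun a b c => ?_) z
    rfl
  commB z := by
    refine tensor_comm_ext₃ (fun a b c => ?_) z
    rfl

/-- The trivial triple is a unit for the tensor product. -/
def Tri.tensorTrivial (L : X.Tri R) : (L.tensor (X.trivialTri R)).Equiv L where
  eA := TensorProduct.rid _ _
  eB := TensorProduct.rid _ _
  eW := TensorProduct.rid _ _
  commA z := by
    refine tensor_comm_ext (fun a b => ?_) z
    show (@id (R ⊗[k] X.W) (X.resA R (@id (R ⊗[k] X.A) b))) • L.fA a = L.fA ((@id (R ⊗[k] X.A) b) • a)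
    rw [L.fA.map_smulₛₗ]
    rfl
  commB z := by
    refine tensor_comm_ext (fun a b => ?_) z
    show (@id (R ⊗[k] X.W) (X.resB R (@id (R ⊗[k] X.B) b))) • L.fB a = L.fB ((@id (R ⊗[k] X.B) b) • a)
    rw [L.fB.map_smulₛₗ]
    rfl

end TwoChart

end Fermat.Agent.Picard
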