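/-
Normalised triples, triples of fibrewise degree zero, fibres at rational points.
-/
import Fermat.Agent.Picard.Algebra.Tensor
import Mathlib.Algebra.Module.LinearMap.Index

set_option autoImplicit false

universe u

open scoped TensorProduct

noncomputable section

namespace Fermat.Agent.Picard.TwoChart

variable {k : Type u} [Field k] (X : TwoChart k)
variable (R : Type u) [CommRing R] [Algebra k R]

/-- Evaluation of `R ⊗ A` at a rational point of `Spec A`. -/
def evalAt (σ : X.A →ₐ[k] k) : R ⊗[k] X.A →+* R :=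
  ((Algebra.TensorProduct.rid k R R).toAlgHom.comp
    (Algebra.TensorProduct.map (AlgHom.id R R) σ)).toRingHom

theorem evalε_eq_evalAt : X.evalε R = X.evalAt R X.ε := rfl

@[simp] theorem evalAt_tmul (σ : X.A →ₐ[k] k) (r : R) (a : X.A) :
    X.evalAt R σ (r ⊗ₜ[k] a) = σ a • r := by
  simp [evalAt]

variable {X R}

/-- The restriction of the triple to the marked section is trivial. -/
def Tri.Normalised (L : X.Tri R) : Prop :=
  ∃ g : L.MA →ₛₗ[X.evalε R] R, IsScalarExtension (X.evalε R) g

/-- Every fibre has the Euler characteristic of the structure sheaf. -/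
def Tri.Deg0 (L : X.Tri R) : Prop :=
  ∀ (K : Type u) (_ : Field K) (_ : Algebra k K) (φ : R →ₐ[k] K) (L' : X.Tri K)
    (_ : Tri.Pullback φ L L'), L'.diff.index = (X.trivialTri K).diff.index

/-- The fibre at a rational point of `Spec A`. -/
abbrev Tri.fibre (L : X.Tri R) (σ : X.A →ₐ[k] k) : Type u :=
  L.MA ⧸ (RingHom.ker (X.evalAt R σ) • ⊤ : Submodule (R ⊗[k] X.A) L.MA).restrictScalars R

/-- Evaluation of global sections at a rational point. -/
def Tri.evalFib (L : X.Tri R) (σ : X.A →ₐ[k] k) : L.H0 →ₗ[R] L.fibre σ :=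
  ((RingHom.ker (X.evalAt R σ) • ⊤ : Submodule (R ⊗[k] X.A) L.MA).restrictScalars R).mkQ ∘ₗ
    LinearMap.fst R L.MA L.MB ∘ₗ L.H0.subtype

/-- Evaluation of global sections at a family of rational points. -/
def Tri.evalFibs (L : X.Tri R) {n : ℕ} (q : Fin n → (X.A →ₐ[k] k)) :
    L.H0 →ₗ[R] ∀ l, L.fibre (q l) :=
  LinearMap.pi fun l => L.evalFib (q l)

end Fermat.Agent.Picard.TwoChart
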