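/-
Translations and the open conditions defining the affine charts of the Jacobian.
-/
import Fermat.Agent.Picard.Algebra.Defs
import Fermat.Agent.Picard.Points.ToTri

set_option autoImplicit false

universe u

open scoped TensorProduct

noncomputable section

namespace Fermat.Agent.Picard.TwoChart

variable {k : Type u} [Field k]

/-- The degree of the coordinate `x`. -/
def rankX (X : TwoChart k) : ℕ := Module.finrank k (X.A ⧸ Ideal.span ({X.x} : Set X.A))

variable [IsAlgClosed k] (X : TwoChart k)

/-- The triple `O(m ∞)(-P)` over the base field. -/
def shiftTri (m : ℕ) (P : List (X.A →ₐ[k] k)) : X.Tri k :=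
  (Points.listDiv (P.map Sum.inl)).tri (Points.listDiv_invertible _) m

/-- The triple `L'(-∞)` has no cohomology and evaluation at the frame points is bijective, also
with the marked point in place of any one of them. -/
def FrameGood {R : Type u} [CommRing R] [Algebra k R] {n : ℕ} (q : Fin n → (X.A →ₐ[k] k))
    (M : X.Tri R) : Prop :=
  Function.Bijective (M.twist X.xUnit⁻¹).diff ∧ Function.Bijective (M.evalFibs q) ∧
    ∀ i, Function.Bijective (M.evalFibs (Function.update q i X.ε))

/-- Index of an affine chart: a translation with an inverse, and a frame of rational points. -/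
structure ChartIndex where
  /-- twist at infinity of the translation -/
  m : ℕ
  /-- points subtracted by the translation -/
  P : List (X.A →ₐ[k] k)
  /-- twist at infinity of the inverse translation -/
  m' : ℕ
  /-- points subtracted by the inverse translation -/
  P' : List (X.A →ₐ[k] k)
  inv : Nonempty (((X.shiftTri m P).tensor (X.shiftTri m' P')).Equiv (X.trivialTri k))
  /-- the frame -/
  q : Fin X.rankX → (X.A →ₐ[k] k)

variable {X}

/-- The translation of a triple. -/
def ChartIndex.shift (i : X.ChartIndex) {R : Type u} [CommRing R] [Algebra k R] (L : X.Tri R) :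
    X.Tri R :=
  L.tensor ((X.shiftTri i.m i.P).baseChange (Algebra.ofId k R))

/-- The defining condition of the chart `i`. -/
def ChartIndex.Good (i : X.ChartIndex) {R : Type u} [CommRing R] [Algebra k R] (L : X.Tri R) :
    Prop :=
  X.FrameGood i.q (i.shift L)

/-- The locus of the base where the fibre lies in the chart `i`. -/
def ChartIndex.locus (i : X.ChartIndex) {R : Type u} [CommRing R] [Algebra k R] (L : X.Tri R) :
    Set (PrimeSpectrum R) :=
  {p | i.Good (L.baseChange (IsScalarTower.toAlgHom k R p.asIdeal.ResidueField))}

end Fermat.Agent.Picard.TwoChart
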