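/-
The Cech differential commutes with base change.
-/
import Fermat.Agent.Picard.Algebra.Defs

set_option autoImplicit false

universe u

open scoped TensorProduct

noncomputable section

namespace Fermat.Agent.Picard.TwoChart

variable {k : Type u} [Field k] {X : TwoChart k}
variable {R R' : Type u} [CommRing R] [Algebra k R] [CommRing R'] [Algebra k R']
variable [Algebra R R'] [IsScalarTower k R R']

/-- A map semilinear along a base change is linear over the base. -/
def semiToLinear {S M N : Type u} [CommRing S] [Algebra k S] [AddCommGroup M]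
    [Module (R ⊗[k] S) M] [Module R M] [IsScalarTower R (R ⊗[k] S) M] [AddCommGroup N]
    [Module (R' ⊗[k] S) N] [Module R' N] [IsScalarTower R' (R' ⊗[k] S) N] [Module R N]
    [IsScalarTower R R' N]
    (g : M →ₛₗ[baseHom (IsScalarTower.toAlgHom k R R') S] N) : M →ₗ[R] N where
  toFun := g
  map_add' := g.map_add
  map_smul' r m := by
    rw [RingHom.id_apply, ← algebraMap_smul (R ⊗[k] S) r m, g.map_smulₛₗ,
      Algebra.TensorProduct.algebraMap_apply, baseHom_tmul, Algebra.algebraMap_self_apply,
      IsScalarTower.coe_toAlgHom', ← algebraMap_smul R' r (g m),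
      ← algebraMap_smul (R' ⊗[k] S) (algebraMap R R' r) (g m),
      Algebra.TensorProduct.algebraMap_apply, Algebra.algebraMap_self_apply]

@[simp] theorem semiToLinear_apply {S M N : Type u} [CommRing S] [Algebra k S] [AddCommGroup M]
    [Module (R ⊗[k] S) M] [Module R M] [IsScalarTower R (R ⊗[k] S) M] [AddCommGroup N]
    [Module (R' ⊗[k] S) N] [Module R' N] [IsScalarTower R' (R' ⊗[k] S) N] [Module R N]
    [IsScalarTower R R' N]
    (g : M →ₛₗ[baseHom (IsScalarTower.toAlgHom k R R') S] N) (m : M) :
    semiToLinear g m = g m := rfl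

theorem isBaseChange_semiToLinear {S M N : Type u} [CommRing S] [Algebra k S] [AddCommGroup M]
    [Module (R ⊗[k] S) M] [Module R M] [IsScalarTower R (R ⊗[k] S) M] [AddCommGroup N]
    [Module (R' ⊗[k] S) N] [Module R' N] [IsScalarTower R' (R' ⊗[k] S) N] [Module R N]
    [IsScalarTower R R' N]
    (g : M →ₛₗ[baseHom (IsScalarTower.toAlgHom k R R') S] N) (hg : IsScalarExtension _ g) :
    IsBaseChange R' (semiToLinear g) := by
  let : Algebra (R ⊗[k] S) (R' ⊗[k] S) :=
    (baseHom (IsScalarTower.toAlgHom k R R') S).toAlgebra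
  have hmap : ∀ z, algebraMap (R ⊗[k] S) (R' ⊗[k] S) z =
      baseHom (IsScalarTower.toAlgHom k R R') S z := fun z => rfl
  have : IsScalarTower R (R ⊗[k] S) (R' ⊗[k] S) := IsScalarTower.of_algebraMap_eq fun r => by
    simp [hmap, Algebra.TensorProduct.algebraMap_apply]
  have : Algebra.IsPushout R R' (R ⊗[k] S) (R' ⊗[k] S) := by
    refine ⟨IsBaseChange.of_equiv
      (TensorProduct.AlgebraTensorModule.cancelBaseChange k R R' R' S) fun z => ?_⟩
    induction z using TensorProduct.induction_on with
    | zero => simp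
    | tmul r s =>
      simp [hmap, Algebra.smul_def]
    | add a b ha hb => simp only [TensorProduct.tmul_add, map_add, ha, hb]
  exact IsScalarExtension.isBaseChange (S := R ⊗[k] S) (T := R' ⊗[k] S) hg (semiToLinear g)
    fun m => rfl

/-- The base change of the Cech differential is the Cech differential of the pullback. -/
theorem Tri.Pullback.exists_diff_equiv {L : X.Tri R} {L' : X.Tri R'}
    (P : Tri.Pullback (IsScalarTower.toAlgHom k R R') L L') :
    ∃ (eD : R' ⊗[R] (L.MA × L.MB) ≃ₗ[R'] L'.MA × L'.MB) (eW : R' ⊗[R] L.MW ≃ₗ[R'] L'.MW),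
      (∀ z, L'.diff (eD z) = eW (L.diff.baseChange R' z)) ∧
        ∀ a b, eD ((1 : R') ⊗ₜ[R] (a, b)) = (P.gA a, P.gB b) := by
  let : Module R L'.MA := Module.compHom L'.MA (algebraMap R R')
  have : IsScalarTower R R' L'.MA := IsScalarTower.of_algebraMap_smul fun _ _ => rfl
  let : Module R L'.MB := Module.compHom L'.MB (algebraMap R R')
  have : IsScalarTower R R' L'.MB := IsScalarTower.of_algebraMap_smul fun _ _ => rfl
  let : Module R L'.MW := Module.compHom L'.MW (algebraMap R R')
  have : IsScalarTower R R' L'.MW := IsScalarTower.of_algebraMap_smul fun _ _ => rfl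
  let eA := (isBaseChange_semiToLinear P.gA P.univA).equiv
  let eB := (isBaseChange_semiToLinear P.gB P.univB).equiv
  let eW := (isBaseChange_semiToLinear P.gW P.univW).equiv
  refine ⟨TensorProduct.prodRight R R' R' L.MA L.MB ≪≫ₗ eA.prodCongr eB, eW, fun z => ?_,
    fun a b => ?_⟩
  · induction z using TensorProduct.induction_on with
    | zero => rw [map_zero, map_zero, map_zero, map_zero]
    | tmul s ab =>
      obtain ⟨a, b⟩ := ab
      simp only [LinearEquiv.trans_apply, TensorProduct.prodRight_tmul,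
        LinearEquiv.prodCongr_apply, LinearMap.baseChange_tmul, Tri.diff_apply, eA, eB, eW,
        IsBaseChange.equiv_tmul, semiToLinear_apply, map_sub, TensorProduct.tmul_sub,
        P.commA, P.commB]
      exact congrArg₂ _ (L'.rA.map_smul s (P.gA a)) (L'.rB.map_smul s (P.gB b))
    | add z w hz hw => simp only [map_add, hz, hw]
  · simp [eA, eB, LinearEquiv.prodCongr_apply, IsBaseChange.equiv_tmul]

theorem Tri.Pullback.surjective_diff_iff {L : X.Tri R} {L' : X.Tri R'}
    (P : Tri.Pullback (IsScalarTower.toAlgHom k R R') L L') :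
    Function.Surjective L'.diff ↔ Function.Surjective (L.diff.baseChange R') := by
  obtain ⟨eD, eW, h, -⟩ := P.exists_diff_equiv
  constructor
  · intro hs w
    obtain ⟨z, hz⟩ := hs (eW w)
    refine ⟨eD.symm z, eW.injective ?_⟩
    rw [← h, LinearEquiv.apply_symm_apply, hz]
  · intro hs w
    obtain ⟨z, hz⟩ := hs (eW.symm w)
    exact ⟨eD z, by rw [h, hz, LinearEquiv.apply_symm_apply]⟩

theorem Tri.Pullback.surjective_diff {L : X.Tri R} {L' : X.Tri R'}
    (P : Tri.Pullback (IsScalarTower.toAlgHom k R R') L L') (hs : Function.Surjective L.diff) :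
    Function.Surjective L'.diff :=
  P.surjective_diff_iff.mpr fun w => by
    induction w using TensorProduct.induction_on with
    | zero => exact ⟨0, map_zero _⟩
    | tmul s m =>
      obtain ⟨z, rfl⟩ := hs m
      exact ⟨s ⊗ₜ[R] z, LinearMap.baseChange_tmul _ _ _⟩
    | add a b ha hb =>
      obtain ⟨z, rfl⟩ := ha
      obtain ⟨w, rfl⟩ := hb
      exact ⟨z + w, map_add _ _ _⟩

/-- Global sections of a pullback as a map. -/
def Tri.Pullback.mapH0 {L : X.Tri R} {L' : X.Tri R'} {φ : R →ₐ[k] R'}
    (P : Tri.Pullback φ L L') : L.H0 →+ L'.H0 where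
  toFun z := ⟨(P.gA z.1.1, P.gB z.1.2), by
    have h := LinearMap.mem_ker.mp z.2
    rw [show (z.1 : L.MA × L.MB) = (z.1.1, z.1.2) from rfl, Tri.diff_apply, sub_eq_zero] at h
    rw [LinearMap.mem_ker, Tri.diff_apply, ← P.commA, ← P.commB, h, sub_self]⟩
  map_zero' := Subtype.ext (Prod.ext (map_zero P.gA) (map_zero P.gB))
  map_add' z w := Subtype.ext (Prod.ext (map_add P.gA _ _) (map_add P.gB _ _))

/-- Global sections commute with base change when the first cohomology vanishes. -/
theorem Tri.Pullback.exists_H0_equiv {L : X.Tri R} {L' : X.Tri R'}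
    (P : Tri.Pullback (IsScalarTower.toAlgHom k R R') L L') (hs : Function.Surjective L.diff) :
    ∃ e : R' ⊗[R] L.H0 ≃ₗ[R'] L'.H0, ∀ z, e ((1 : R') ⊗ₜ[R] z) = P.mapH0 z := by
  obtain ⟨eD, eW, h, h1⟩ := P.exists_diff_equiv
  have hmap : (LinearMap.ker (L.diff.baseChange R')).map eD.toLinearMap = LinearMap.ker L'.diff := by
    ext z
    rw [Submodule.mem_map, LinearMap.mem_ker]
    constructor
    · rintro ⟨w, hw, rfl⟩
      rw [LinearEquiv.coe_coe, h, LinearMap.mem_ker.mp hw, map_zero]
    · intro hz
      refine ⟨eD.symm z, LinearMap.mem_ker.mpr (eW.injective ?_), eD.apply_symm_apply z⟩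
      rw [← h, LinearEquiv.apply_symm_apply, hz, map_zero]
  refine ⟨baseChangeKerEquiv R' L.diff hs ≪≫ₗ eD.ofSubmodules _ _ hmap, fun z => Subtype.ext ?_⟩
  show eD ((1 : R') ⊗ₜ[R] ((z.1.1, z.1.2) : L.MA × L.MB)) = _
  rw [h1]
  rfl

end Fermat.Agent.Picard.TwoChart
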