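/-
Local constancy of the fibrewise Euler characteristic.
-/
import Fermat.Agent.Picard.Algebra.DiffBase

set_option autoImplicit false

universe u v

open scoped TensorProduct

noncomputable section

namespace Fermat.Agent.Picard

section Quot

variable {R : Type u} [CommRing R] {M : Type v} [AddCommGroup M] [Module R M] {X₀ : Module.End R M}

theorem PolyCoords.retr_X_pow (c : PolyCoords X₀) (n : ℕ) (v : Fin c.r → Polynomial R) :
    c.retr (fun i => Polynomial.X ^ n * v i) = (X₀ ^ n) (c.retr v) := by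
  induction n with
  | zero => simp
  | succ n ih =>
    rw [pow_succ' X₀, Module.End.mul_apply, ← ih, ← c.retr_X]
    exact congrArg c.retr (funext fun i => by rw [pow_succ', mul_assoc])

/-- The quotient by a power of the coordinate is finite projective. -/
theorem PolyCoords.finite_projective_quotient (c : PolyCoords X₀) (N : ℕ) :
    Module.Finite R (M ⧸ LinearMap.range (X₀ ^ N)) ∧
      Module.Projective R (M ⧸ LinearMap.range (X₀ ^ N)) := by
  let a₀ : M →ₗ[R] (Fin c.r → Fin N → R) :=
    LinearMap.pi fun i => LinearMap.pi fun d =>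
      (Polynomial.lcoeff R (d : ℕ)) ∘ₗ LinearMap.proj i ∘ₗ c.coord
  have ha₀ : LinearMap.range (X₀ ^ N) ≤ LinearMap.ker a₀ := by
    rintro _ ⟨m, rfl⟩
    rw [LinearMap.mem_ker]
    ext i d
    simp [a₀, c.coord_X_pow, Polynomial.coeff_X_pow_mul', d.2.not_ge]
  let a : (M ⧸ LinearMap.range (X₀ ^ N)) →ₗ[R] (Fin c.r → Fin N → R) := Submodule.liftQ _ a₀ ha₀
  let t : (Fin c.r → Fin N → R) →ₗ[R] (Fin c.r → Polynomial R) :=
    LinearMap.pi fun i => ∑ d : Fin N,
      (Polynomial.monomial (d : ℕ)) ∘ₗ LinearMap.proj d ∘ₗ LinearMap.proj i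
  let b : (Fin c.r → Fin N → R) →ₗ[R] (M ⧸ LinearMap.range (X₀ ^ N)) :=
    Submodule.mkQ _ ∘ₗ c.retr ∘ₗ t
  have hba : ∀ q, b (a q) = q := fun q => by
    obtain ⟨m, rfl⟩ := Submodule.mkQ_surjective _ q
    have hdvd : ∀ i, Polynomial.X ^ N ∣ c.coord m i - t (a₀ m) i := fun i => by
      rw [Polynomial.X_pow_dvd_iff]
      intro d hd
      simp only [t, a₀, Polynomial.coeff_sub, LinearMap.pi_apply, LinearMap.sum_apply,
        LinearMap.comp_apply, LinearMap.proj_apply, Polynomial.finsetSum_coeff,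
        Polynomial.coeff_monomial, Polynomial.lcoeff_apply]
      rw [Finset.sum_eq_single ⟨d, hd⟩]
      · simp
      · intro e _ he
        exact if_neg fun h => he (Fin.ext h)
      · simp
    choose q hq using hdvd
    show Submodule.mkQ _ (c.retr (t (a₀ m))) = Submodule.mkQ _ m
    rw [Submodule.mkQ_apply, Submodule.mkQ_apply, eq_comm, Submodule.Quotient.eq]
    refine ⟨c.retr q, ?_⟩
    rw [← c.retr_X_pow]
    rw [show m - c.retr (t (a₀ m)) = c.retr (c.coord m - t (a₀ m)) by rw [map_sub, c.retr_coord]]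
    exact congrArg c.retr (funext fun i => (hq i).symm)
  exact ⟨Module.Finite.of_surjective b fun q => ⟨a q, hba q⟩,
    Module.Projective.of_split a b (LinearMap.ext hba)⟩

end Quot

/-- Dimension of a fibre of a finite projective module. -/
theorem finrank_tensor_eq_rankAtStalk {R K M : Type u} [CommRing R] [Field K] [Algebra R K]
    [AddCommGroup M] [Module R M] [Module.Finite R M] [Module.Projective R M] :
    Module.finrank K (K ⊗[R] M) =
      Module.rankAtStalk M ⟨RingHom.ker (algebraMap R K), RingHom.ker_isPrime _⟩ := by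
  let p : PrimeSpectrum K := ⟨⊥, Ideal.isPrime_bot⟩
  have h1 : Module.rankAtStalk (R := K) (K ⊗[R] M) p = Module.finrank K (K ⊗[R] M) := by
    rw [Module.rankAtStalk_eq_finrank_of_free]; rfl
  rw [← h1, Module.rankAtStalk_baseChange]
  rfl

namespace TwoChart

variable {k : Type u} [Field k] {X : TwoChart k}
variable {R : Type u} [CommRing R] [Algebra k R]
variable {K : Type u} [Field K] [Algebra k K]

theorem Tri.finiteDimensional_H0 (L : X.Tri K) : FiniteDimensional K L.H0 := by
  obtain ⟨B₀, hB⟩ := L.isTwoChart.exists_degree_bound L.coordA L.coordB.gen L.coordB.span_gen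
  have : Module.Finite K (L.coordA.degreeLE B₀) :=
    Module.Finite.iff_fg.mpr (L.coordA.degreeLE_fg B₀)
  have hmem : ∀ z : L.H0, L.fA z.1.1 = L.fB z.1.2 := fun z => by
    have := LinearMap.mem_ker.1 z.2
    rwa [← Prod.mk.eta (p := z.1), Tri.diff_apply, sub_eq_zero] at this
  refine FiniteDimensional.of_injective
    (LinearMap.codRestrict (L.coordA.degreeLE B₀) (LinearMap.fst K L.MA L.MB ∘ₗ L.H0.subtype)
      fun z => hB _ _ (hmem z)) fun z w h => ?_
  have h1 : z.1.1 = w.1.1 := congrArg Subtype.val h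
  exact Subtype.ext (Prod.ext h1 (L.fB_injective (by rw [← hmem z, ← hmem w, h1])))

section

variable {V V' W W' : Type u} [AddCommGroup V] [Module K V] [AddCommGroup V'] [Module K V']
  [AddCommGroup W] [Module K W] [AddCommGroup W'] [Module K W']

theorem index_equiv (d : V →ₗ[K] W) (d' : V' →ₗ[K] W') (e : V ≃ₗ[K] V') (f : W ≃ₗ[K] W')
    (h : ∀ z, d' (e z) = f (d z)) [FiniteDimensional K d.ker]
    [FiniteDimensional K (W ⧸ d.range)] : d'.index = d.index := by
  have hk : d.ker.map e.toLinearMap = d'.ker := by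
    ext z
    rw [Submodule.mem_map, LinearMap.mem_ker]
    constructor
    · rintro ⟨w, hw, rfl⟩
      rw [LinearEquiv.coe_coe, h, LinearMap.mem_ker.mp hw, map_zero]
    · intro hz
      refine ⟨e.symm z, LinearMap.mem_ker.mpr (f.injective ?_), e.apply_symm_apply z⟩
      rw [← h, LinearEquiv.apply_symm_apply, hz, map_zero]
  have hr : d.range.map f.toLinearMap = d'.range := by
    ext z
    rw [Submodule.mem_map, LinearMap.mem_range]
    constructor
    · rintro ⟨w, ⟨v, rfl⟩, rfl⟩
      exact ⟨e v, h v⟩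
    · rintro ⟨v, rfl⟩
      exact ⟨d (e.symm v), ⟨_, rfl⟩, by rw [LinearEquiv.coe_coe, ← h, e.apply_symm_apply]⟩
  let ek := e.ofSubmodules _ _ hk
  let er : (W ⧸ d.range) ≃ₗ[K] W' ⧸ d'.range := Submodule.Quotient.equiv _ _ f hr
  have : FiniteDimensional K d'.ker := Module.Finite.equiv ek
  have : FiniteDimensional K (W' ⧸ d'.range) := Module.Finite.equiv er
  rw [LinearMap.index_eq_finrank_sub, LinearMap.index_eq_finrank_sub, ek.finrank_eq, er.finrank_eq]

end

theorem Tri.index_congr {L L' : X.Tri K} (e : L.Equiv L') : L'.diff.index = L.diff.index := by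
  have := L.finiteDimensional_H0
  have := L.finite_coker
  refine index_equiv L.diff L'.diff
    ((e.eA.restrictScalars K).prodCongr (e.eB.restrictScalars K)) (e.eW.restrictScalars K) ?_
  rintro ⟨a, b⟩
  show L'.diff (e.eA a, e.eB b) = e.eW (L.diff (a, b))
  rw [Tri.diff_apply, Tri.diff_apply, map_sub, e.commA, e.commB]

theorem Tri.diff_eq_twist_comp (L : X.Tri R) (N : ℕ) :
    L.diff = (L.twist (X.xUnit ^ N)).diff ∘ₗ
      (LinearMap.id.prodMap (L.mulY ^ N) : L.MA × L.MB →ₗ[R] L.MA × L.MB) := by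
  refine LinearMap.ext fun z => ?_
  obtain ⟨a, b⟩ := z
  refine (Tri.diff_apply L a b).trans (Eq.trans ?_ (Tri.diff_apply (L.twist (X.xUnit ^ N)) a _).symm)
  have key : (X.tensorUnit R (X.xUnit ^ N) : R ⊗[k] X.W) • L.fB ((L.mulY ^ N) b) = L.fB b := by
    rw [show L.fB ((L.mulY ^ N) b) = ((L.unitEquiv X.xUnit).symm ^ N) (L.fB b) from
      L.isTwoChart.map_X₁_pow N b, Tri.unitEquiv_symm, Tri.unitEquiv_pow, smul_smul,
      tensorUnit_val, Algebra.TensorProduct.tmul_pow, one_pow, Algebra.TensorProduct.tmul_mul_tmul,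
      one_mul, Units.val_pow_eq_pow_val, ← mul_pow, ← Units.val_mul, mul_inv_cancel, Units.val_one,
      one_pow, ← Algebra.TensorProduct.one_def, one_smul]
  exact (congrArg (fun w => L.fA a - w) key).symm

/-- The Euler characteristic of a fibre through a twist with vanishing first cohomology. -/
theorem Tri.index_fibre (L : X.Tri R) (N : ℕ)
    (hN : Function.Surjective (L.twist (X.xUnit ^ N)).diff)
    [Algebra R K] [IsScalarTower k R K] {L' : X.Tri K}
    (P : Tri.Pullback (IsScalarTower.toAlgHom k R K) L L') :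
    L'.diff.index = (Module.finrank K (K ⊗[R] (L.twist (X.xUnit ^ N)).H0) : ℤ) -
      Module.finrank K (K ⊗[R] (L.MB ⧸ LinearMap.range (L.mulY ^ N))) := by
  set L₁ := L.twist (X.xUnit ^ N)
  set L₁' := L'.twist (X.xUnit ^ N)
  have P₁ : Tri.Pullback (IsScalarTower.toAlgHom k R K) L₁ L₁' := P.twist _
  have hs : Function.Surjective L₁'.diff := P₁.surjective_diff hN
  obtain ⟨e0, -⟩ := P₁.exists_H0_equiv hN
  let : Module R L'.MB := Module.compHom L'.MB (algebraMap R K)
  have : IsScalarTower R K L'.MB := IsScalarTower.of_algebraMap_smul fun _ _ => rfl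
  let eB := (isBaseChange_semiToLinear P.gB P.univB).equiv
  have hmul : ∀ n z, eB ((L.mulY ^ n).baseChange K z) = (L'.mulY ^ n) (eB z) := by
    intro n
    induction n with
    | zero => intro z; simp
    | succ n ih =>
      intro z
      rw [pow_succ', pow_succ', Module.End.mul_apply, ← ih, Module.End.mul_eq_comp,
        LinearMap.baseChange_comp, LinearMap.comp_apply]
      generalize (L.mulY ^ n).baseChange K z = w
      induction w using TensorProduct.induction_on with
      | zero => simp
      | tmul s b =>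
        rw [LinearMap.baseChange_tmul, IsBaseChange.equiv_tmul, IsBaseChange.equiv_tmul, map_smul,
          semiToLinear_apply, semiToLinear_apply, Tri.mulY_apply, Tri.mulY_apply,
          P.gB.map_smulₛₗ, baseHom_tmul, map_one]
      | add a b ha hb => simp only [map_add, ha, hb]
  let i : L'.MA × L'.MB →ₗ[K] L'.MA × L'.MB := LinearMap.id.prodMap (L'.mulY ^ N)
  have hi : Function.Injective i := by
    refine Function.injective_id.prodMap ?_
    intro b b' h
    exact sub_eq_zero.mp (L'.coordB.eq_zero_of_pow N (b - b')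
      ((map_sub (L'.mulY ^ N) b b').trans (sub_eq_zero.mpr h)))
  have hrange : (LinearMap.range ((L.mulY ^ N).baseChange K)).map eB.toLinearMap =
      LinearMap.range (L'.mulY ^ N) := by
    ext z
    rw [Submodule.mem_map, LinearMap.mem_range]
    constructor
    · rintro ⟨w, ⟨v, rfl⟩, rfl⟩
      exact ⟨eB v, (hmul N v).symm⟩
    · rintro ⟨v, rfl⟩
      exact ⟨_, ⟨eB.symm v, rfl⟩, by rw [LinearEquiv.coe_coe, hmul, eB.apply_symm_apply]⟩
  let q₂ : (L'.MA × L'.MB) →ₗ[K] L'.MB ⧸ LinearMap.range (L'.mulY ^ N) :=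
    Submodule.mkQ _ ∘ₗ LinearMap.snd K L'.MA L'.MB
  have hq₂ : Function.Surjective q₂ := fun y => by
    obtain ⟨b, rfl⟩ := Submodule.mkQ_surjective _ y
    exact ⟨(0, b), rfl⟩
  have hker : LinearMap.range i = LinearMap.ker q₂ := by
    ext ⟨a, b⟩
    simp only [i, q₂, LinearMap.mem_range, LinearMap.mem_ker, LinearMap.comp_apply,
      LinearMap.snd_apply, Submodule.mkQ_apply, Submodule.Quotient.mk_eq_zero, Prod.exists,
      LinearMap.prodMap_apply, LinearMap.id_apply, Prod.mk.injEq]
    exact ⟨fun ⟨a', b', _, h⟩ => ⟨b', h⟩, fun ⟨b', h⟩ => ⟨a, b', rfl, h⟩⟩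
  have hex : Function.Exact (L.mulY ^ N) (LinearMap.range (L.mulY ^ N)).mkQ :=
    LinearMap.exact_map_mkQ_range _
  have hexK : Function.Exact ((L.mulY ^ N).baseChange K)
      ((LinearMap.range (L.mulY ^ N)).mkQ.baseChange K) := by
    simpa [LinearMap.baseChange_eq_ltensor] using
      lTensor_exact K hex (Submodule.mkQ_surjective _)
  have hsK : Function.Surjective ((LinearMap.range (L.mulY ^ N)).mkQ.baseChange K) := by
    rw [LinearMap.baseChange_eq_ltensor]
    exact LinearMap.lTensor_surjective K (Submodule.mkQ_surjective _)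
  let eQ : (K ⊗[R] (L.MB ⧸ LinearMap.range (L.mulY ^ N))) ≃ₗ[K]
      ((L'.MA × L'.MB) ⧸ LinearMap.range i) :=
    ((Submodule.quotEquivOfEq _ _ (LinearMap.exact_iff.mp hexK).symm).trans
      (LinearMap.quotKerEquivOfSurjective _ hsK)).symm.trans <|
    (Submodule.Quotient.equiv _ _ eB hrange).trans <|
    ((Submodule.quotEquivOfEq _ _ hker).trans (q₂.quotKerEquivOfSurjective hq₂)).symm
  obtain ⟨hfinQ, hprojQ⟩ := L.coordB.finite_projective_quotient N
  have := L₁'.finiteDimensional_H0
  have := L₁'.finite_coker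
  have : FiniteDimensional K i.ker := by rw [LinearMap.ker_eq_bot.2 hi]; infer_instance
  have : FiniteDimensional K ((L'.MA × L'.MB) ⧸ i.range) := Module.Finite.equiv eQ
  have hd : L'.diff = L₁'.diff ∘ₗ i := L'.diff_eq_twist_comp N
  let g : L'.MA × L'.MB →ₗ[K] L'.MW := L₁'.diff
  have : FiniteDimensional K g.ker := L₁'.finiteDimensional_H0
  have : FiniteDimensional K (L'.MW ⧸ g.range) := L₁'.finite_coker
  have hgs : Function.Surjective g := hs
  rw [hd]
  refine (LinearMap.index_comp (f := i) g).trans ?_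
  rw [LinearMap.index_of_injective hi, LinearMap.index_of_surjective hgs, ← eQ.finrank_eq,
    ← sub_eq_add_neg, e0.finrank_eq]
  rfl

theorem Tri.exists_euler_function_of_algebra (L : X.Tri R) :
    ∃ χ : LocallyConstant (PrimeSpectrum R) ℤ,
      ∀ (K : Type u) [Field K] [Algebra k K] [Algebra R K] [IsScalarTower k R K] (L' : X.Tri K)
        (_ : Tri.Pullback (IsScalarTower.toAlgHom k R K) L L'),
        L'.diff.index = χ ⟨RingHom.ker (algebraMap R K), RingHom.ker_isPrime _⟩ := by
  obtain ⟨N, hN⟩ := L.exists_twist_surjective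
  have hs := hN N le_rfl
  have := (L.twist (X.xUnit ^ N)).finite_H0 hs
  have := (L.twist (X.xUnit ^ N)).projective_H0 hs
  obtain ⟨_, _⟩ := L.coordB.finite_projective_quotient N
  have := Module.finitePresentation_of_projective R (L.twist (X.xUnit ^ N)).H0
  have := Module.finitePresentation_of_projective R (L.MB ⧸ LinearMap.range (L.mulY ^ N))
  refine ⟨⟨fun p => (Module.rankAtStalk (L.twist (X.xUnit ^ N)).H0 p : ℤ) -
      Module.rankAtStalk (L.MB ⧸ LinearMap.range (L.mulY ^ N)) p, ?_⟩, fun K _ _ _ _ L' P => ?_⟩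
  · have h1 : IsLocallyConstant (Module.rankAtStalk (R := R) (L.twist (X.xUnit ^ N)).H0) :=
      Module.isLocallyConstant_rankAtStalk
    have h2 : IsLocallyConstant
        (Module.rankAtStalk (R := R) (L.MB ⧸ LinearMap.range (L.mulY ^ N))) :=
      Module.isLocallyConstant_rankAtStalk
    exact h1.comp₂ h2 fun a b => (a : ℤ) - b
  · rw [L.index_fibre N hs P, finrank_tensor_eq_rankAtStalk, finrank_tensor_eq_rankAtStalk]
    rfl

/-- The Euler characteristic of the fibres is locally constant. -/
theorem Tri.exists_eulerFun (L : X.Tri R) :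
    ∃ χ : LocallyConstant (PrimeSpectrum R) ℤ,
      ∀ (K : Type u) [Field K] [Algebra k K] (φ : R →ₐ[k] K) (L' : X.Tri K)
        (_ : Tri.Pullback φ L L'),
        L'.diff.index = χ ⟨RingHom.ker φ.toRingHom, RingHom.ker_isPrime φ.toRingHom⟩ := by
  obtain ⟨χ, hχ⟩ := L.exists_euler_function_of_algebra
  refine ⟨χ, fun K _ _ φ L' P => ?_⟩
  let : Algebra R K := φ.toRingHom.toAlgebra
  have : IsScalarTower k R K := IsScalarTower.of_algebraMap_eq fun r => (φ.commutes r).symm
  exact hχ K L' P

theorem index_trivial_eq (K : Type u) [Field K] [Algebra k K] :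
    (X.trivialTri K).diff.index = (X.trivialTri k).diff.index := by
  obtain ⟨χ, hχ⟩ := (X.trivialTri k).exists_eulerFun
  rw [hχ K (Algebra.ofId k K) _ (X.trivialPullback _),
    hχ k (AlgHom.id k k) _ (X.trivialPullback _)]
  congr 1
  exact Subsingleton.elim _ _

end TwoChart

end Fermat.Agent.Picard
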