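/-
Fibrewise criteria for surjectivity and bijectivity.
-/
import Fermat.Agent.Picard.SecondCohomology

set_option autoImplicit false

universe u

open scoped TensorProduct

noncomputable section

namespace Fermat.Agent.Picard

variable {R : Type u} [CommRing R]

/-- Vanishing of a finite module at a field valued point only depends on the underlying prime. -/
theorem subsingleton_tensor_field_iff {K M : Type u} [Field K] [Algebra R K] [AddCommGroup M]
    [Module R M] [Module.Finite R M] :
    Subsingleton (K ⊗[R] M) ↔
      (⟨RingHom.ker (algebraMap R K), RingHom.ker_isPrime _⟩ : PrimeSpectrum R) ∉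
        Module.support R M := by
  set p : PrimeSpectrum R := ⟨RingHom.ker (algebraMap R K), RingHom.ker_isPrime _⟩
  have := p.isPrime
  have hu : p.asIdeal.primeCompl ≤ (IsUnit.submonoid K).comap (algebraMap R K) := fun r hr =>
    isUnit_iff_ne_zero.mpr fun h => hr (RingHom.mem_ker.mpr h)
  let : Algebra p.asIdeal.ResidueField K :=
    (Ideal.ResidueField.lift p.asIdeal (algebraMap R K) le_rfl hu).toAlgebra
  have : IsScalarTower R p.asIdeal.ResidueField K := IsScalarTower.of_algebraMap_eq fun r =>
    (Ideal.ResidueField.lift_algebraMap p.asIdeal (algebraMap R K) le_rfl hu r).symm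
  let e := TensorProduct.AlgebraTensorModule.cancelBaseChange R p.asIdeal.ResidueField K K M
  rw [Module.mem_support_iff_nontrivial_residueField_tensorProduct, not_nontrivial_iff_subsingleton,
    ← e.subsingleton_congr, ← Module.finrank_zero_iff (R := K),
    ← Module.finrank_zero_iff (R := p.asIdeal.ResidueField)
      (M := p.asIdeal.ResidueField ⊗[R] M),
    Module.finrank_baseChange]

variable {M N : Type u} [AddCommGroup M] [Module R M] [AddCommGroup N] [Module R N]

theorem surjective_baseChange_field_iff (d : M →ₗ[R] N)
    [Module.Finite R (N ⧸ LinearMap.range d)] (K : Type u) [Field K] [Algebra R K] :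
    Function.Surjective (d.baseChange K) ↔
      (⟨RingHom.ker (algebraMap R K), RingHom.ker_isPrime _⟩ : PrimeSpectrum R) ∉
        Module.support R (N ⧸ LinearMap.range d) := by
  rw [← subsingleton_baseChange_coker_iff, subsingleton_tensor_field_iff]

theorem surjective_of_support_eq_empty (d : M →ₗ[R] N)
    (h : Module.support R (N ⧸ LinearMap.range d) = ∅) : Function.Surjective d := by
  rw [← LinearMap.range_eq_top, ← Submodule.Quotient.subsingleton_iff]
  exact Module.support_eq_empty_iff.mp h

theorem bijective_of_forall_residueField (d : M →ₗ[R] N) [Module.Projective R M]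
    [Module.Projective R N] [Module.Finite R (N ⧸ LinearMap.range d)]
    (hfin : Function.Surjective d → Module.Finite R (LinearMap.ker d))
    (h : ∀ p : PrimeSpectrum R, Function.Bijective (d.baseChange p.asIdeal.ResidueField)) :
    Function.Bijective d := by
  have hs : Function.Surjective d := by
    refine surjective_of_support_eq_empty d (Set.eq_empty_iff_forall_notMem.mpr fun p => ?_)
    rw [Module.mem_support_iff_nontrivial_residueField_tensorProduct,
      not_nontrivial_iff_subsingleton, subsingleton_baseChange_coker_iff]
    exact (h p).2
  refine ⟨?_, hs⟩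
  have := hfin hs
  have hsub : Subsingleton (LinearMap.ker d) := by
    rw [← Module.support_eq_empty_iff (R := R), Set.eq_empty_iff_forall_notMem]
    intro p
    rw [Module.mem_support_iff_nontrivial_residueField_tensorProduct,
      not_nontrivial_iff_subsingleton]
    have : Subsingleton (LinearMap.ker (d.baseChange p.asIdeal.ResidueField)) :=
      Submodule.subsingleton_iff_eq_bot.mpr (LinearMap.ker_eq_bot.mpr (h p).1)
    exact (baseChangeKerEquiv p.asIdeal.ResidueField d hs).injective.subsingleton
  exact LinearMap.ker_eq_bot.mp (Submodule.subsingleton_iff_eq_bot.mp hsub)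

theorem bijective_baseChange (d : M →ₗ[R] N) (h : Function.Bijective d) (S : Type u) [CommRing S]
    [Algebra R S] : Function.Bijective (d.baseChange S) := by
  rw [LinearMap.baseChange_eq_ltensor]
  exact ((LinearEquiv.ofBijective d h).lTensor S).bijective

end Fermat.Agent.Picard
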