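/-
Normalised triples and rigidity: automorphisms of triples are scalars.
-/
import Fermat.Agent.Picard.Algebra.Defs

set_option autoImplicit false

universe u

open scoped TensorProduct

noncomputable section

namespace Fermat.Agent.Picard.TwoChart

variable {k : Type u} [Field k] {X : TwoChart k}
variable {R R' : Type u} [CommRing R] [Algebra k R] [CommRing R'] [Algebra k R']

theorem evalAt_baseHom (φ : R →ₐ[k] R') (σ : X.A →ₐ[k] k) (z : R ⊗[k] X.A) :
    X.evalAt R' σ (baseHom φ X.A z) = φ (X.evalAt R σ z) := by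
  induction z using TensorProduct.induction_on with
  | zero => simp
  | tmul r a => simp
  | add a b ha hb => simp [ha, hb]

theorem evalε_baseHom (φ : R →ₐ[k] R') (z : R ⊗[k] X.A) :
    X.evalε R' (baseHom φ X.A z) = φ (X.evalε R z) := by
  simp only [evalε_eq_evalAt, evalAt_baseHom]

theorem Tri.normalised_congr {L L' : X.Tri R} (h : L.Normalised) (e : L.Equiv L') :
    L'.Normalised := by
  obtain ⟨g, hg⟩ := h
  let g' : L'.MA →ₛₗ[X.evalε R] R :=
    { toFun := fun m => g (e.eA.symm m)
      map_add' := fun a b => by simp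
      map_smul' := fun s m => by simp }
  exact ⟨g', isScalarExtension_precomp_equiv hg e.eA.symm fun _ => rfl⟩

theorem Tri.normalised_pullback {φ : R →ₐ[k] R'} {L : X.Tri R} {L' : X.Tri R'}
    (h : L.Normalised) (P : Tri.Pullback φ L L') : L'.Normalised := by
  obtain ⟨g, hg⟩ := h
  let χ : R ⊗[k] X.A →+* R' := φ.toRingHom.comp (X.evalε R)
  have hχ : ∀ s, χ s = X.evalε R' (baseHom φ X.A s) := fun s => (evalε_baseHom φ s).symm
  let g' : L'.MA →ₛₗ[X.evalε R'] R' :=
    P.univA.liftSemi (φ.toRingHom.toAddMonoidHom.comp g.toAddMonoidHom) fun s m => by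
      simp [evalε_baseHom]
  let g₃ : L.MA →ₛₗ[χ] R' :=
    { toFun := fun m => φ (g m)
      map_add' := fun a b => by simp
      map_smul' := fun s m => by simp [χ] }
  exact ⟨g', P.univA.of_comp hχ
    (hg.comp (χ := χ) (fun s => rfl) (IsScalarExtension.self φ.toRingHom) (g₃ := g₃) fun m => rfl)
    fun m => (P.univA.liftSemi_apply (φ.toRingHom.toAddMonoidHom.comp g.toAddMonoidHom) _ m).symm⟩

theorem Tri.normalised_trivialTri : (X.trivialTri R).Normalised :=
  ⟨(X.evalε R).toSemilinearMap, IsScalarExtension.self _⟩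

/-- Compatible functions on the two charts are constants of the base. -/
theorem exists_const_of_resA_eq_resB (a : R ⊗[k] X.A) (b : R ⊗[k] X.B)
    (h : X.resA R a = X.resB R b) :
    ∃ r : R, a = algebraMap R (R ⊗[k] X.A) r ∧ b = algebraMap R (R ⊗[k] X.B) r := by
  let ι : k →ₗ[k] X.A × X.B := LinearMap.toSpanSingleton k _ ((1 : X.A), (1 : X.B))
  let d : X.A × X.B →ₗ[k] X.W :=
    (IsScalarTower.toAlgHom k X.A X.W).toLinearMap.coprod
      (-(IsScalarTower.toAlgHom k X.B X.W).toLinearMap)
  have hex : Function.Exact ι d := by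
    rintro ⟨a, b⟩
    constructor
    · intro hab
      have hab' : algebraMap X.A X.W a = algebraMap X.B X.W b := by
        simpa [d, sub_eq_add_neg, sub_eq_zero, add_neg_eq_zero] using hab
      obtain ⟨r, hr⟩ := X.global_const a b hab'
      refine ⟨r, ?_⟩
      have hb : b = algebraMap k X.B r :=
        IsLocalization.injective X.W (powers_le_nonZeroDivisors_of_noZeroDivisors X.y_ne_zero) (by
          rw [← hab', hr, ← IsScalarTower.algebraMap_apply, ← IsScalarTower.algebraMap_apply])
      simp [ι, hr, hb, Algebra.algebraMap_eq_smul_one]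
    · rintro ⟨r, hr⟩
      rw [← hr]
      simp [ι, d]
  have hexR : Function.Exact (ι.lTensor R) (d.lTensor R) := Module.Flat.lTensor_exact R hex
  let P := TensorProduct.prodRight k k R X.A X.B
  have key : ∀ z, d.lTensor R z = X.resA R (P z).1 - X.resB R (P z).2 := fun z => by
    induction z using TensorProduct.induction_on with
    | zero => simp
    | tmul r ab =>
      obtain ⟨a, b⟩ := ab
      simp [P, d, sub_eq_add_neg, TensorProduct.tmul_add, TensorProduct.tmul_neg]
    | add z w hz hw =>
      simp only [map_add, hz, hw, Prod.fst_add, Prod.snd_add]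
      abel
  have hz : d.lTensor R (P.symm (a, b)) = 0 := by
    rw [key, LinearEquiv.apply_symm_apply, h, sub_self]
  obtain ⟨w, hw⟩ := (hexR _).mp hz
  refine ⟨TensorProduct.rid k R w, ?_⟩
  have key' : ∀ w, P (ι.lTensor R w) = (algebraMap R (R ⊗[k] X.A) (TensorProduct.rid k R w),
      algebraMap R (R ⊗[k] X.B) (TensorProduct.rid k R w)) := fun w => by
    induction w using TensorProduct.induction_on with
    | zero => simp [Prod.ext_iff]
    | tmul r c =>
      simp [P, ι, Algebra.TensorProduct.algebraMap_apply, TensorProduct.tmul_smul,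
        TensorProduct.smul_tmul']
    | add z w hz hw => simp [hz, hw, TensorProduct.add_tmul]
  have := congrArg P hw
  rw [key', LinearEquiv.apply_symm_apply] at this
  exact ⟨(congrArg Prod.fst this).symm, (congrArg Prod.snd this).symm⟩

theorem exists_smul_of_endo {S M : Type u} [CommRing S] [AddCommGroup M] [Module S M]
    [Module.Invertible S M] (f : M →ₗ[S] M) : ∃ s : S, ∀ m, f m = s • m := by
  obtain ⟨s, hs⟩ := (Module.Invertible.toModuleEnd_bijective S M).2 f
  exact ⟨s, fun m => by rw [← hs]; rfl⟩

/-- An automorphism of a triple is multiplication by a unit of the base. -/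
theorem Tri.Equiv.exists_scalar {L : X.Tri R} (e : L.Equiv L) :
    ∃ u : Rˣ, (∀ m, e.eA m = (u : R) • m) ∧ (∀ m, e.eB m = (u : R) • m) ∧
      ∀ m, e.eW m = (u : R) • m := by
  obtain ⟨a, ha⟩ := exists_smul_of_endo e.eA.toLinearMap
  obtain ⟨b, hb⟩ := exists_smul_of_endo e.eB.toLinearMap
  obtain ⟨a', ha'⟩ := exists_smul_of_endo e.eA.symm.toLinearMap
  simp only [LinearEquiv.coe_coe] at ha hb ha'
  have h1 : ∀ m, e.eW m = X.resA R a • m := fun m => by
    refine IsScalarExtension.induction_on L.univ_fA m (fun t m => ?_) fun x y hx hy => ?_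
    · rw [map_smul, e.commA, ha, L.fA.map_smulₛₗ, smul_comm]
    · rw [map_add, hx, hy, smul_add]
  have h2 : ∀ m, e.eW m = X.resB R b • m := fun m => by
    refine IsScalarExtension.induction_on L.univ_fB m (fun t m => ?_) fun x y hx hy => ?_
    · rw [map_smul, e.commB, hb, L.fB.map_smulₛₗ, smul_comm]
    · rw [map_add, hx, hy, smul_add]
  have hab : X.resA R a = X.resB R b :=
    FaithfulSMul.eq_of_smul_eq_smul (α := L.MW) fun m => by rw [← h1, h2]
  obtain ⟨r, hra, hrb⟩ := exists_const_of_resA_eq_resB a b hab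
  have hunit : IsUnit r := by
    have h : a' * a = 1 := FaithfulSMul.eq_of_smul_eq_smul (α := L.MA) fun m => by
      rw [mul_smul, one_smul, ← ha, ← ha', LinearEquiv.symm_apply_apply]
    have h' := congrArg (X.evalε R) h
    rw [map_mul, map_one, hra] at h'
    refine IsUnit.of_mul_eq_one (X.evalε R a') ?_
    rw [mul_comm]
    simpa [evalε_eq_evalAt, Algebra.TensorProduct.algebraMap_apply] using h'
  refine ⟨hunit.unit, fun m => ?_, fun m => ?_, fun m => ?_⟩
  · rw [ha, hra, algebraMap_smul]; rfl
  · rw [hb, hrb, algebraMap_smul]; rfl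
  · rw [h1, hra, resA_algebraMap, algebraMap_smul]; rfl

end Fermat.Agent.Picard.TwoChart
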