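/-
Fibres at rational points and the open frame conditions.
-/
import Fermat.Agent.Picard.Algebra.Euler
import Fermat.Agent.Picard.Algebra.FibreCriterion
import Fermat.Agent.Picard.Algebra.Rigid

set_option autoImplicit false

universe u

open scoped TensorProduct

noncomputable section

namespace Fermat.Agent.Picard

theorem IsScalarExtension.isBaseChange_self {R R' M N : Type u} [CommRing R] [CommRing R']
    [Algebra R R'] [AddCommGroup M] [Module R M] [AddCommGroup N] [Module R' N] [Module R N]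
    [IsScalarTower R R' N] {g : M →ₛₗ[algebraMap R R'] N} (hg : IsScalarExtension _ g)
    (g₀ : M →ₗ[R] N) (hg₀ : ∀ m, g₀ m = g m) : IsBaseChange R' g₀ := by
  refine IsBaseChange.of_lift_unique g₀ fun Q _ _ _ _ r => ?_
  let : AddCommGroup Q := Module.addCommMonoidToAddCommGroup R'
  let r' : M →ₛₗ[algebraMap R R'] Q :=
    { toFun := r
      map_add' := r.map_add
      map_smul' := fun s m => by rw [r.map_smul, algebraMap_smul] }
  refine ⟨hg.lift r', LinearMap.ext fun m => ?_, fun f hf => hg.hom_ext fun m => ?_⟩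
  · show hg.lift r' (g₀ m) = r m
    rw [hg₀, hg.lift_apply]
    rfl
  · rw [hg.lift_apply, ← hg₀]
    exact LinearMap.congr_fun hf m

namespace TwoChart

variable {k : Type u} [Field k] {X : TwoChart k}
variable {R R' : Type u} [CommRing R] [Algebra k R] [CommRing R'] [Algebra k R']

theorem evalAt_algebraMap (σ : X.A →ₐ[k] k) (r : R) :
    X.evalAt R σ (algebraMap R (R ⊗[k] X.A) r) = r := by
  simp [Algebra.TensorProduct.algebraMap_apply]

/-- The projection to the fibre at a rational point. -/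
def Tri.toFibre (L : X.Tri R) (σ : X.A →ₐ[k] k) : L.MA →ₛₗ[X.evalAt R σ] L.fibre σ where
  toFun m := Submodule.Quotient.mk m
  map_add' _ _ := rfl
  map_smul' s m := by
    show Submodule.Quotient.mk (s • m) = X.evalAt R σ s • Submodule.Quotient.mk m
    rw [← Submodule.Quotient.mk_smul, Submodule.Quotient.eq, Submodule.restrictScalars_mem,
      ← algebraMap_smul (R ⊗[k] X.A) (X.evalAt R σ s) m, ← sub_smul]
    refine Submodule.smul_mem_smul ?_ Submodule.mem_top
    rw [RingHom.mem_ker, map_sub, evalAt_algebraMap, sub_self]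

theorem Tri.univ_toFibre (L : X.Tri R) (σ : X.A →ₐ[k] k) :
    IsScalarExtension (X.evalAt R σ) (L.toFibre σ) := by
  intro P _ _ h
  let h₀ : L.MA →ₗ[R] P :=
    { toFun := h
      map_add' := h.map_add
      map_smul' := fun r m => by
        rw [← algebraMap_smul (R ⊗[k] X.A) r m, h.map_smulₛₗ, evalAt_algebraMap]; rfl }
  have hle : (RingHom.ker (X.evalAt R σ) • ⊤ : Submodule (R ⊗[k] X.A) L.MA).restrictScalars R ≤
      LinearMap.ker h₀ := by
    intro z hz
    rw [Submodule.restrictScalars_mem] at hz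
    refine Submodule.smul_induction_on hz (fun s hs m _ => ?_) fun a b ha hb => add_mem ha hb
    rw [LinearMap.mem_ker]
    show h (s • m) = 0
    rw [h.map_smulₛₗ, RingHom.mem_ker.mp hs, zero_smul]
  refine ⟨Submodule.liftQ _ h₀ hle, fun m => rfl, fun f hf => Submodule.linearMap_qext _ ?_⟩
  exact LinearMap.ext hf

instance Tri.invertible_fibre (L : X.Tri R) (σ : X.A →ₐ[k] k) :
    Module.Invertible R (L.fibre σ) :=
  (L.univ_toFibre σ).invertible

/-- The map of fibres of a pullback. -/
def Tri.Pullback.fibreMap {φ : R →ₐ[k] R'} {L : X.Tri R} {L' : X.Tri R'}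
    (P : Tri.Pullback φ L L') (σ : X.A →ₐ[k] k) : L.fibre σ →ₛₗ[φ.toRingHom] L'.fibre σ :=
  (L.univ_toFibre σ).liftSemi ((L'.toFibre σ).toAddMonoidHom.comp P.gA.toAddMonoidHom)
    fun s m => by simp [evalAt_baseHom]

theorem Tri.Pullback.fibreMap_apply {φ : R →ₐ[k] R'} {L : X.Tri R} {L' : X.Tri R'}
    (P : Tri.Pullback φ L L') (σ : X.A →ₐ[k] k) (m : L.MA) :
    P.fibreMap σ (L.toFibre σ m) = L'.toFibre σ (P.gA m) :=
  (L.univ_toFibre σ).liftSemi_apply _ _ m

theorem Tri.Pullback.univ_fibreMap {φ : R →ₐ[k] R'} {L : X.Tri R} {L' : X.Tri R'}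
    (P : Tri.Pullback φ L L') (σ : X.A →ₐ[k] k) :
    IsScalarExtension φ.toRingHom (P.fibreMap σ) :=
  (L.univ_toFibre σ).of_comp (χ := φ.toRingHom.comp (X.evalAt R σ)) (fun _ => rfl)
    (g₃ :=
      { toFun := fun m => L'.toFibre σ (P.gA m)
        map_add' := fun a b => by simp
        map_smul' := fun s m => by simp [evalAt_baseHom] })
    (P.univA.comp (fun s => (evalAt_baseHom φ σ s).symm) (L'.univ_toFibre σ) fun _ => rfl)
    fun m => (P.fibreMap_apply σ m).symm

variable {n : ℕ}

/-- The differential together with evaluation at a family of points. -/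
def Tri.evMap (L : X.Tri R) (q : Fin n → (X.A →ₐ[k] k)) :
    L.MA × L.MB →ₗ[R] L.MW × ∀ l, L.fibre (q l) :=
  L.diff.prod (LinearMap.pi fun l =>
    ((RingHom.ker (X.evalAt R (q l)) • ⊤ :
      Submodule (R ⊗[k] X.A) L.MA).restrictScalars R).mkQ ∘ₗ LinearMap.fst R L.MA L.MB)

theorem Tri.evMap_apply (L : X.Tri R) (q : Fin n → (X.A →ₐ[k] k)) (a : L.MA) (b : L.MB) :
    L.evMap q (a, b) = (L.fA a - L.fB b, fun l => L.toFibre (q l) a) :=
  Prod.ext (Tri.diff_apply L a b) rfl

theorem Tri.bijective_evMap_iff (L : X.Tri R) (q : Fin n → (X.A →ₐ[k] k))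
    (hs : Function.Surjective L.diff) :
    Function.Bijective (L.evMap q) ↔ Function.Bijective (L.evalFibs q) := by
  constructor
  · intro h
    refine ⟨fun z w hzw => Subtype.ext (h.1 (Prod.ext ?_ hzw)), fun v => ?_⟩
    · exact (LinearMap.mem_ker.mp z.2).trans (LinearMap.mem_ker.mp w.2).symm
    · obtain ⟨z, hz⟩ := h.2 (0, v)
      exact ⟨⟨z, LinearMap.mem_ker.mpr (congrArg Prod.fst hz)⟩, congrArg Prod.snd hz⟩
  · intro h
    refine ⟨fun z w hzw => ?_, fun v => ?_⟩
    · have hd : z - w ∈ L.H0 := by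
        rw [LinearMap.mem_ker, map_sub]
        exact sub_eq_zero.mpr (congrArg Prod.fst hzw)
      have h0 : L.evalFibs q ⟨z - w, hd⟩ = L.evalFibs q 0 := by
        rw [map_zero]
        show (L.evMap q (z - w)).2 = 0
        rw [map_sub, hzw, sub_self]
        rfl
      exact sub_eq_zero.mp (congrArg Subtype.val (h.1 h0))
    · obtain ⟨z₀, hz₀⟩ := hs v.1
      obtain ⟨z, hz⟩ := h.2 (v.2 - (L.evMap q z₀).2)
      refine ⟨z₀ + z.1, Prod.ext ?_ ?_⟩
      · show L.diff (z₀ + z.1) = v.1
        rw [map_add, hz₀, LinearMap.mem_ker.mp z.2, add_zero]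
      · have hz' : (L.evMap q z.1).2 = v.2 - (L.evMap q z₀).2 := hz
        rw [map_add, Prod.snd_add, hz', add_sub_cancel]

theorem Tri.surjective_diff_of_evMap (L : X.Tri R) (q : Fin n → (X.A →ₐ[k] k))
    (h : Function.Surjective (L.evMap q)) : Function.Surjective L.diff := fun w => by
  obtain ⟨z, hz⟩ := h (w, 0)
  exact ⟨z, congrArg Prod.fst hz⟩

theorem Tri.finite_coker_evMap (L : X.Tri R) (q : Fin n → (X.A →ₐ[k] k)) :
    Module.Finite R ((L.MW × ∀ l, L.fibre (q l)) ⧸ LinearMap.range (L.evMap q)) := by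
  have := L.finite_coker
  set Φ := L.evMap q
  let π : ((L.MW × ∀ l, L.fibre (q l)) ⧸ LinearMap.range Φ) →ₗ[R]
      (L.MW ⧸ LinearMap.range L.diff) :=
    Submodule.mapQ _ _ (LinearMap.fst R L.MW _) (by
      rintro _ ⟨z, rfl⟩
      exact ⟨z, rfl⟩)
  have : Module.Finite R (LinearMap.ker π) := by
    let ι : (∀ l, L.fibre (q l)) →ₗ[R] LinearMap.ker π :=
      LinearMap.codRestrict _ (Submodule.mkQ _ ∘ₗ LinearMap.inr R L.MW _) fun v => by
        rw [LinearMap.mem_ker]
        show Submodule.Quotient.mk (0 : L.MW) = 0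
        rfl
    refine Module.Finite.of_surjective ι ?_
    rintro ⟨y, hy⟩
    obtain ⟨⟨w, v⟩, rfl⟩ := Submodule.mkQ_surjective _ y
    rw [LinearMap.mem_ker] at hy
    obtain ⟨z, hz⟩ := (Submodule.Quotient.mk_eq_zero _).mp hy
    refine ⟨v - (Φ z).2, Subtype.ext ((Submodule.Quotient.eq _).mpr ⟨-z, Prod.ext ?_ ?_⟩)⟩
    · show L.diff (-z) = 0 - w
      rw [map_neg, hz, zero_sub]
      rfl
    · rw [map_neg]
      show -(Φ z).2 = v - (Φ z).2 - v
      abel
  have hπ : Function.Surjective π := fun y => by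
    obtain ⟨w, rfl⟩ := Submodule.mkQ_surjective _ y
    exact ⟨Submodule.mkQ _ (w, 0), rfl⟩
  have : Module.Finite R (_ ⧸ LinearMap.ker π) :=
    Module.Finite.equiv (π.quotKerEquivOfSurjective hπ).symm
  exact Module.Finite.of_submodule_quotient (LinearMap.ker π)

instance Tri.projective_fibres (L : X.Tri R) (q : Fin n → (X.A →ₐ[k] k)) :
    Module.Projective R (∀ l, L.fibre (q l)) :=
  Module.Projective.of_equiv (DFinsupp.linearEquivFunOnFintype (R := R))

theorem Tri.finite_ker_evMap (L : X.Tri R) (q : Fin n → (X.A →ₐ[k] k))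
    (hs : Function.Surjective (L.evMap q)) : Module.Finite R (LinearMap.ker (L.evMap q)) := by
  have hd := L.surjective_diff_of_evMap q hs
  have := L.finite_H0 hd
  obtain ⟨σ, hσ⟩ := Module.projective_lifting_property (L.evMap q) LinearMap.id hs
  let π : L.H0 →ₗ[R] LinearMap.ker (L.evMap q) :=
    LinearMap.codRestrict _ ((LinearMap.id - σ ∘ₗ L.evMap q) ∘ₗ L.H0.subtype) fun x => by
      rw [LinearMap.mem_ker]
      show L.evMap q (x.1 - σ (L.evMap q x.1)) = 0
      rw [map_sub, show L.evMap q (σ (L.evMap q x.1)) = L.evMap q x.1 from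
        LinearMap.congr_fun hσ _, sub_self]
  refine Module.Finite.of_surjective π fun z =>
    ⟨⟨z.1, LinearMap.mem_ker.mpr (congrArg Prod.fst (LinearMap.mem_ker.mp z.2))⟩, Subtype.ext ?_⟩
  show z.1 - σ (L.evMap q z.1) = z.1
  rw [LinearMap.mem_ker.mp z.2, map_zero, sub_zero]

theorem Tri.Pullback.bijective_evMap_iff [Algebra R R'] [IsScalarTower k R R'] {L : X.Tri R}
    {L' : X.Tri R'} (P : Tri.Pullback (IsScalarTower.toAlgHom k R R') L L')
    (q : Fin n → (X.A →ₐ[k] k)) :
    (Function.Surjective (L'.evMap q) ↔ Function.Surjective ((L.evMap q).baseChange R')) ∧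
      (Function.Bijective (L'.evMap q) ↔ Function.Bijective ((L.evMap q).baseChange R')) := by
  obtain ⟨eD, eW, h, h1⟩ := P.exists_diff_equiv
  let : Module R L'.MW := Module.compHom L'.MW (algebraMap R R')
  have : IsScalarTower R R' L'.MW := IsScalarTower.of_algebraMap_smul fun _ _ => rfl
  let inst : ∀ l, Module R (L'.fibre (q l)) := fun l => Module.compHom _ (algebraMap R R')
  have : ∀ l, IsScalarTower R R' (L'.fibre (q l)) := fun l =>
    IsScalarTower.of_algebraMap_smul fun _ _ => rfl
  let g : ∀ l, L.fibre (q l) →ₗ[R] L'.fibre (q l) := fun l =>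
    { toFun := P.fibreMap (q l)
      map_add' := (P.fibreMap (q l)).map_add
      map_smul' := fun r m => by
        rw [(P.fibreMap (q l)).map_smulₛₗ, RingHom.id_apply]
        exact algebraMap_smul R' r _ }
  let eF : ∀ l, R' ⊗[R] L.fibre (q l) ≃ₗ[R'] L'.fibre (q l) := fun l =>
    (IsScalarExtension.isBaseChange_self (P.univ_fibreMap (q l)) (g l) fun _ => rfl).equiv
  let eT : R' ⊗[R] (L.MW × ∀ l, L.fibre (q l)) ≃ₗ[R'] L'.MW × ∀ l, L'.fibre (q l) :=
    TensorProduct.prodRight R R' R' L.MW _ ≪≫ₗ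
      eW.prodCongr (TensorProduct.piRight R R' R' _ ≪≫ₗ LinearEquiv.piCongrRight eF)
  have hc : ∀ z, L'.evMap q (eD z) = eT ((L.evMap q).baseChange R' z) := by
    have : (L'.evMap q).comp eD.toLinearMap = eT.toLinearMap.comp ((L.evMap q).baseChange R') := by
      refine TensorProduct.AlgebraTensorModule.ext fun s ab => ?_
      obtain ⟨a, b⟩ := ab
      simp only [LinearMap.comp_apply, LinearEquiv.coe_coe, LinearMap.baseChange_tmul]
      have hs : eD (s ⊗ₜ[R] (a, b)) = s • (P.gA a, P.gB b) := by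
        rw [← h1, ← map_smul, TensorProduct.smul_tmul', smul_eq_mul, mul_one]
      rw [hs, map_smul, Tri.evMap_apply, Tri.evMap_apply]
      refine Prod.ext ?_ ?_
      · have h2 := h ((1 : R') ⊗ₜ[R] (a, b))
        rw [h1, Tri.diff_apply, LinearMap.baseChange_tmul, Tri.diff_apply] at h2
        show s • (L'.fA (P.gA a) - L'.fB (P.gB b)) = eW (s ⊗ₜ[R] (L.fA a - L.fB b))
        rw [h2, ← map_smul, TensorProduct.smul_tmul', smul_eq_mul, mul_one]
      · funext l
        show s • L'.toFibre (q l) (P.gA a) = eF l (s ⊗ₜ[R] L.toFibre (q l) a)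
        simp only [eF, IsBaseChange.equiv_tmul]
        exact congrArg _ (P.fibreMap_apply (q l) a).symm
    exact fun z => LinearMap.congr_fun this z
  have hfun : ⇑(L'.evMap q) = ⇑eT ∘ ⇑((L.evMap q).baseChange R') ∘ ⇑eD.symm := funext fun z => by
    simp only [Function.comp_apply]
    rw [← hc, LinearEquiv.apply_symm_apply]
  rw [hfun]
  refine ⟨?_, ?_⟩
  · exact ⟨fun hh => (Function.Surjective.of_comp_iff _ eD.symm.surjective).mp
      ((Function.Surjective.of_comp_iff' eT.bijective _).mp hh),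
      fun hh => eT.surjective.comp (hh.comp eD.symm.surjective)⟩
  · rw [Function.Bijective.of_comp_iff' eT.bijective,
      Function.Bijective.of_comp_iff _ eD.symm.bijective]

theorem Tri.finiteDimensional_ker_evMap {K : Type u} [Field K] [Algebra k K] (L : X.Tri K)
    (q : Fin n → (X.A →ₐ[k] k)) : FiniteDimensional K (L.evMap q).ker := by
  have := L.finiteDimensional_H0
  exact FiniteDimensional.of_injective (Submodule.inclusion (p' := L.H0) fun z hz =>
    LinearMap.mem_ker.mpr (congrArg Prod.fst (LinearMap.mem_ker.mp hz)))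
    (Submodule.inclusion_injective _)

theorem Tri.index_evMap {K : Type u} [Field K] [Algebra k K] (L : X.Tri K)
    (q : Fin n → (X.A →ₐ[k] k)) : L.diff.index = (n : ℤ) + (L.evMap q).index := by
  have := L.finiteDimensional_ker_evMap q
  have : FiniteDimensional K ((L.MW × ∀ l, L.fibre (q l)) ⧸ (L.evMap q).range) :=
    L.finite_coker_evMap q
  let π₁ : (L.MW × ∀ l, L.fibre (q l)) →ₗ[K] L.MW := LinearMap.fst K _ _
  have hπ : Function.Surjective π₁ := fun w => ⟨(w, 0), rfl⟩
  let eker : π₁.ker ≃ₗ[K] ∀ l, L.fibre (q l) :=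
    { toFun := fun z => z.1.2
      map_add' := fun _ _ => rfl
      map_smul' := fun _ _ => rfl
      invFun := fun v => ⟨(0, v), rfl⟩
      left_inv := fun z => Subtype.ext (Prod.ext (LinearMap.mem_ker.mp z.2).symm rfl)
      right_inv := fun _ => rfl }
  have : FiniteDimensional K π₁.ker := Module.Finite.equiv eker.symm
  have : FiniteDimensional K (L.MW ⧸ π₁.range) := by
    rw [LinearMap.range_eq_top.2 hπ]; infer_instance
  have hdim : Module.finrank K π₁.ker = n := by
    rw [eker.finrank_eq, Module.finrank_pi_fintype]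
    simp [Module.Invertible.finrank_eq_one]
  have h2 : L.diff = π₁ ∘ₗ L.evMap q := rfl
  rw [h2, LinearMap.index_comp, LinearMap.index_of_surjective hπ, hdim]

theorem Tri.bijective_evMap_field_iff {K : Type u} [Field K] [Algebra k K] (L : X.Tri K)
    (q : Fin n → (X.A →ₐ[k] k)) :
    Function.Bijective (L.evMap q) ↔
      Function.Surjective (L.evMap q) ∧ L.diff.index = n := by
  have := L.finiteDimensional_ker_evMap q
  have hidx := L.index_evMap q
  constructor
  · intro h
    refine ⟨h.2, ?_⟩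
    rw [hidx, LinearMap.index_of_surjective h.2, LinearMap.ker_eq_bot.2 h.1, finrank_bot]
    simp
  · rintro ⟨hs, hd⟩
    refine ⟨?_, hs⟩
    rw [hidx, LinearMap.index_of_surjective hs] at hd
    have : Module.finrank K (L.evMap q).ker = 0 := by omega
    exact LinearMap.ker_eq_bot.mp (Submodule.finrank_eq_zero.mp this)

theorem Tri.bijective_evMap_of_ker {K : Type u} [Field K] [Algebra k K] (L : X.Tri K)
    (q : Fin n → (X.A →ₐ[k] k)) (hker : ∀ z, L.evMap q z = 0 → z = 0)
    (hidx : L.diff.index = n) : Function.Bijective (L.evMap q) := by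
  have h := L.index_evMap q
  have hinj : Function.Injective (L.evMap q) := (injective_iff_map_eq_zero _).mpr hker
  have : FiniteDimensional K ((L.MW × ∀ l, L.fibre (q l)) ⧸ (L.evMap q).range) :=
    L.finite_coker_evMap q
  rw [LinearMap.index_of_injective hinj, hidx] at h
  refine ⟨hinj, LinearMap.range_eq_top.mp (Submodule.Quotient.subsingleton_iff.mp ?_)⟩
  exact (Module.finrank_zero_iff (R := K)).mp (by omega)

/-- The bijectivity locus of an evaluation map is open and detects bijectivity. -/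
theorem Tri.exists_evMap_locus (L : X.Tri R) (q : Fin n → (X.A →ₐ[k] k)) :
    ∃ U : Set (PrimeSpectrum R), IsOpen U ∧
      (∀ (K : Type u) [Field K] [Algebra k K] (φ : R →ₐ[k] K) (L' : X.Tri K)
        (_ : Tri.Pullback φ L L'), Function.Bijective (L'.evMap q) ↔
          (⟨RingHom.ker φ.toRingHom, RingHom.ker_isPrime φ.toRingHom⟩ : PrimeSpectrum R) ∈ U) ∧
      (U = Set.univ → Function.Bijective (L.evMap q)) := by
  obtain ⟨χ, hχ⟩ := L.exists_eulerFun
  have := L.finite_coker_evMap q
  let U : Set (PrimeSpectrum R) :=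
    (Module.support R ((L.MW × ∀ l, L.fibre (q l)) ⧸ LinearMap.range (L.evMap q)))ᶜ ∩
      χ ⁻¹' {(n : ℤ)}
  have key : ∀ (K : Type u) [Field K] [Algebra k K] [Algebra R K] [IsScalarTower k R K]
      (L' : X.Tri K) (_ : Tri.Pullback (IsScalarTower.toAlgHom k R K) L L'),
      Function.Bijective (L'.evMap q) ↔
        (⟨RingHom.ker (algebraMap R K), RingHom.ker_isPrime _⟩ : PrimeSpectrum R) ∈ U := by
    intro K _ _ _ _ L' P
    rw [L'.bijective_evMap_field_iff q, (P.bijective_evMap_iff q).1,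
      surjective_baseChange_field_iff, hχ K _ L' P]
    rfl
  refine ⟨U, Module.isClosed_support.isOpen_compl.inter
    (χ.isLocallyConstant.isOpen_fiber _), fun K _ _ φ L' P => ?_, fun hU => ?_⟩
  · let : Algebra R K := φ.toRingHom.toAlgebra
    have : IsScalarTower k R K := IsScalarTower.of_algebraMap_eq fun r => (φ.commutes r).symm
    exact key K L' P
  · refine bijective_of_forall_residueField (L.evMap q) (L.finite_ker_evMap q) fun p => ?_
    have P := L.pullbackBaseChange (IsScalarTower.toAlgHom k R p.asIdeal.ResidueField)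
    rw [← (P.bijective_evMap_iff q).2, key _ _ P, hU]
    trivial

theorem Tri.bijective_diff_iff (L : X.Tri R) :
    Function.Bijective (L.evMap (fun l : Fin 0 => l.elim0)) ↔ Function.Bijective L.diff := by
  constructor
  · intro h
    refine ⟨fun z w hzw => h.1 (Prod.ext hzw (funext fun l => l.elim0)), ?_⟩
    exact L.surjective_diff_of_evMap _ h.2
  · intro h
    refine ⟨fun z w hzw => h.1 (congrArg Prod.fst hzw), fun v => ?_⟩
    obtain ⟨z, hz⟩ := h.2 v.1
    exact ⟨z, Prod.ext hz (funext fun l => l.elim0)⟩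

end TwoChart

end Fermat.Agent.Picard
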