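/-
Openness of the chart conditions.
-/
import Fermat.Agent.Picard.Algebra.Charts
import Fermat.Agent.Picard.Algebra.Frame

set_option autoImplicit false

universe u

open scoped TensorProduct

noncomputable section

namespace Fermat.Agent.Picard.TwoChart

variable {k : Type u} [Field k] {X : TwoChart k}
variable {R R' : Type u} [CommRing R] [Algebra k R] [CommRing R'] [Algebra k R']

/-- Transport of a pullback along an equality of maps. -/
def Tri.Pullback.cast {φ ψ : R →ₐ[k] R'} (h : φ = ψ) {L : X.Tri R} {L' : X.Tri R'}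
    (P : Tri.Pullback φ L L') : Tri.Pullback ψ L L' :=
  h ▸ P

theorem Tri.diff_twist_inv (M : X.Tri R) (a : M.MA) (b : M.MB) :
    (M.twist X.xUnit⁻¹).diff (a, b) = M.diff (a, ((1 : R) ⊗ₜ[k] X.y) • b) := by
  rw [Tri.diff_apply M]
  refine (Tri.diff_apply (M.twist X.xUnit⁻¹) a b).trans ?_
  rw [twist_fA, twist_fB, tensorUnit_val, M.fB.map_smulₛₗ, resB_tmul]
  rfl

theorem Tri.surjective_diff_of_twist_inv (M : X.Tri R)
    (h : Function.Surjective (M.twist X.xUnit⁻¹).diff) : Function.Surjective M.diff := fun w => by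
  obtain ⟨⟨a, b⟩, hab⟩ := h w
  exact ⟨_, (Tri.diff_twist_inv M a b).symm.trans hab⟩

variable [IsAlgClosed k]

theorem frameGood_iff {n : ℕ} (q : Fin n → (X.A →ₐ[k] k)) (M : X.Tri R) :
    X.FrameGood q M ↔
      Function.Bijective ((M.twist X.xUnit⁻¹).evMap (fun l : Fin 0 => l.elim0)) ∧
        Function.Bijective (M.evMap q) ∧
          ∀ i, Function.Bijective (M.evMap (Function.update q i X.ε)) := by
  rw [Tri.bijective_diff_iff]
  constructor
  · rintro ⟨h0, h1, h2⟩
    have hs := M.surjective_diff_of_twist_inv h0.2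
    exact ⟨h0, (M.bijective_evMap_iff q hs).mpr h1,
      fun i => (M.bijective_evMap_iff _ hs).mpr (h2 i)⟩
  · rintro ⟨h0, h1, h2⟩
    have hs := M.surjective_diff_of_twist_inv h0.2
    exact ⟨h0, (M.bijective_evMap_iff q hs).mp h1,
      fun i => (M.bijective_evMap_iff _ hs).mp (h2 i)⟩

theorem FrameGood.pullback {n : ℕ} {q : Fin n → (X.A →ₐ[k] k)} {M : X.Tri R}
    (h : X.FrameGood q M) {φ : R →ₐ[k] R'} {M' : X.Tri R'} (P : Tri.Pullback φ M M') :
    X.FrameGood q M' := by
  let : Algebra R R' := φ.toRingHom.toAlgebra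
  have : IsScalarTower k R R' := IsScalarTower.of_algebraMap_eq fun r => (φ.commutes r).symm
  obtain ⟨h0, h1, h2⟩ := (frameGood_iff q M).mp h
  have P' : Tri.Pullback (IsScalarTower.toAlgHom k R R') M M' := P
  exact (frameGood_iff q M').mpr
    ⟨((P'.twist _).bijective_evMap_iff _).2.mpr (bijective_baseChange _ h0 R'),
      (P'.bijective_evMap_iff _).2.mpr (bijective_baseChange _ h1 R'),
      fun i => (P'.bijective_evMap_iff _).2.mpr (bijective_baseChange _ (h2 i) R')⟩

/-- The translation commutes with pullback. -/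
def ChartIndex.shiftPullback (i : X.ChartIndex) {φ : R →ₐ[k] R'} {L : X.Tri R} {L' : X.Tri R'}
    (P : Tri.Pullback φ L L') : Tri.Pullback φ (i.shift L) (i.shift L') :=
  P.tensor (((X.shiftTri i.m i.P).baseChange (Algebra.ofId k R)).pullbackBaseChange φ |>.congrRight
    (((Tri.pullbackBaseChange (X.shiftTri i.m i.P) (Algebra.ofId k R)).comp
      (((X.shiftTri i.m i.P).baseChange (Algebra.ofId k R)).pullbackBaseChange φ)).cast
        (Subsingleton.elim _ _) |>.equiv
      (Tri.pullbackBaseChange (X.shiftTri i.m i.P) (Algebra.ofId k R'))))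

theorem ChartIndex.good_pullback (i : X.ChartIndex) {φ : R →ₐ[k] R'} {L : X.Tri R}
    {L' : X.Tri R'} (P : Tri.Pullback φ L L') (h : i.Good L) : i.Good L' :=
  FrameGood.pullback h (i.shiftPullback P)

theorem ChartIndex.exists_locus (i : X.ChartIndex) (L : X.Tri R) :
    ∃ U : Set (PrimeSpectrum R), IsOpen U ∧
      (∀ (K : Type u) [Field K] [Algebra k K] (φ : R →ₐ[k] K) (L' : X.Tri K)
        (_ : Tri.Pullback φ L L'), i.Good L' ↔
          (⟨RingHom.ker φ.toRingHom, RingHom.ker_isPrime φ.toRingHom⟩ : PrimeSpectrum R) ∈ U) ∧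
      (U = Set.univ → i.Good L) := by
  obtain ⟨U₀, ho₀, hk₀, hg₀⟩ :=
    ((i.shift L).twist X.xUnit⁻¹).exists_evMap_locus (fun l : Fin 0 => l.elim0)
  obtain ⟨U₁, ho₁, hk₁, hg₁⟩ := (i.shift L).exists_evMap_locus i.q
  choose U₂ ho₂ hk₂ hg₂ using fun j => (i.shift L).exists_evMap_locus (Function.update i.q j X.ε)
  refine ⟨U₀ ∩ (U₁ ∩ ⋂ j, U₂ j), ho₀.inter (ho₁.inter (isOpen_iInter_of_finite ho₂)),
    fun K _ _ φ L' P => ?_, fun hU => ?_⟩
  · have P' := i.shiftPullback P
    rw [ChartIndex.Good, frameGood_iff, hk₀ K φ _ (P'.twist _), hk₁ K φ _ P',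
      forall_congr' fun j => hk₂ j K φ _ P']
    simp only [Set.mem_inter_iff, Set.mem_iInter]
  · simp only [Set.eq_univ_iff_forall, Set.mem_inter_iff, Set.mem_iInter] at hU
    exact (frameGood_iff _ _).mpr ⟨hg₀ (Set.eq_univ_of_forall fun p => (hU p).1),
      hg₁ (Set.eq_univ_of_forall fun p => (hU p).2.1),
      fun j => hg₂ j (Set.eq_univ_of_forall fun p => (hU p).2.2 j)⟩

theorem ChartIndex.locus_spec (i : X.ChartIndex) (L : X.Tri R) :
    IsOpen (i.locus L) ∧
      (∀ (K : Type u) [Field K] [Algebra k K] (φ : R →ₐ[k] K) (L' : X.Tri K)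
        (_ : Tri.Pullback φ L L'), i.Good L' ↔
          (⟨RingHom.ker φ.toRingHom, RingHom.ker_isPrime φ.toRingHom⟩ : PrimeSpectrum R) ∈
            i.locus L) ∧
      (i.locus L = Set.univ → i.Good L) := by
  obtain ⟨U, ho, hk, hg⟩ := i.exists_locus L
  have : i.locus L = U := by
    ext p
    refine (hk _ (IsScalarTower.toAlgHom k R p.asIdeal.ResidueField) _
      (L.pullbackBaseChange _)).trans (iff_of_eq (congrArg (· ∈ U) (PrimeSpectrum.ext ?_)))
    exact Ideal.ker_algebraMap_residueField p.asIdeal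
  rw [this]
  exact ⟨ho, hk, hg⟩

theorem ChartIndex.good_iff_range (i : X.ChartIndex) {φ : R →ₐ[k] R'} {L : X.Tri R}
    {L' : X.Tri R'} (P : Tri.Pullback φ L L') :
    i.Good L' ↔ Set.range (PrimeSpectrum.comap φ.toRingHom) ⊆ i.locus L := by
  have key : ∀ p' : PrimeSpectrum R', p' ∈ i.locus L' ↔
      PrimeSpectrum.comap φ.toRingHom p' ∈ i.locus L := fun p' => by
    let ψ := IsScalarTower.toAlgHom k R' p'.asIdeal.ResidueField
    show i.Good (L'.baseChange ψ) ↔ _
    rw [(i.locus_spec L).2.1 _ (ψ.comp φ) _ (P.comp (L'.pullbackBaseChange ψ))]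
    refine iff_of_eq (congrArg (· ∈ i.locus L) (PrimeSpectrum.ext ?_))
    ext r
    show ψ (φ r) = 0 ↔ φ r ∈ p'.asIdeal
    exact Ideal.algebraMap_residueField_eq_zero
  constructor
  · rintro h _ ⟨p', rfl⟩
    exact (key p').mp (i.good_pullback (L'.pullbackBaseChange _) h)
  · intro h
    exact (i.locus_spec L').2.2 (Set.eq_univ_of_forall fun p' => (key p').mpr (h ⟨p', rfl⟩))

end Fermat.Agent.Picard.TwoChart
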