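/-
Tensor products, twists and base changes of triples attached to divisors.
-/
import Fermat.Agent.Picard.Algebra.Tensor
import Fermat.Agent.Picard.Points.ToTri

set_option autoImplicit false

universe u

open scoped TensorProduct

noncomputable section

namespace Fermat.Agent.Picard

/-- Multiplication of invertible ideals as a linear map. -/
def idealMulMap {S : Type u} [CommRing S] (J J' : Ideal S) : J ⊗[S] J' →ₗ[S] ↥(J * J') :=
  TensorProduct.lift (LinearMap.mk₂ S
    (fun (a : J) (b : J') => (⟨(a : S) * b, Ideal.mul_mem_mul a.2 b.2⟩ : ↥(J * J')))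
    (fun a₁ a₂ b => Subtype.ext (add_mul (a₁ : S) a₂ b))
    (fun c a b => Subtype.ext (by simp [mul_assoc]))
    (fun a b₁ b₂ => Subtype.ext (mul_add (a : S) b₁ b₂))
    fun c a b => Subtype.ext (by simp [mul_left_comm]))

theorem idealMulMap_tmul {S : Type u} [CommRing S] (J J' : Ideal S) (a : J) (b : J') :
    ((idealMulMap J J' (a ⊗ₜ[S] b) : ↥(J * J')) : S) = (a : S) * b := rfl

theorem idealMulMap_bijective {S : Type u} [CommRing S] (J J' : Ideal S) [Module.Invertible S J]
    [Module.Invertible S J'] [Module.Invertible S ↥(J * J')] :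
    Function.Bijective (idealMulMap J J') := by
  refine Module.Invertible.bijective_of_surjective ?_
  rintro ⟨z, hz⟩
  induction hz using Submodule.mul_induction_on' with
  | mem_mul_mem a ha b hb => exact ⟨⟨a, ha⟩ ⊗ₜ ⟨b, hb⟩, Subtype.ext rfl⟩
  | add x hx y hy ihx ihy =>
    obtain ⟨u, hu⟩ := ihx
    obtain ⟨v, hv⟩ := ihy
    exact ⟨u + v, by rw [map_add, hu, hv]; rfl⟩

namespace TwoChart

variable {k : Type u} [Field k] {X : TwoChart k} {R : Type u} [CommRing R] [Algebra k R]

/-- Composite twists. -/
def Tri.twistTwist (L : X.Tri R) (u v : X.Wˣ) {w : X.Wˣ} (h : v * u = w) :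
    ((L.twist u).twist v).Equiv (L.twist w) where
  eA := .refl _ _
  eB := .refl _ _
  eW := .refl _ _
  commA _ := rfl
  commB m := by
    show (X.tensorUnit R v : R ⊗[k] X.W) • ((X.tensorUnit R u : R ⊗[k] X.W) • L.fB m) =
      (X.tensorUnit R w : R ⊗[k] X.W) • L.fB m
    rw [smul_smul, ← h, tensorUnit, tensorUnit, tensorUnit, ← Units.val_mul, ← map_mul]

end TwoChart

namespace Points

variable {k : Type u} [Field k] [IsAlgClosed k] {X : TwoChart k}
variable {R : Type u} [CommRing R] [Algebra k R] [IsDomain R]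

/-- `O(N+1)(-D)` twisted back is `O(N)(-D)`. -/
def triTwistInv (D : Div X R) (hD : D.Invertible) (N : ℕ) :
    ((D.tri hD (N + 1)).twist X.xUnit⁻¹).Equiv (D.tri hD N) :=
  (D.toTri hD).twistTwist _ _ (by rw [pow_succ', inv_mul_cancel_left])

/-- `O(N)(-D) ⊗ O(M)(-E) = O(N+M)(-D-E)`. -/
def triTensorEquiv (D E : Div X R) (hD : D.Invertible) (hE : E.Invertible) (N M : ℕ) :
    ((D.tri hD N).tensor (E.tri hE M)).Equiv ((D * E).tri (hD.mul hE) (N + M)) :=
  haveI := hD.1.invertible
  haveI := hD.2.invertible
  haveI := hE.1.invertible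
  haveI := hE.2.invertible
  haveI := (hD.1.mul hE.1).invertible
  haveI := (hD.2.mul hE.2).invertible
  haveI := (hD.1.map (locA X R).injective).invertible
  haveI := (hE.1.map (locA X R).injective).invertible
  haveI := ((hD.1.map (locA X R).injective).mul (hE.1.map (locA X R).injective)).invertible
  { eA := LinearEquiv.ofBijective (idealMulMap D.JA E.JA) (idealMulMap_bijective _ _)
    eB := LinearEquiv.ofBijective (idealMulMap D.JB E.JB) (idealMulMap_bijective _ _)
    eW := (LinearEquiv.ofBijective (idealMulMap (D.JA.map (X.resA R)) (E.JA.map (X.resA R)))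
      (idealMulMap_bijective _ _)).trans
        (LinearEquiv.ofEq _ _ (Ideal.map_mul (X.resA R) D.JA E.JA).symm)
    commA := fun z => by
      refine tensor_comm_ext (fun a b => ?_) z
      exact Subtype.ext (map_mul (X.resA R) (valIn D.JA a) (valIn E.JA b)).symm
    commB := fun z => by
      refine tensor_comm_ext (fun a b => ?_) z
      refine Subtype.ext ?_
      show valIn (D.JA.map (X.resA R)) ((D.tri hD N).fB a) *
          valIn (E.JA.map (X.resA R)) ((E.tri hE M).fB b) = _
      refine Eq.trans ?_ (Div.tri_coe_fB (D * E) _ (N + M) _).symm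
      refine (congrArg₂ (· * ·) (Div.tri_coe_fB D hD N a) (Div.tri_coe_fB E hE M b)).trans ?_
      show _ = xPow X R (N + M) * X.resB R (valIn D.JB a * valIn E.JB b)
      rw [map_mul, xPow, xPow, xPow, pow_add]
      ring }

/-- Base change of a divisor triple to a domain. -/
def triBaseChange {R' : Type u} [CommRing R'] [Algebra k R'] [IsDomain R'] (φ : R →ₐ[k] R')
    (D : Div X R) (hD : D.Invertible) (hD' : (D.map φ).Invertible) (N : ℕ) :
    ((D.tri hD N).baseChange φ).Equiv ((D.map φ).tri hD' N) :=
  ((D.tri hD N).pullbackBaseChange φ).equiv (triPullback φ D hD hD' N)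

end Points

end Fermat.Agent.Picard
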