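/-
Global sections of divisor triples: subtracting general rational points.
-/
import Fermat.Agent.Picard.Algebra.DivTensor
import Fermat.Agent.Picard.Algebra.Frame
import Fermat.Agent.Picard.Points.Exist

set_option autoImplicit false

universe u

open scoped TensorProduct

noncomputable section

namespace Fermat.Agent.Picard

/-- Coprime ideals: intersection of two products with a common factor. -/
theorem mem_mul_of_mem_mul_of_sup_eq_top {S : Type u} [CommRing S] {I Q J : Ideal S}
    (h : I ⊔ Q = ⊤) {a : S} (h1 : a ∈ I * J) (h2 : a ∈ Q * J) : a ∈ I * Q * J := by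
  obtain ⟨s, hs, t, ht, hst⟩ := Submodule.mem_sup.mp (h ▸ Submodule.mem_top : (1 : S) ∈ I ⊔ Q)
  have e : a = s * a + t * a := by rw [← add_mul, hst, one_mul]
  rw [e]
  refine Ideal.add_mem _ ?_ ?_
  · rw [mul_assoc]; exact Ideal.mul_mem_mul hs h2
  · rw [mul_comm I Q, mul_assoc]; exact Ideal.mul_mem_mul ht h1

namespace Points

variable {k : Type u} [Field k] [IsAlgClosed k] {X : TwoChart k}
variable {K : Type u} [Field K] [Algebra k K]

/-- A rational point of `Spec A` seen over `K`. -/
abbrev kPt (K : Type u) [Field K] [Algebra k K] (σ : X.A →ₐ[k] k) : Pt X K :=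
  Sum.inl ((Algebra.ofId k K).comp σ)

omit [IsAlgClosed k] in
theorem secEval_kPt (σ : X.A →ₐ[k] k) (z : K ⊗[k] X.A) :
    secEval ((Algebra.ofId k K).comp σ) z = X.evalAt K σ z := by
  induction z using TensorProduct.induction_on with
  | zero => simp
  | tmul r a => simp [Algebra.smul_def, mul_comm, Algebra.ofId_apply]
  | add a b ha hb => simp only [map_add, ha, hb]

omit [IsAlgClosed k] in
theorem secIdeal_kPt (σ : X.A →ₐ[k] k) :
    secIdeal ((Algebra.ofId k K).comp σ) = RingHom.ker (X.evalAt K σ) := by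
  ext z
  rw [mem_secIdeal_iff, RingHom.mem_ker, secEval_kPt]

omit [IsAlgClosed k] in
theorem sup_secIdeal_kPt {σ τ : X.A →ₐ[k] k} (h : σ ≠ τ) :
    secIdeal ((Algebra.ofId k K).comp σ) ⊔ secIdeal ((Algebra.ofId k K).comp τ) = ⊤ := by
  obtain ⟨a, ha⟩ : ∃ a, σ a ≠ τ a := by
    by_contra hc
    push Not at hc
    exact h (AlgHom.ext hc)
  rw [Ideal.eq_top_iff_one]
  set u : K ⊗[k] X.A := (1 : K) ⊗ₜ[k] a - algebraMap K _ (algebraMap k K (σ a)) with hu
  set v : K ⊗[k] X.A := (1 : K) ⊗ₜ[k] a - algebraMap K _ (algebraMap k K (τ a)) with hv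
  have hu' : u ∈ secIdeal ((Algebra.ofId k K).comp σ) := by
    simp [mem_secIdeal_iff, hu, Algebra.TensorProduct.algebraMap_apply, Algebra.ofId_apply]
  have hv' : v ∈ secIdeal ((Algebra.ofId k K).comp τ) := by
    simp [mem_secIdeal_iff, hv, Algebra.TensorProduct.algebraMap_apply, Algebra.ofId_apply]
  have hne : algebraMap k K (τ a - σ a) ≠ 0 :=
    (map_ne_zero _).mpr (sub_ne_zero.mpr (Ne.symm ha))
  have : (1 : K ⊗[k] X.A) = algebraMap K _ (algebraMap k K (τ a - σ a))⁻¹ * (u - v) := by
    rw [hu, hv, sub_sub_sub_cancel_left, ← map_sub, ← map_sub, ← map_mul, inv_mul_cancel₀ hne,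
      map_one]
  rw [this]
  exact Ideal.mul_mem_left _ _
    (Ideal.sub_mem _ (Ideal.mem_sup_left hu') (Ideal.mem_sup_right hv'))

/-- A divisor times a list of rational points. -/
abbrev addPts (K : Type u) [Field K] [Algebra k K] (P : List (X.A →ₐ[k] k)) (D : Div X K) :
    Div X K :=
  listDiv (P.map (kPt K)) * D

theorem addPts_invertible (P : List (X.A →ₐ[k] k)) {D : Div X K} (hD : D.Invertible) :
    (addPts K P D).Invertible :=
  (listDiv_invertible _).mul hD

omit [IsAlgClosed k] in
theorem addPts_cons (σ : X.A →ₐ[k] k) (P : List (X.A →ₐ[k] k)) (D : Div X K) :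
    addPts K (σ :: P) D = ptDiv (kPt K σ) * addPts K P D := by
  simp [addPts, listDiv, mul_assoc]

theorem euler_addPts (P : List (X.A →ₐ[k] k)) {D : Div X K} (hD : D.Invertible) (N : ℕ) :
    euler ((addPts K P D).tri (addPts_invertible P hD) N) = euler (D.tri hD N) - P.length := by
  induction P with
  | nil =>
    simp only [addPts, listDiv, List.map_nil, List.prod_nil, one_mul, List.length_nil,
      Nat.cast_zero, sub_zero]
  | cons σ P ih =>
    have h : euler ((addPts K (σ :: P) D).tri (addPts_invertible _ hD) N) =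
        euler ((ptDiv (kPt K σ) * addPts K P D).tri
          ((ptDiv_invertible _).mul (addPts_invertible P hD)) N) := by
      simp only [addPts_cons]
    rw [h, euler_pt (addPts_invertible P hD) N, ih, List.length_cons]
    push_cast
    ring

variable {D : Div X K} (hD : D.Invertible) (N : ℕ)

/-- The value of a section on the first chart. -/
def valA (D : Div X K) (hD : D.Invertible) (N : ℕ)
    (z : (D.tri hD N).MA × (D.tri hD N).MB) : K ⊗[k] X.A :=
  valIn D.JA z.1

/-- Inclusion of sections of a smaller divisor triple. -/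
def inclPair (P : Div X K) (hP : P.Invertible) :
    ((P * D).tri (hP.mul hD) N).MA × ((P * D).tri (hP.mul hD) N).MB →ₗ[K]
      (D.tri hD N).MA × (D.tri hD N).MB :=
  (inclA D P hD hP N).prodMap (inclB D P hD hP N)

theorem inclPair_injective (P : Div X K) (hP : P.Invertible) :
    Function.Injective (inclPair hD N P hP) := fun _ _ h =>
  Prod.ext (Subtype.ext (congrArg (fun p => valIn D.JA p.1) h))
    (Subtype.ext (congrArg (fun p => valIn D.JB p.2) h))

theorem valA_inclPair (P : Div X K) (hP : P.Invertible) (w) :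
    valA D hD N (inclPair hD N P hP w) = valA (P * D) (hP.mul hD) N w := rfl

theorem valIn_diff {E : Div X K} (hE : E.Invertible) (z : (E.tri hE N).MA × (E.tri hE N).MB) :
    valIn (E.JA.map (X.resA K)) ((E.tri hE N).diff z) =
      X.resA K (valIn E.JA z.1) - xPow X K N * X.resB K (valIn E.JB z.2) := by
  obtain ⟨a, b⟩ := z
  refine (congrArg (valIn _) (TwoChart.Tri.diff_apply (E.tri hE N) a b)).trans ?_
  show valIn _ ((E.tri hE N).fA a) - valIn _ ((E.tri hE N).fB b) = _
  exact congrArg₂ _ rfl (Div.tri_coe_fB E hE N b)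

theorem mem_H0_iff {E : Div X K} (hE : E.Invertible) (z : (E.tri hE N).MA × (E.tri hE N).MB) :
    z ∈ (E.tri hE N).H0 ↔
      X.resA K (valIn E.JA z.1) = xPow X K N * X.resB K (valIn E.JB z.2) := by
  rw [LinearMap.mem_ker, ← sub_eq_zero (a := X.resA K (valIn E.JA z.1)), ← valIn_diff N hE z]
  exact ⟨fun h => congrArg _ h, fun h => Subtype.ext h⟩

/-- Inclusion on global sections. -/
def inclH0 (P : Div X K) (hP : P.Invertible) :
    ((P * D).tri (hP.mul hD) N).H0 →ₗ[K] (D.tri hD N).H0 :=
  LinearMap.codRestrict _ (inclPair hD N P hP ∘ₗ Submodule.subtype _) fun w => by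
    rw [mem_H0_iff]
    exact (mem_H0_iff N (hP.mul hD) w.1).mp w.2

/-- A section whose value vanishes at a rational point comes from one of the smaller triple. -/
theorem exists_inclPair_eq (σ : X.A →ₐ[k] k) (z : (D.tri hD N).MA × (D.tri hD N).MB)
    (hz : z ∈ (D.tri hD N).H0)
    (ha : valA D hD N z ∈ secIdeal ((Algebra.ofId k K).comp σ) * D.JA) :
    ∃ w ∈ ((ptDiv (kPt K σ) * D).tri ((ptDiv_invertible (kPt K σ)).mul hD) N).H0,
      inclPair hD N _ (ptDiv_invertible (kPt K σ)) w = z := by
  set P := ptDiv (kPt K σ) with hP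
  obtain ⟨a, b⟩ := z
  rw [mem_H0_iff] at hz
  have hb : valIn D.JB b ∈ P.JB * D.JB := by
    obtain ⟨G, hG⟩ := hD.2.exists_eq_mul
      ((Ideal.span_singleton_le_iff_mem _).2 (valIn_mem D.JB b))
    have hW : (Ideal.span {valIn D.JB b}).map (X.resB K) ≤
        D.JB.map (X.resB K) * P.JA.map (X.resA K) := by
      rw [Ideal.map_span, Set.image_singleton, Ideal.span_singleton_le_iff_mem, ← D.compat,
        mul_comm, ← Ideal.map_mul]
      have hxu : IsUnit (xPow X K N) := by
        have := (locA X K).isUnit.pow N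
        rwa [TwoChart.resA_tmul] at this
      obtain ⟨v, hv⟩ := hxu
      have hmem : X.resA K (valA D hD N (a, b)) ∈ (P.JA * D.JA).map (X.resA K) :=
        Ideal.mem_map_of_mem _ ha
      have : X.resB K (valIn D.JB b) = (↑v⁻¹ : K ⊗[k] X.W) * X.resA K (valA D hD N (a, b)) := by
        rw [show X.resA K (valA D hD N (a, b)) = xPow X K N * X.resB K (valIn D.JB b) from hz,
          ← hv, Units.inv_mul_cancel_left]
      rw [this]
      exact Ideal.mul_mem_left _ _ hmem
    have hGP : G ≤ P.JB := by
      have hinv := hD.2.map (locB X K).injective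
      rw [hG, Ideal.map_mul] at hW
      have h2 : D.JB.map (X.resB K) * (G.map (X.resB K) ⊔ P.JA.map (X.resA K)) =
          D.JB.map (X.resB K) * P.JA.map (X.resA K) := by
        rw [Ideal.mul_sup]; exact sup_eq_right.mpr hW
      have h3 : G.map (X.resB K) ≤ P.JA.map (X.resA K) :=
        sup_eq_right.mp (hinv.mul_left_cancel h2)
      exact Ideal.map_le_iff_le_comap.mp h3
    have : valIn D.JB b ∈ D.JB * G := hG ▸ Ideal.mem_span_singleton_self _
    rw [mul_comm]
    exact Ideal.mul_mono_right hGP this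
  exact ⟨(⟨valIn D.JA a, ha⟩, ⟨valIn D.JB b, hb⟩), (mem_H0_iff N _ _).mpr hz, rfl⟩

/-- Vanishing at a list of distinct points with no sections left forces a section to vanish. -/
theorem eq_zero_of_forall_mem (qs : List (X.A →ₐ[k] k)) (hqs : qs.Nodup) :
    ∀ {D : Div X K} (hD : D.Invertible) (z : (D.tri hD N).MA × (D.tri hD N).MB),
      z ∈ (D.tri hD N).H0 →
      (∀ σ ∈ qs, valA D hD N z ∈ secIdeal ((Algebra.ofId k K).comp σ) * D.JA) →
      ((addPts K qs D).tri (addPts_invertible qs hD) N).H0 = ⊥ → z = 0 := by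
  induction qs with
  | nil =>
    intro D hD z hz _ h
    have : ∀ (E : Div X K) (hE : E.Invertible), E = D → (E.tri hE N).H0 = ⊥ →
        (D.tri hD N).H0 = ⊥ := by
      rintro E hE rfl h; exact h
    have := this _ _ (by simp [addPts, listDiv]) h
    rw [this] at hz
    exact (Submodule.mem_bot K).mp hz
  | cons σ qs ih =>
    intro D hD z hz hmem h
    obtain ⟨hσ, hnd⟩ := List.nodup_cons.mp hqs
    obtain ⟨w, hw, rfl⟩ := exists_inclPair_eq hD N σ z hz (hmem σ List.mem_cons_self)
    have hw0 : w = 0 := by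
      refine ih hnd ((ptDiv_invertible (kPt K σ)).mul hD) w hw (fun τ hτ => ?_) ?_
      · rw [Div.mul_JA, ← mul_assoc]
        exact mem_mul_of_mem_mul_of_sup_eq_top
          (sup_secIdeal_kPt (σ := τ) (τ := σ) fun e => hσ (e ▸ hτ))
          (hmem τ (List.mem_cons_of_mem _ hτ)) (hmem σ List.mem_cons_self)
      · have : ∀ (E : Div X K) (hE : E.Invertible), E = addPts K (σ :: qs) D →
            (E.tri hE N).H0 = ⊥ := by
          rintro E hE rfl; exact h
        exact this _ _ (by rw [addPts_cons, addPts, addPts, mul_left_comm])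
    rw [hw0, map_zero]

variable (X) in
omit [IsAlgClosed k] in
theorem span_x_sub_ne_top (c : k) :
    Ideal.span {X.x - algebraMap k X.A c} ≠ ⊤ := by
  intro htop
  rw [Ideal.span_singleton_eq_top] at htop
  obtain ⟨w, hw⟩ := htop.exists_left_inv
  obtain ⟨n, e, he⟩ := TwoChart.exists_tensor_equiv_polynomial k X.x X.finite_x X.injective_x
  have hz : ∀ z i, (e z i).eval c = 0 := fun z i => by
    have hw' : ((1 : k) ⊗ₜ[k] X.x - (1 : k) ⊗ₜ[k] algebraMap k X.A c) * ((1 : k) ⊗ₜ[k] w) = 1 := by
      rw [← TensorProduct.tmul_sub, Algebra.TensorProduct.tmul_mul_tmul, one_mul, mul_comm, hw,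
        ← Algebra.TensorProduct.one_def]
    have hc : ∀ v : k ⊗[k] X.A, ((1 : k) ⊗ₜ[k] algebraMap k X.A c) * v = c • v := fun v => by
      rw [Algebra.algebraMap_eq_smul_one, TensorProduct.tmul_smul, smul_mul_assoc,
        ← Algebra.TensorProduct.one_def, one_mul]
    have e1 : z = ((1 : k) ⊗ₜ[k] X.x) * (((1 : k) ⊗ₜ[k] w) * z) -
        c • (((1 : k) ⊗ₜ[k] w) * z) := by
      rw [← hc, ← sub_mul, ← mul_assoc, hw', one_mul]
    rw [e1, map_sub, map_smul, Pi.sub_apply, Pi.smul_apply, he, Polynomial.eval_sub,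
      Polynomial.eval_mul, Polynomial.eval_X, Polynomial.eval_smul, smul_eq_mul, sub_self]
  have hn : 0 < n := by
    by_contra hn
    obtain rfl : n = 0 := by omega
    have : (1 : k ⊗[k] X.A) = 0 := e.injective (Subsingleton.elim _ _)
    have h' := congrArg (Algebra.TensorProduct.lid k X.A) this
    rw [map_one, map_zero] at h'
    exact one_ne_zero h'
  have h := hz (e.symm fun _ => 1) ⟨0, hn⟩
  rw [LinearEquiv.apply_symm_apply, Polynomial.eval_one] at h
  exact one_ne_zero h

instance infinite_points : Infinite (X.A →ₐ[k] k) := by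
  have := finiteType_of_finite_aeval X.x X.finite_x
  have hp : ∀ c : k, ∃ σ : X.A →ₐ[k] k, σ X.x = c := fun c => by
    obtain ⟨m, hm, hle⟩ := Ideal.exists_le_maximal _ (span_x_sub_ne_top X c)
    obtain ⟨q, hq⟩ := exists_point_of_isMaximal (k := k) m
    refine ⟨q, ?_⟩
    have : X.x - algebraMap k X.A c ∈ RingHom.ker q.toRingHom :=
      hq ▸ hle (Ideal.mem_span_singleton_self _)
    rw [RingHom.mem_ker] at this
    change q (X.x - algebraMap k X.A c) = 0 at this
    rw [map_sub, sub_eq_zero, AlgHom.commutes] at this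
    exact this
  choose σ hσ using hp
  exact Infinite.of_injective σ fun c c' h => by rw [← hσ c, ← hσ c', h]

omit [IsAlgClosed k] in
/-- A nonzero function vanishes at only finitely many rational points. -/
theorem finite_vanishing {a : K ⊗[k] X.A} (ha : a ≠ 0) :
    {σ : X.A →ₐ[k] k | secEval ((Algebra.ofId k K).comp σ) a = 0}.Finite := by
  classical
  let b := Module.Basis.ofVectorSpace k K
  let e := TensorProduct.equivFinsuppOfBasisLeft (N := X.A) b
  obtain ⟨i, hi⟩ : ∃ i, e a i ≠ 0 := by
    by_contra hc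
    push Not at hc
    exact ha (e.map_eq_zero_iff.mp (Finsupp.ext hc))
  have hker : ∀ σ : X.A →ₐ[k] k, secEval ((Algebra.ofId k K).comp σ) a = 0 → σ (e a i) = 0 := by
    intro σ h
    have key : ∀ z : K ⊗[k] X.A,
        b.repr (secEval ((Algebra.ofId k K).comp σ) z) i = σ (e z i) := by
      intro z
      induction z using TensorProduct.induction_on with
      | zero => simp
      | tmul r s =>
        rw [secEval_tmul, AlgHom.comp_apply, Algebra.ofId_apply, mul_comm, ← Algebra.smul_def,
          map_smul, Finsupp.smul_apply, smul_eq_mul,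
          TensorProduct.equivFinsuppOfBasisLeft_apply_tmul]
        simp [mul_comm]
      | add z w hz hw => simp [hz, hw]
    rw [← key, h, map_zero, Finsupp.zero_apply]
  have hf : {v : IsDedekindDomain.HeightOneSpectrum X.A |
      v.asIdeal ∣ Ideal.span {e a i}}.Finite :=
    Ideal.finite_factors (by simpa using hi)
  have hfin := hf.image (fun v => v.asIdeal)
  refine Set.Finite.of_finite_image (f := fun σ : X.A →ₐ[k] k => RingHom.ker σ.toRingHom)
    (hfin.subset ?_) ?_
  · rintro _ ⟨σ, hσ, rfl⟩
    have hne : RingHom.ker σ.toRingHom ≠ ⊥ := fun h0 => hi (by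
      have hmem : e a i ∈ RingHom.ker σ.toRingHom := hker σ hσ
      rwa [h0, Ideal.mem_bot] at hmem)
    refine ⟨⟨RingHom.ker σ.toRingHom, RingHom.ker_isPrime σ.toRingHom, hne⟩, ?_, rfl⟩
    show RingHom.ker σ.toRingHom ∣ Ideal.span {e a i}
    rw [Ideal.dvd_iff_le, Ideal.span_singleton_le_iff_mem]
    exact hker σ hσ
  · intro σ _ τ _ h
    ext s
    have h' : s - algebraMap k X.A (σ s) ∈ RingHom.ker σ.toRingHom := by
      rw [RingHom.mem_ker]
      show σ (s - algebraMap k X.A (σ s)) = 0
      simp
    change RingHom.ker σ.toRingHom = RingHom.ker τ.toRingHom at h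
    rw [h, RingHom.mem_ker] at h'
    change τ (s - algebraMap k X.A (σ s)) = 0 at h'
    rw [map_sub, AlgHom.commutes, sub_eq_zero] at h'
    exact h'.symm

theorem finrank_H0_eq_of_surjective {L : X.Tri K} (h : Function.Surjective L.diff) :
    (Module.finrank K L.H0 : ℤ) = euler L := by
  rw [euler, LinearMap.index_of_surjective h]

theorem euler_le_finrank_H0 (L : X.Tri K) : euler L ≤ Module.finrank K L.H0 := by
  rw [euler, LinearMap.index_eq_finrank_sub]
  show _ ≤ (Module.finrank K (LinearMap.ker L.diff) : ℤ)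
  omega

/-- General rational points kill all sections of finitely many divisor triples at once. -/
theorem exists_general_points {ι : Type} [Finite ι] (r : ℕ) :
    ∀ (D : ι → Div X K) (hD : ∀ j, (D j).Invertible) (N : ι → ℕ),
      (∀ j, euler ((D j).tri (hD j) (N j)) = r) →
      (∀ j, Module.finrank K ((D j).tri (hD j) (N j)).H0 = r) →
      ∃ P : List (X.A →ₐ[k] k), P.length = r ∧
        ∀ j, ((addPts K P (D j)).tri (addPts_invertible P (hD j)) (N j)).H0 = ⊥ := by
  induction r with
  | zero =>
    intro D hD N _ hf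
    refine ⟨[], rfl, fun j => ?_⟩
    have : ∀ (E : Div X K) (hE : E.Invertible), E = D j → (E.tri hE (N j)).H0 = ⊥ := by
      rintro E hE rfl
      have := ((D j).tri hE (N j)).finiteDimensional_H0
      exact Submodule.finrank_eq_zero.mp (hf j)
    exact this _ _ (by simp [addPts, listDiv])
  | succ r ih =>
    intro D hD N he hf
    have hz : ∀ j, ∃ z : ((D j).tri (hD j) (N j)).H0, valA (D j) (hD j) (N j) z.1 ≠ 0 := fun j => by
      have hne : ((D j).tri (hD j) (N j)).H0 ≠ ⊥ := fun h0 => by
        have h1 := hf j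
        rw [h0, finrank_bot] at h1
        omega
      obtain ⟨z, hz, hz0⟩ := Submodule.exists_mem_ne_zero_of_ne_bot hne
      refine ⟨⟨z, hz⟩, fun hv => hz0 ?_⟩
      have h' := (mem_H0_iff (N j) (hD j) z).mp hz
      have hv' : valIn (D j).JA z.1 = 0 := hv
      rw [hv', map_zero, eq_comm] at h'
      have hxu : IsUnit (xPow X K (N j)) := by
        have := (locA X K).isUnit.pow (N j)
        rwa [TwoChart.resA_tmul] at this
      rw [hxu.mul_right_eq_zero, ← map_zero (X.resB K)] at h'
      exact Prod.ext (Subtype.ext hv) (Subtype.ext ((locB X K).injective h'))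
    choose z hz using hz
    obtain ⟨σ, hσ⟩ :=
      (Set.finite_iUnion fun j => finite_vanishing (hz j)).exists_notMem
    simp only [Set.mem_iUnion, Set.mem_ofPred_eq, not_exists] at hσ
    let D' : ι → Div X K := fun j => ptDiv (kPt K σ) * D j
    let hD' : ∀ j, (D' j).Invertible := fun j => (ptDiv_invertible _).mul (hD j)
    have he' : ∀ j, euler ((D' j).tri (hD' j) (N j)) = r := fun j => by
      rw [euler_pt (hD j) (N j), he j]; push_cast; ring
    have hf' : ∀ j, Module.finrank K ((D' j).tri (hD' j) (N j)).H0 = r := fun j => by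
      have hle := euler_le_finrank_H0 ((D' j).tri (hD' j) (N j))
      rw [he' j] at hle
      have := ((D j).tri (hD j) (N j)).finiteDimensional_H0
      have := ((D' j).tri (hD' j) (N j)).finiteDimensional_H0
      set f := inclH0 (hD j) (N j) (ptDiv (kPt K σ)) (ptDiv_invertible _)
      have hfi : Function.Injective f := fun x y h =>
        Subtype.ext (inclPair_injective (hD j) (N j) _ _ (congrArg Subtype.val h))
      have hrange : LinearMap.range f ≠ ⊤ := fun htop => hσ j (by
        obtain ⟨w, hw⟩ := (LinearMap.range_eq_top.mp htop) (z j)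
        rw [← hw, ← mem_secIdeal_iff]
        exact Ideal.mul_le_left (valIn_mem ((ptDiv (kPt K σ)).JA * (D j).JA) w.1.1))
      have h1 := Submodule.finrank_lt hrange
      rw [LinearMap.finrank_range_of_inj hfi, hf j] at h1
      have h2 : Module.finrank K ((ptDiv (kPt K σ) * D j).tri
          ((ptDiv_invertible (kPt K σ)).mul (hD j)) (N j)).H0 < r + 1 := h1
      have h3 : (r : ℤ) ≤ Module.finrank K ((ptDiv (kPt K σ) * D j).tri
          ((ptDiv_invertible (kPt K σ)).mul (hD j)) (N j)).H0 := hle
      show Module.finrank K ((ptDiv (kPt K σ) * D j).tri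
          ((ptDiv_invertible (kPt K σ)).mul (hD j)) (N j)).H0 = r
      omega
    obtain ⟨P, hP, hb⟩ := ih D' hD' N he' hf'
    refine ⟨σ :: P, by rw [List.length_cons, hP], fun j => ?_⟩
    have : ∀ (E : Div X K) (hE : E.Invertible), E = addPts K P (D' j) →
        (E.tri hE (N j)).H0 = ⊥ := by
      rintro E hE rfl; exact hb j
    exact this _ _ (by rw [addPts_cons, addPts, addPts, mul_left_comm])

end Points

end Fermat.Agent.Picard
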