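/-
Every pair of degree zero triples lies in a common chart.
-/
import Fermat.Agent.Picard.Algebra.Loci
import Fermat.Agent.Picard.Algebra.Sections
import Fermat.Agent.Picard.Points.Covering

set_option autoImplicit false

universe u

open scoped TensorProduct

noncomputable section

namespace Fermat.Agent.Picard.Points

variable {k : Type u} [Field k] [IsAlgClosed k] {X : TwoChart k}

/-- Transport of a divisor triple along an equality. -/
def triCongr {R : Type u} [CommRing R] [Algebra k R] [IsDomain R] {D E : Div X R} (h : D = E)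
    (hD : D.Invertible) (hE : E.Invertible) (N : ℕ) : (D.tri hD N).Equiv (E.tri hE N) := by
  subst h
  exact TwoChart.Tri.Equiv.refl _

variable (X) in
/-- The zero divisor of `x` on the first chart. -/
def zeroDiv : Div X k where
  JA := Ideal.span {(1 : k) ⊗ₜ[k] X.x}
  JB := ⊤
  compat := by
    rw [Ideal.map_top, Ideal.map_span, Set.image_singleton, Ideal.span_singleton_eq_top]
    exact X.isUnit_resA_x k

omit [IsAlgClosed k] in
theorem one_tmul_x_ne_zero : (1 : k) ⊗ₜ[k] X.x ≠ 0 := fun h => X.x_ne_zero (by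
  simpa using congrArg (Algebra.TensorProduct.lid k X.A) h)

variable (X) in
theorem rankX_eq_degInf : TwoChart.rankX X = degInf X := by
  have hZ : (zeroDiv X).Invertible := ⟨InvI.span_singleton one_tmul_x_ne_zero, InvI.top⟩
  let I : Ideal X.A := Ideal.span {X.x}
  let L1 := (1 : Div X k).tri Div.Invertible.one 1
  let ψ₀ : k ⊗[k] X.A →ₗ[k] X.A ⧸ I :=
    (Ideal.Quotient.mkₐ k I).toLinearMap ∘ₗ (Algebra.TensorProduct.lid k X.A).toLinearMap
  have hψ₀ : Function.Surjective ψ₀ := fun y => by
    obtain ⟨a, rfl⟩ := Ideal.Quotient.mk_surjective y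
    exact ⟨1 ⊗ₜ[k] a, by simp [ψ₀]⟩
  have hker₀ : ∀ z, ψ₀ z = 0 ↔ z ∈ (zeroDiv X).JA := fun z => by
    show Ideal.Quotient.mk I (Algebra.TensorProduct.lid k X.A z) = 0 ↔ _
    rw [Ideal.Quotient.eq_zero_iff_mem, Ideal.mem_span_singleton]
    show _ ↔ z ∈ Ideal.span {(1 : k) ⊗ₜ[k] X.x}
    rw [Ideal.mem_span_singleton]
    constructor
    · rintro ⟨c, hc⟩
      refine ⟨(1 : k) ⊗ₜ[k] c, (Algebra.TensorProduct.lid k X.A).injective ?_⟩
      simp [hc]
    · rintro ⟨c, rfl⟩
      exact ⟨Algebra.TensorProduct.lid k X.A c, by simp⟩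
  have hfin : FiniteDimensional k (X.A ⧸ I) := by
    obtain ⟨hf, -⟩ := (X.trivialTri k).coordA.finite_projective_quotient 1
    let ψ₁ : (X.trivialTri k).MA →ₗ[k] X.A ⧸ I :=
      { toFun := ψ₀
        map_add' := ψ₀.map_add
        map_smul' := fun r z => by
          show ψ₀ (@id (k ⊗[k] X.A) (algebraMap k (k ⊗[k] X.A) r • @id (k ⊗[k] X.A) z)) = r • ψ₀ z
          rw [id_eq, algebraMap_smul, map_smul]; rfl }
    have hle : LinearMap.range ((X.trivialTri k).mulX ^ 1) ≤ LinearMap.ker ψ₁ := by
      rintro _ ⟨w, rfl⟩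
      rw [LinearMap.mem_ker, pow_one]
      exact (hker₀ _).mpr (Ideal.mul_mem_right _ _ (Ideal.mem_span_singleton_self _))
    refine Module.Finite.of_surjective (Submodule.liftQ _ ψ₁ hle) ?_
    intro y
    obtain ⟨z, hz⟩ := hψ₀ y
    exact ⟨Submodule.Quotient.mk z, hz⟩
  let b : Module.Basis (Fin (TwoChart.rankX X)) k (X.A ⧸ I) := Module.finBasis k (X.A ⧸ I)
  let val : L1.MA →ₗ[k] k ⊗[k] X.A :=
    { toFun := valIn (1 : Div X k).JA
      map_add' := fun _ _ => rfl
      map_smul' := fun r z => (Algebra.smul_def r (valIn (1 : Div X k).JA z)).symm }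
  have hA : ∃ ψ : L1.MA →ₗ[k] (Fin (TwoChart.rankX X) → k), Function.Surjective ψ ∧
      LinearMap.range (inclA (1 : Div X k) (zeroDiv X) Div.Invertible.one hZ 1) =
        LinearMap.ker ψ := by
    refine ⟨b.equivFun.toLinearMap ∘ₗ ψ₀ ∘ₗ val, fun v => ?_, ?_⟩
    · obtain ⟨z, hz⟩ := hψ₀ (b.equivFun.symm v)
      refine ⟨⟨z, trivial⟩, ?_⟩
      show b.equivFun (ψ₀ z) = v
      rw [hz, LinearEquiv.apply_symm_apply]
    · ext m
      rw [LinearMap.mem_ker]
      show _ ↔ b.equivFun (ψ₀ (valIn (1 : Div X k).JA m)) = 0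
      rw [LinearEquiv.map_eq_zero_iff, hker₀]
      constructor
      · rintro ⟨j, rfl⟩
        exact Ideal.mul_le_left (valIn_mem ((zeroDiv X).JA * (1 : Div X k).JA) j)
      · intro h
        have h' : valIn (1 : Div X k).JA m ∈ (zeroDiv X).JA * (1 : Div X k).JA := by
          exact (le_of_eq (Ideal.mul_top _).symm) h
        exact ⟨⟨_, h'⟩, rfl⟩
  have h1 := euler_mul_of_index (1 : Div X k) (zeroDiv X) Div.Invertible.one hZ 1 hA
    (noFibreB (1 : Div X k) _ Div.Invertible.one hZ 1 rfl)
    (noFibreW (1 : Div X k) _ Div.Invertible.one hZ 1 (by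
      rw [(zeroDiv X).compat]; exact Ideal.map_top _))
  have e : ((1 : Div X k).tri Div.Invertible.one 0).Equiv
      ((zeroDiv X * 1).tri (hZ.mul Div.Invertible.one) 1) :=
    triEquiv _ _ _ _ 0 1 ((1 : k) ⊗ₜ[k] X.x) 1 1 1 one_tmul_x_ne_zero one_ne_zero one_ne_zero
      one_ne_zero
      (by rw [mul_one, Div.one_JA, Ideal.mul_top, Ideal.span_singleton_one, Ideal.top_mul]; rfl)
      (by rw [mul_one, Div.one_JB, Ideal.span_singleton_one]; rfl)
      (by simp [xPow, TwoChart.resA_tmul])
  have h2 := euler_congr e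
  have h3 := eulerO_succ (X := X) (K := k) 0
  simp only [eulerO, Nat.zero_add] at h3
  rw [h1] at h2
  push_cast at h2
  omega

omit [IsAlgClosed k] in
theorem mem_ptA_fibre (σ : X.A →ₐ[k] k) :
    (1 : k) ⊗ₜ[k] X.x - σ X.x ⊗ₜ[k] (1 : X.A) ∈ (ptA σ).JA ∧
      (1 : k ⊗[k] X.B) - σ X.x ⊗ₜ[k] X.y ∈ (ptA σ).JB :=
  ⟨(mem_secIdeal_iff σ _).mpr (by simp), (sideA X).wit_mem_other σ⟩

/-- Every translation by rational points has an inverse translation. -/
theorem exists_inverse (m : ℕ) (P : List (X.A →ₐ[k] k)) :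
    ∃ P' : List (X.A →ₐ[k] k),
      Nonempty (((X.shiftTri m P).tensor (X.shiftTri P.length P')).Equiv (X.trivialTri k)) := by
  let fA : k → k ⊗[k] X.A := fun c => (1 : k) ⊗ₜ[k] X.x - c ⊗ₜ[k] (1 : X.A)
  let fB : k → k ⊗[k] X.B := fun c => 1 - c ⊗ₜ[k] X.y
  let cs : List k := P.map (fun σ => σ X.x) ++ List.replicate m 1
  let gA : k ⊗[k] X.A := (cs.map fA).prod
  let gB : k ⊗[k] X.B := (cs.map fB).prod
  have hrel1 : ∀ c, X.resA k (fA c) = xPow X k 1 * X.resB k (fB c) := fun c => by
    simp [fA, fB, xPow, mul_sub, X.x_mul_y]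
  have hrel : ∀ l : List k, X.resA k (l.map fA).prod =
      xPow X k l.length * X.resB k (l.map fB).prod := fun l => by
    induction l with
    | nil => simp [xPow]
    | cons c l ih =>
      simp only [List.map_cons, List.prod_cons, map_mul, hrel1, ih, List.length_cons, xPow,
        pow_succ]
      ring
  have hmemP : ∀ l : List (X.A →ₐ[k] k),
      ((l.map fun σ => σ X.x).map fA).prod ∈
          (listDiv (l.map Sum.inl) : Div X k).JA ∧
        ((l.map fun σ => σ X.x).map fB).prod ∈ (listDiv (l.map Sum.inl) : Div X k).JB := fun l => by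
    induction l with
    | nil => exact ⟨trivial, trivial⟩
    | cons σ l ih =>
      simp only [List.map_cons, List.prod_cons, listDiv]
      exact ⟨Ideal.mul_mem_mul (mem_ptA_fibre σ).1 ih.1, Ideal.mul_mem_mul (mem_ptA_fibre σ).2 ih.2⟩
  have hgA : gA ∈ (listDiv (P.map Sum.inl) : Div X k).JA := by
    simp only [gA, cs, List.map_append, List.prod_append]
    exact Ideal.mul_mem_right _ _ (hmemP P).1
  have hgB : gB ∈ (listDiv (P.map Sum.inl) : Div X k).JB := by
    simp only [gB, cs, List.map_append, List.prod_append]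
    exact Ideal.mul_mem_right _ _ (hmemP P).2
  have hfA0 : ∀ c, fA c ≠ 0 := fun c => one_tmul_sub_tmul_one_ne_zero (x_nonconst X) c
  have hgA0 : gA ≠ 0 := List.prod_ne_zero (by
    simp only [List.mem_map, not_exists, not_and]
    exact fun c _ => hfA0 c)
  have hrelg : X.resA k gA = xPow X k cs.length * X.resB k gB := hrel cs
  have hxu : IsUnit (xPow X k cs.length) := by
    have := (locA X k).isUnit.pow cs.length
    rwa [TwoChart.resA_tmul] at this
  have hgB0 : gB ≠ 0 := fun h0 =>
    hgA0 ((locA X k).injective (by rw [hrelg, h0]; simp))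
  let G : Div X k := ⟨Ideal.span {gA}, Ideal.span {gB}, by
    rw [Ideal.map_span, Ideal.map_span, Set.image_singleton, Set.image_singleton, hrelg,
      Ideal.span_singleton_mul_left_unit hxu]⟩
  have hG : G.Invertible := ⟨InvI.span_singleton hgA0, InvI.span_singleton hgB0⟩
  obtain ⟨G', hG'⟩ := Div.exists_eq_mul (D := G) (listDiv_invertible (P.map Sum.inl))
    ((Ideal.span_singleton_le_iff_mem _).2 hgA) ((Ideal.span_singleton_le_iff_mem _).2 hgB)
  obtain ⟨r, rfl⟩ := exists_listDiv G' (Div.Invertible.of_mul_right (hG' ▸ hG))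
  have hA : ∀ Q ∈ r, ∃ σ : X.A →ₐ[k] k, ptDiv Q = ptA σ := by
    intro Q hQ
    rcases pt_cases Q with ⟨ω, h⟩ | ⟨σ, -, h⟩ | ⟨σ, h0, h⟩
    · exact ⟨_, h⟩
    · exact ⟨σ, h⟩
    · exfalso
      obtain ⟨r₁, r₂, rfl⟩ := List.append_of_mem hQ
      have hd : listDiv (r₁ ++ Q :: r₂) = ptDiv Q * (listDiv r₁ * listDiv r₂) := by
        simp [listDiv, mul_left_comm]
      have h1 : gB ∈ (ptDiv Q).JB := by
        have hmem : gB ∈ G.JB := Ideal.mem_span_singleton_self gB
        rw [hG', hd, Div.mul_JB, Div.mul_JB, mul_left_comm] at hmem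
        exact Ideal.mul_le_inf.trans inf_le_left hmem
      rw [h] at h1
      have h2 := (mem_secIdeal_iff σ gB).1 h1
      have h3 : ∀ l : List k, secEval σ (l.map fB).prod = 1 := fun l => by
        induction l with
        | nil => simp
        | cons c l ih => simp [fB, h0, ih]
      rw [h3] at h2
      exact one_ne_zero h2
  choose τ hτ using hA
  let P' := r.attach.map fun Q => τ Q.1 Q.2
  have hP' : listDiv (P'.map Sum.inl) = listDiv r := by
    rw [listDiv, listDiv, List.map_map, List.map_map]
    congr 1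
    conv_rhs => rw [← List.attach_map_subtype_val r, List.map_map]
    exact List.map_congr_left fun Q _ => (hτ Q.1 Q.2).symm
  have hlen : cs.length = m + P.length := by simp [cs, add_comm]
  refine ⟨P', ⟨(triTensorEquiv _ _ (listDiv_invertible _) (listDiv_invertible _) _ _).trans
    ((triCongr (E := G) (by rw [hP', ← hG']) _ hG _).trans ?_)⟩⟩
  refine (TwoChart.Tri.Equiv.trans ?_ oneTriEquiv)
  exact (triEquiv (1 : Div X k) G Div.Invertible.one hG 0 (m + P.length) gA 1 gB 1 hgA0
    one_ne_zero hgB0 one_ne_zero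
    (by rw [Div.one_JA, Ideal.mul_top, Ideal.span_singleton_one, Ideal.top_mul])
    (by rw [Div.one_JB, Ideal.mul_top, Ideal.span_singleton_one, Ideal.top_mul])
    (by rw [← hlen, hrelg, map_one, map_one, mul_one, one_mul, xPow, xPow, pow_zero, mul_one,
      mul_comm])).symm

section Field

variable {K : Type u} [Field K] [Algebra k K]

/-- Vanishing criterion for one frame. -/
theorem bijective_evMap_addPts (D : Div X K) (hD : D.Invertible) (N : ℕ)
    (P : List (X.A →ₐ[k] k)) {n : ℕ} (q : Fin n → (X.A →ₐ[k] k)) (hq : Function.Injective q)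
    (he : euler ((addPts K P D).tri (addPts_invertible P hD) N) = n)
    (hv : ((addPts K P (addPts K (List.ofFn q) D)).tri
      (addPts_invertible P (addPts_invertible (List.ofFn q) hD)) N).H0 = ⊥) :
    Function.Bijective (((addPts K P D).tri (addPts_invertible P hD) N).evMap q) := by
  set M := (addPts K P D).tri (addPts_invertible P hD) N
  refine M.bijective_evMap_of_ker q (fun z hz => ?_) he
  have hd : M.diff z = 0 := congrArg Prod.fst hz
  refine eq_zero_of_forall_mem N (List.ofFn q) (List.nodup_ofFn.mpr hq)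
    (addPts_invertible P hD) z (LinearMap.mem_ker.mpr hd) (fun σ hσ => ?_) ?_
  · obtain ⟨l, rfl⟩ := List.mem_ofFn.mp hσ
    have hl : M.toFibre (q l) z.1 = 0 := congrFun (congrArg Prod.snd hz) l
    have hmem : z.1 ∈ (RingHom.ker (X.evalAt K (q l)) • ⊤ : Submodule (K ⊗[k] X.A) M.MA) :=
      (Submodule.Quotient.mk_eq_zero _).mp hl
    refine Submodule.smul_induction_on hmem (p := fun w : M.MA =>
      valIn (addPts K P D).JA w ∈
        secIdeal ((Algebra.ofId k K).comp (q l)) * (addPts K P D).JA)
      (fun s hs w _ => ?_) fun a b ha hb => add_mem ha hb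
    show s * valIn (addPts K P D).JA w ∈ _
    refine Ideal.mul_mem_mul ?_ (valIn_mem _ w)
    rw [secIdeal_kPt]
    exact hs
  · have : ∀ (E : Div X K) (hE : E.Invertible), E = addPts K P (addPts K (List.ofFn q) D) →
        (E.tri hE N).H0 = ⊥ := by
      rintro E hE rfl; exact hv
    exact this _ _ (mul_left_comm _ _ _)

omit [IsAlgClosed k] in
theorem bijective_diff_of_H0 {L : X.Tri K} (h : L.H0 = ⊥) (he : euler L = 0) :
    Function.Bijective L.diff := by
  refine ⟨LinearMap.ker_eq_bot.mp h, LinearMap.range_eq_top.mp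
    (Submodule.Quotient.subsingleton_iff.mp ?_)⟩
  have := L.finite_coker
  rw [euler, LinearMap.index_of_injective (LinearMap.ker_eq_bot.mp h)] at he
  exact (Module.finrank_zero_iff (R := K)).mp (by omega)

variable [IsAlgClosed K]

/-- Two degree zero triples over an algebraically closed field lie in a common chart. -/
theorem exists_common_index {L L' : X.Tri K} (hL : L.Deg0) (hL' : L'.Deg0) :
    ∃ i : X.ChartIndex, i.Good L ∧ i.Good L' := by
  classical
  obtain ⟨l₁, hl₁, ⟨e₁⟩⟩ := exists_points L (euler_eq_of_deg0 hL)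
  obtain ⟨l₂, hl₂, ⟨e₂⟩⟩ := exists_points L' (euler_eq_of_deg0 hL')
  set n := TwoChart.rankX X with hn
  obtain ⟨q, hq, hqε⟩ : ∃ q : Fin n → (X.A →ₐ[k] k), Function.Injective q ∧ ∀ l, q l ≠ X.ε := by
    let f := (Set.finite_singleton X.ε).infinite_compl.natEmbedding
    exact ⟨fun l => (f l).1, fun a b h => Fin.ext (f.injective (Subtype.ext h)),
      fun l => (f l).2⟩
  have hupd : ∀ i, Function.Injective (Function.update q i X.ε) := fun i a b h => by
    by_cases ha : a = i <;> by_cases hb : b = i
    · rw [ha, hb]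
    · subst ha
      rw [Function.update_self, Function.update_of_ne hb] at h
      exact absurd h.symm (hqε b)
    · subst hb
      rw [Function.update_self, Function.update_of_ne ha] at h
      exact absurd h (hqε a)
    · rw [Function.update_of_ne ha, Function.update_of_ne hb] at h
      exact hq h
  let ι := Bool × Option (Option (Fin n))
  let l : Bool → List (Pt X K) := fun b => bif b then l₁ else l₂
  have hl : ∀ b, (l b).length = numPts X := fun b => by cases b <;> assumption
  let qj : Option (Fin n) → List (X.A →ₐ[k] k) := fun o =>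
    match o with
    | none => List.ofFn q
    | some i => List.ofFn (Function.update q i X.ε)
  let Dj : ι → Div X K := fun j =>
    match j.2 with
    | none => listDiv (l j.1)
    | some o => addPts K (qj o) (listDiv (l j.1))
  have hDj : ∀ j, (Dj j).Invertible := by
    rintro ⟨b, _ | o⟩
    · exact listDiv_invertible _
    · exact addPts_invertible _ (listDiv_invertible _)
  let up : ι → ℕ := fun j =>
    match j.2 with
    | none => 0
    | some _ => 1
  choose N₀ hN₀ using fun j => ((Dj j).toTri (hDj j)).exists_twist_surjective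
  cases nonempty_fintype ι
  set M₁ := Finset.univ.sup N₀
  set N := twistN X + M₁ with hN
  let Nj : ι → ℕ := fun j => N + up j
  have hs : ∀ j, Function.Surjective ((Dj j).tri (hDj j) (Nj j)).diff := fun j =>
    hN₀ j _ (le_trans (Finset.le_sup (Finset.mem_univ j))
      (le_trans (Nat.le_add_left _ _) (Nat.le_add_right _ _)))
  set r₀ : ℤ := eulerO X K N - numPts X
  have he : ∀ j, euler ((Dj j).tri (hDj j) (Nj j)) = r₀ := by
    rintro ⟨b, _ | o⟩
    · show euler ((listDiv (l b)).tri _ N) = _
      rw [euler_listDiv, hl]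
      rfl
    · show euler ((addPts K (qj o) (listDiv (l b))).tri _ (N + 1)) = _
      rw [euler_addPts _ (listDiv_invertible _), euler_listDiv, hl]
      have hlen : (qj o).length = n := by cases o <;> simp [qj]
      have h2 := eulerO_succ (X := X) (K := K) N
      simp only [eulerO] at h2 ⊢
      rw [hlen, h2, hn, rankX_eq_degInf X]
      simp only [r₀, eulerO]
      ring
  let r := r₀.toNat
  have hr : (r : ℤ) = r₀ := by
    let j : ι := (true, none)
    have := he j
    rw [← finrank_H0_eq_of_surjective (hs j)] at this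
    simp only [r]
    omega
  obtain ⟨P, hP, hbot⟩ := exists_general_points r Dj hDj Nj (fun j => by rw [he, hr]) fun j => by
    have := finrank_H0_eq_of_surjective (hs j)
    rw [he, ← hr] at this
    exact_mod_cast this
  obtain ⟨P', hP'⟩ := exists_inverse (M₁ + 1) P
  let i : X.ChartIndex := ⟨M₁ + 1, P, P.length, P', hP', q⟩
  have good : ∀ (b : Bool) (M : X.Tri K),
      M.Equiv ((listDiv (l b)).tri (listDiv_invertible _) (twistN X)) → i.Good M := by
    intro b M e
    have hmap : (listDiv (P.map Sum.inl) : Div X k).map (Algebra.ofId k K) =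
        listDiv (P.map (kPt K)) := by
      rw [listDiv_map, List.map_map]; rfl
    let eN : ((X.shiftTri (M₁ + 1) P).baseChange (Algebra.ofId k K)).Equiv
        ((listDiv (P.map (kPt K))).tri (listDiv_invertible _) (M₁ + 1)) :=
      (triBaseChange _ _ _ (by rw [hmap]; exact listDiv_invertible _) _).trans
        (triCongr hmap _ _ _)
    let eS : (i.shift M).Equiv
        ((addPts K P (listDiv (l b))).tri (addPts_invertible P (listDiv_invertible _)) (N + 1)) :=
      ((e.tensor eN).trans (triTensorEquiv _ _ _ _ _ _)).trans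
        (triCongr (mul_comm _ _) _ _ _)
    refine TwoChart.FrameGood.pullback ?_ eS.symm.toPullback
    rw [TwoChart.frameGood_iff]
    have hb0 := hbot (b, none)
    have hlen : ((addPts K P (listDiv (l b))).tri (addPts_invertible P (listDiv_invertible _))
        (N + 1)).diff.index = n := by
      have h1 : euler _ = _ := euler_addPts P (listDiv_invertible (l b)) (N + 1)
      rw [euler_listDiv, hl, hP, hr] at h1
      have h2 := eulerO_succ (X := X) (K := K) N
      simp only [eulerO] at h2
      rw [h2] at h1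
      refine h1.trans ?_
      simp only [r₀, eulerO, hn, rankX_eq_degInf X]
      ring
    refine ⟨?_, ?_, fun j => ?_⟩
    · rw [TwoChart.Tri.bijective_diff_iff]
      let L₀ := (addPts K P (listDiv (l b))).tri (addPts_invertible P (listDiv_invertible _)) N
      let e₀ := triTwistInv (addPts K P (listDiv (l b)))
        (addPts_invertible P (listDiv_invertible _)) N
      have h0 : Function.Bijective L₀.diff := by
        refine bijective_diff_of_H0 hb0 ?_
        show euler _ = 0
        rw [euler_addPts P (listDiv_invertible (l b)), euler_listDiv, hl, hP, hr]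
        simp only [r₀, eulerO]
        ring
      rw [← TwoChart.Tri.bijective_diff_iff] at h0 ⊢
      exact (e₀.symm.toPullback.bijective_evMap_iff _).2.mpr (bijective_baseChange _ h0 K)
    · exact bijective_evMap_addPts _ (listDiv_invertible _) _ P q hq hlen
        (hbot (b, some none))
    · exact bijective_evMap_addPts _ (listDiv_invertible _) _ P _ (hupd j) hlen
        (hbot (b, some (some j)))
  exact ⟨i, good true L e₁, good false L' e₂⟩

end Field

end Fermat.Agent.Picard.Points

namespace Fermat.Agent.Picard.TwoChart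

variable {k : Type u} [Field k] [IsAlgClosed k] {X : TwoChart k}
variable {R : Type u} [CommRing R] [Algebra k R]

theorem exists_common_chart_aux {L L' : X.Tri R} (hL : L.Deg0) (hL' : L'.Deg0)
    (p : PrimeSpectrum R) : ∃ i : X.ChartIndex, p ∈ i.locus L ∧ p ∈ i.locus L' := by
  let K := AlgebraicClosure p.asIdeal.ResidueField
  let φ : R →ₐ[k] K :=
    (IsScalarTower.toAlgHom k p.asIdeal.ResidueField K).comp
      (IsScalarTower.toAlgHom k R p.asIdeal.ResidueField)
  obtain ⟨i, h1, h2⟩ := Points.exists_common_index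
    (L := L.baseChange φ) (L' := L'.baseChange φ)
    (fun K' _ _ ψ M P => hL K' _ _ (ψ.comp φ) M ((L.pullbackBaseChange φ).comp P))
    (fun K' _ _ ψ M P => hL' K' _ _ (ψ.comp φ) M ((L'.pullbackBaseChange φ).comp P))
  have hp : (⟨RingHom.ker φ.toRingHom, RingHom.ker_isPrime φ.toRingHom⟩ : PrimeSpectrum R) = p := by
    refine PrimeSpectrum.ext ?_
    ext r
    show algebraMap p.asIdeal.ResidueField K (algebraMap R p.asIdeal.ResidueField r) = 0 ↔ _
    rw [map_eq_zero, Ideal.algebraMap_residueField_eq_zero]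
  refine ⟨i, ?_, ?_⟩
  · have := ((i.locus_spec L).2.1 K φ _ (L.pullbackBaseChange φ)).mp h1
    rwa [hp] at this
  · have := ((i.locus_spec L').2.1 K φ _ (L'.pullbackBaseChange φ)).mp h2
    rwa [hp] at this

end Fermat.Agent.Picard.TwoChart
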