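/-
Torsion free modules of rank one over the coordinate ring of an affine curve.
-/
import Fermat.Agent.Picard.Points.InvI

set_option autoImplicit false

universe u

open scoped TensorProduct

noncomputable section

namespace Fermat.Agent.Picard

/-- A torsion free rank one module over a Dedekind domain is free modulo any element with finite
dimensional quotient. -/
theorem exists_generator_mod {k T M : Type u} [Field k] [CommRing T] [IsDedekindDomain T]
    [Algebra k T] [AddCommGroup M] [Module T M] [Module.Finite T M]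
    (htf : ∀ (a : T) (m : M), a • m = 0 → a = 0 ∨ m = 0)
    (hdep : ∀ m m' : M, ∃ a a' : T, (a ≠ 0 ∨ a' ≠ 0) ∧ a • m = a' • m')
    (hne : ∃ m : M, m ≠ 0) (t : T) [FiniteDimensional k (T ⧸ Ideal.span {t})] :
    ∃ m : M, (∀ z, ∃ (a : T) (w : M), z = a • m + t • w) ∧
      ∀ (a : T) (w : M), a • m = t • w → t ∣ a := by
  classical
  obtain ⟨m₀, hm₀⟩ := hne
  obtain ⟨s, g, hg⟩ := Module.Finite.exists_fin (R := T) (M := M)
  have hgen : ∀ i, ∃ a c : T, a ≠ 0 ∧ a • g i = c • m₀ := fun i => by
    obtain ⟨a, c, h0, h⟩ := hdep (g i) m₀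
    refine ⟨a, c, fun ha => ?_, h⟩
    rw [ha, zero_smul] at h
    exact (htf c m₀ h.symm).elim (fun hc => h0.elim (fun h1 => h1 ha) fun h2 => h2 hc) hm₀
  choose a c ha hac using hgen
  let D := ∏ i, a i
  have hD : D ≠ 0 := Finset.prod_ne_zero_iff.mpr fun i _ => ha i
  have hall : ∀ z : M, ∃ b : T, D • z = b • m₀ := fun z => by
    have hz : z ∈ Submodule.span T (Set.range g) := by rw [hg]; trivial
    induction hz using Submodule.span_induction with
    | mem x hx =>
      obtain ⟨i, rfl⟩ := hx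
      refine ⟨(∏ j ∈ Finset.univ.erase i, a j) * c i, ?_⟩
      rw [show D = (∏ j ∈ Finset.univ.erase i, a j) * a i from
        (Finset.prod_erase_mul _ _ (Finset.mem_univ i)).symm, mul_smul, hac, smul_smul]
    | zero => exact ⟨0, by simp⟩
    | add x y _ _ hx hy =>
      obtain ⟨b, hb⟩ := hx
      obtain ⟨b', hb'⟩ := hy
      exact ⟨b + b', by rw [smul_add, hb, hb', add_smul]⟩
    | smul r x _ hx =>
      obtain ⟨b, hb⟩ := hx
      exact ⟨r * b, by rw [smul_comm, hb, smul_smul]⟩
  choose f hf using hall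
  have huniq : ∀ b b' : T, b • m₀ = b' • m₀ → b = b' := fun b b' h => by
    refine sub_eq_zero.mp ((htf (b - b') m₀ ?_).resolve_right hm₀)
    rw [sub_smul, h, sub_self]
  let F : M →ₗ[T] T :=
    { toFun := f
      map_add' := fun x y => huniq _ _ (by rw [← hf, smul_add, hf, hf, add_smul])
      map_smul' := fun r x => huniq _ _ (by
        rw [← hf, smul_comm, hf, smul_smul, RingHom.id_apply, smul_eq_mul]) }
  have hF : Function.Injective F := (injective_iff_map_eq_zero F).mpr fun x hx => by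
    refine (htf D x ?_).resolve_left hD
    rw [hf x, show f x = 0 from hx, zero_smul]
  let J : Ideal T := LinearMap.range F
  have hJ : J ≠ ⊥ := fun h0 => hm₀ (hF (by
    rw [map_zero]; exact (Submodule.eq_bot_iff _).mp h0 _ ⟨m₀, rfl⟩))
  obtain ⟨b, hb, hb0⟩ := Submodule.exists_mem_ne_zero_of_ne_bot hJ
  obtain ⟨J', hJ'⟩ := Ideal.dvd_iff_le.mpr ((Ideal.span_singleton_le_iff_mem _).mpr hb :
    Ideal.span {b} ≤ J)
  have : Module.Invertible T J := (Points.InvI.invertible ⟨J', b, hb0, hJ'.symm⟩)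
  have : Module.Invertible T M := Module.Invertible.congr (LinearEquiv.ofInjective F hF).symm
  let I : Ideal T := Ideal.span {t}
  have : IsArtinianRing (T ⧸ I) := IsArtinianRing.of_finite k (T ⧸ I)
  obtain ⟨e⟩ := (Module.Invertible.free_iff_linearEquiv
    (R := T ⧸ I) (M := (T ⧸ I) ⊗[T] M)).mp inferInstance
  let π : M →ₗ[T] (T ⧸ I) ⊗[T] M := TensorProduct.mk T (T ⧸ I) M 1
  have hπs : Function.Surjective π :=
    TensorProduct.mk_surjective T M (T ⧸ I) Ideal.Quotient.mk_surjective
  have hπk : ∀ z, π z = 0 → ∃ w, z = t • w := fun z hz => by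
    have h := congrArg (TensorProduct.quotTensorEquivQuotSMul M I) hz
    rw [map_zero] at h
    have hmem : z ∈ (I • ⊤ : Submodule T M) := by
      rw [← Submodule.Quotient.mk_eq_zero, ← h]
      simp [π]
    rw [Submodule.ideal_span_singleton_smul] at hmem
    obtain ⟨w, -, hw⟩ := hmem
    exact ⟨w, hw.symm⟩
  obtain ⟨m, hm⟩ := hπs (e.symm 1)
  have hem : ∀ a : T, e (π (a • m)) = Ideal.Quotient.mk I a := fun a => by
    rw [map_smul, hm, ← algebraMap_smul (T ⧸ I) a, map_smul, LinearEquiv.apply_symm_apply,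
      smul_eq_mul, mul_one]
    rfl
  refine ⟨m, fun z => ?_, fun a w h => ?_⟩
  · obtain ⟨a, ha'⟩ := Ideal.Quotient.mk_surjective (e (π z))
    obtain ⟨w, hw⟩ := hπk (z - a • m) (e.injective (by rw [map_sub, map_sub, hem, ha', sub_self,
      map_zero]))
    exact ⟨a, w, by rw [← hw, add_sub_cancel]⟩
  · rw [← Ideal.mem_span_singleton, ← Ideal.Quotient.eq_zero_iff_mem, ← hem, h, map_smul,
      ← algebraMap_smul (T ⧸ I) t, map_smul,
      show algebraMap T (T ⧸ I) t = 0 from
        Ideal.Quotient.eq_zero_iff_mem.mpr (Ideal.mem_span_singleton_self t), zero_smul]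

end Fermat.Agent.Picard
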