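/-
Criteria for invertibility of modules over finite free algebras.
-/
import Mathlib

set_option autoImplicit false

universe u

open scoped TensorProduct

noncomputable section

namespace Fermat.Agent.Picard

/-- A module which is cyclic free after inverting each of finitely many comaximal elements is
invertible. -/
theorem invertible_of_span {S M : Type u} [CommRing S] [AddCommGroup M] [Module S M] (D : Set S)
    (hD : Ideal.span D = ⊤)
    (h : ∀ d ∈ D, ∃ (u : S →ₗ[S] M) (v : M →ₗ[S] S), (∀ m, u (v m) = d • m) ∧
      ∀ s, v (u s) = d * s) : Module.Invertible S M := by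
  choose u v huv hvu using h
  refine ⟨?_, ?_⟩
  · rw [injective_iff_map_eq_zero]
    intro t ht
    let Ann : Ideal S :=
      { carrier := {s | s • t = 0}
        add_mem' := fun {a b} ha hb => by
          show (a + b) • t = 0
          rw [add_smul, show a • t = 0 from ha, show b • t = 0 from hb, add_zero]
        zero_mem' := zero_smul S t
        smul_mem' := fun c x hx => by
          show (c • x) • t = 0
          rw [smul_eq_mul, mul_smul, show x • t = 0 from hx, smul_zero] }
    have hle : Ideal.span D ≤ Ann.radical := by
      rw [Ideal.span_le]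
      intro d hd
      refine ⟨2, ?_⟩
      show d ^ 2 • t = 0
      have key : ∀ t : Module.Dual S M ⊗[S] M,
          d ^ 2 • t = (d * contractLeft S M t) • (v d hd ⊗ₜ[S] u d hd 1) := fun t => by
        induction t using TensorProduct.induction_on with
        | zero => simp
        | tmul f m =>
          have hz : ∀ z, d • z = v d hd z • u d hd 1 := fun z => by
            rw [← huv d hd z, ← map_smul, smul_eq_mul, mul_one]
          have hf : d • f = f (u d hd 1) • v d hd := by
            ext z
            rw [LinearMap.smul_apply, LinearMap.smul_apply, ← map_smul, hz, map_smul,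
              smul_eq_mul, smul_eq_mul, mul_comm]
          have h1 : f (u d hd 1) * v d hd m = d * f m := by
            rw [mul_comm, ← smul_eq_mul, ← map_smul, ← hz, map_smul, smul_eq_mul]
          rw [contractLeft_apply, ← h1]
          calc d ^ 2 • (f ⊗ₜ[S] m) = (d • f) ⊗ₜ[S] (d • m) := by
                rw [TensorProduct.tmul_smul, ← TensorProduct.smul_tmul', smul_smul, pow_two]
            _ = _ := by
                rw [hf, hz m, TensorProduct.tmul_smul, ← TensorProduct.smul_tmul', smul_smul,
                  mul_comm (v d hd m)]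
        | add a b ha hb => rw [smul_add, ha, hb, map_add, mul_add, add_smul]
      rw [key t, ht, mul_zero, zero_smul]
    rw [hD, top_le_iff, Ideal.radical_eq_top] at hle
    have h1 : (1 : S) • t = 0 := by
      have : (1 : S) ∈ Ann := hle ▸ trivial
      exact this
    rwa [one_smul] at h1
  · rw [← LinearMap.range_eq_top, eq_top_iff, ← hD, Ideal.span, Submodule.span_le]
    intro d hd
    exact ⟨v d hd ⊗ₜ[S] u d hd 1, by rw [contractLeft_apply, hvu, mul_one]⟩

/-- A module with a finite basis over `P` is invertible over the finite free `P`-algebra `T` as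
soon as at every rational point of `P` some element generates it freely. -/
theorem invertible_of_points {k P T M : Type u} [Field k] [IsAlgClosed k] [CommRing P]
    [Algebra k P] [Algebra.FiniteType k P] [CommRing T] [Algebra P T] [AddCommGroup M]
    [Module T M] [Module P M] [IsScalarTower P T M] {ι κ : Type} [Finite ι] [Fintype κ]
    (bT : Module.Basis ι P T) (bM : Module.Basis κ P M)
    (h : ∀ ev : P →ₐ[k] k, ∃ m : M,
      LinearIndependent k (fun j l => ev (bM.repr (bT j • m) l)) ∧
        Submodule.span k (Set.range fun j l => ev (bM.repr (bT j • m) l)) = ⊤) :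
    Module.Invertible T M := by
  classical
  let good : Set T := {d | ∃ (u : T →ₗ[T] M) (v : M →ₗ[T] T),
    (∀ m, u (v m) = d • m) ∧ ∀ s, v (u s) = d * s}
  refine invertible_of_span good ?_ fun d hd => hd
  suffices hP : Ideal.span (algebraMap P T ⁻¹' good) = ⊤ by
    rw [eq_top_iff, ← Ideal.map_top (algebraMap P T), ← hP, Ideal.map_span]
    exact Ideal.span_mono (Set.image_preimage_subset _ _)
  by_contra hne
  obtain ⟨p, hp, hle⟩ := Ideal.exists_le_maximal _ hne
  let : Field (P ⧸ p) := Ideal.Quotient.field p
  have : Module.Finite k (P ⧸ p) := finite_of_finite_type_of_isJacobsonRing k (P ⧸ p)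
  have hb : Function.Bijective (Algebra.ofId k (P ⧸ p)) :=
    IsAlgClosed.algebraMap_bijective_of_isIntegral
  let ev : P →ₐ[k] k :=
    (AlgEquiv.ofBijective (Algebra.ofId k (P ⧸ p)) hb).symm.toAlgHom.comp (Ideal.Quotient.mkₐ k p)
  obtain ⟨m, hli, hsp⟩ := h ev
  cases nonempty_fintype ι
  let B := Module.Basis.mk hli hsp.ge
  let e : ι ≃ κ := B.indexEquiv (Pi.basisFun k κ)
  let bT' := bT.reindex e
  let u₀ : T →ₗ[P] M := (LinearMap.toSpanSingleton T M m).restrictScalars P
  let Q : Matrix κ κ P := LinearMap.toMatrix bT' bM u₀
  let d := Q.det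
  let v₀ : M →ₗ[P] T := Matrix.toLin bM bT' Q.adjugate
  have huv : ∀ z, u₀ (v₀ z) = d • z := fun z => by
    have : u₀ ∘ₗ v₀ = d • LinearMap.id := by
      refine (LinearMap.toMatrix bM bM).injective ?_
      rw [LinearMap.toMatrix_comp bM bT' bM, LinearMap.toMatrix_toLin, Matrix.mul_adjugate,
        map_smul, LinearMap.toMatrix_id]
    exact LinearMap.congr_fun this z
  have hvu : ∀ s, v₀ (u₀ s) = d • s := fun s => by
    have : v₀ ∘ₗ u₀ = d • LinearMap.id := by
      refine (LinearMap.toMatrix bT' bT').injective ?_
      rw [LinearMap.toMatrix_comp bT' bM bT', LinearMap.toMatrix_toLin, Matrix.adjugate_mul,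
        map_smul, LinearMap.toMatrix_id]
    exact LinearMap.congr_fun this s
  let v : M →ₗ[T] T :=
    { toFun := fun z => d • v₀ z
      map_add' := fun a b => by rw [map_add, smul_add]
      map_smul' := fun a z => by
        calc d • v₀ (a • z) = v₀ (a • d • z) := by rw [← map_smul, smul_comm d a z]
          _ = v₀ (u₀ (a • v₀ z)) := by
              rw [← huv z]
              exact congrArg v₀ (map_smul (LinearMap.toSpanSingleton T M m) a (v₀ z)).symm
          _ = d • a • v₀ z := hvu _
          _ = a • d • v₀ z := smul_comm _ _ _ }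
  have hmem : d * d ∈ algebraMap P T ⁻¹' good := by
    refine ⟨LinearMap.toSpanSingleton T M m, v, fun z => ?_, fun s => ?_⟩
    · show u₀ (d • v₀ z) = _
      rw [map_smul, huv, smul_smul, algebraMap_smul]
    · show d • v₀ (u₀ s) = _
      rw [hvu, smul_smul, Algebra.smul_def]
  have hd : d ∈ p :=
    (hp.isPrime.mem_or_mem (hle (Ideal.subset_span hmem))).elim id id
  have hev : ev d = 0 := by
    show (AlgEquiv.ofBijective _ hb).symm (Ideal.Quotient.mk p d) = 0
    rw [Ideal.Quotient.eq_zero_iff_mem.mpr hd, map_zero]
  have hcols : (Q.map ev).col = fun j => B (e.symm j) := by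
    funext j l
    simp [Q, u₀, bT', B, Matrix.col, LinearMap.toMatrix_apply]
  have hu : IsUnit (Q.map ev) := by
    rw [← Matrix.linearIndependent_cols_iff_isUnit, hcols]
    exact B.linearIndependent.comp _ e.symm.injective
  rw [Matrix.isUnit_iff_isUnit_det] at hu
  apply hu.ne_zero
  rw [← hev]
  exact (AlgHom.map_det ev Q).symm

end Fermat.Agent.Picard
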