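/-
Modules given by polynomial matrix representations of a finite free `k[t]`-algebra.
-/
import Fermat.Agent.Picard.Algebra.InvertibleCrit
import Fermat.Agent.Picard.Algebra.DedekindModule

set_option autoImplicit false

universe u

open scoped TensorProduct Matrix Polynomial

noncomputable section

namespace Fermat.Agent.Picard

variable {k : Type u} [Field k] {T : Type u} [CommRing T] [Algebra k T]

/-! ### Bases over the polynomial ring in `t` -/

/-- The combination `∑ fⱼ(t) bⱼ`. -/
def polyComb (R : Type u) [CommRing R] [Algebra k R] (t : T) {r : ℕ} (b : Fin r → T) :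
    (Fin r → R[X]) →ₗ[R] R ⊗[k] T :=
  ∑ j, (LinearMap.mulRight R ((1 : R) ⊗ₜ[k] b j)) ∘ₗ
    (Polynomial.aeval ((1 : R) ⊗ₜ[k] t)).toLinearMap ∘ₗ LinearMap.proj j

theorem polyComb_apply (R : Type u) [CommRing R] [Algebra k R] (t : T) {r : ℕ} (b : Fin r → T)
    (f : Fin r → R[X]) :
    polyComb R t b f = ∑ j, Polynomial.aeval ((1 : R) ⊗ₜ[k] t) (f j) * ((1 : R) ⊗ₜ[k] b j) := by
  simp [polyComb]

/-- `b` is a basis of `R ⊗ T` over `R[t]` for every `R`. -/
def IsPolyBasis (t : T) {r : ℕ} (b : Fin r → T) : Prop :=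
  ∀ (R : Type u) [CommRing R] [Algebra k R], Function.Bijective (polyComb (k := k) R t b)

theorem exists_polyBasis [IsDomain T] (t : T)
    (hfin : (Polynomial.aeval t : k[X] →ₐ[k] T).toRingHom.Finite)
    (hinj : Function.Injective (Polynomial.aeval t : k[X] →ₐ[k] T)) :
    ∃ (r : ℕ) (b : Fin r → T), IsPolyBasis (k := k) t b := by
  let : Algebra k[X] T := (Polynomial.aeval t : k[X] →ₐ[k] T).toRingHom.toAlgebra
  have : IsScalarTower k k[X] T :=
    IsScalarTower.of_algebraMap_eq fun r => by
      show _ = Polynomial.aeval t (Polynomial.C r)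
      simp
  have : Module.Finite k[X] T := hfin
  have : FaithfulSMul k[X] T := (faithfulSMul_iff_algebraMap_injective k[X] T).mpr hinj
  have : Module.Free k[X] T := inferInstance
  let b := Module.finBasis k[X] T
  refine ⟨_, b, fun R _ _ => ?_⟩
  let e : R ⊗[k] T ≃ₗ[R] (Fin (Module.finrank k[X] T) → R[X]) :=
    (TensorProduct.AlgebraTensorModule.congr (LinearEquiv.refl R R)
      (b.equivFun.restrictScalars k)) ≪≫ₗ
      TensorProduct.piRight k R R _ ≪≫ₗ
      LinearEquiv.piCongrRight fun _ => (polyEquivTensor' k R).symm.toLinearEquiv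
  have hX : ∀ z i, e (((1 : R) ⊗ₜ[k] t) * z) i = Polynomial.X * e z i := fun z i => by
    induction z using TensorProduct.induction_on with
    | zero => simp
    | tmul r a =>
      have hst : t * a = (Polynomial.X : k[X]) • a := by
        rw [Algebra.smul_def]
        show t * a = Polynomial.aeval t Polynomial.X * a
        simp
      simp only [Algebra.TensorProduct.tmul_mul_tmul, one_mul, hst]
      simp [e]
    | add z w hz hw => simp [mul_add, hz, hw]
  have hcomb : ∀ f, e (polyComb R t b f) = f := fun f => by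
    have hmono : ∀ (p : R[X]) (z : R ⊗[k] T),
        e (Polynomial.aeval ((1 : R) ⊗ₜ[k] t) p * z) = fun i => p * e z i := fun p z => by
      induction p using Polynomial.induction_on with
      | C a =>
        funext i
        rw [Polynomial.aeval_C, ← Algebra.smul_def, map_smul, Pi.smul_apply,
          Polynomial.smul_eq_C_mul]
      | add p q hp hq =>
        funext i
        rw [map_add, add_mul, map_add, Pi.add_apply, hp, hq, add_mul]
      | monomial n a ih =>
        funext i
        rw [pow_succ, ← mul_assoc, map_mul (Polynomial.aeval _), Polynomial.aeval_X,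
          mul_comm _ ((1 : R) ⊗ₜ[k] t), mul_assoc, hX, ih]
        ring
    have hb : ∀ j i, e ((1 : R) ⊗ₜ[k] b j) i = if j = i then 1 else 0 := fun j i => by
      by_cases h : j = i <;> simp [e, h, Finsupp.single_apply]
    funext i
    rw [polyComb_apply, map_sum, Finset.sum_apply, Finset.sum_eq_single i]
    · rw [hmono]; simp [hb]
    · intro j _ hj
      rw [hmono]; simp [hb, hj]
    · simp
  rw [Function.bijective_iff_has_inverse]
  exact ⟨e, hcomb, fun z => e.injective (hcomb _)⟩

namespace IsPolyBasis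

variable {t : T} {r : ℕ} {b : Fin r → T}

/-- The coordinates of an element. -/
def coord (hb : IsPolyBasis (k := k) t b) : T →ₗ[k] (Fin r → k[X]) :=
  (LinearEquiv.ofBijective (polyComb k t b) (hb k)).symm.toLinearMap ∘ₗ
    (TensorProduct.lid k T).symm.toLinearMap

theorem sum_coord (hb : IsPolyBasis (k := k) t b) (a : T) :
    ∑ j, Polynomial.aeval t (hb.coord a j) * b j = a := by
  have h := congrArg (Algebra.TensorProduct.lid k T)
    ((LinearEquiv.ofBijective (polyComb k t b) (hb k)).apply_symm_apply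
      ((TensorProduct.lid k T).symm a))
  rw [show (LinearEquiv.ofBijective (polyComb k t b) (hb k)) ((LinearEquiv.ofBijective
      (polyComb k t b) (hb k)).symm ((TensorProduct.lid k T).symm a)) =
      polyComb k t b (hb.coord a) from rfl, polyComb_apply, map_sum] at h
  simpa [← Polynomial.aeval_algHom_apply] using h

theorem coord_eq (hb : IsPolyBasis (k := k) t b) (f : Fin r → k[X]) :
    hb.coord (∑ j, Polynomial.aeval t (f j) * b j) = f := by
  show (LinearEquiv.ofBijective (polyComb k t b) (hb k)).symm ((TensorProduct.lid k T).symm _) = f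
  rw [LinearEquiv.symm_apply_eq]
  apply (Algebra.TensorProduct.lid k T).injective
  show _ = Algebra.TensorProduct.lid k T (polyComb k t b f)
  rw [polyComb_apply, map_sum]
  simp [← Polynomial.aeval_algHom_apply]

theorem eq_sum_smul_add (hb : IsPolyBasis (k := k) t b) (c : k) (a : T) :
    ∃ a' : T, a = (∑ j, (hb.coord a j).eval c • b j) + (t - algebraMap k T c) * a' := by
  have : ∀ j, ∃ g : k[X], hb.coord a j =
      Polynomial.C ((hb.coord a j).eval c) + (Polynomial.X - Polynomial.C c) * g := fun j =>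
    ⟨(hb.coord a j) /ₘ (Polynomial.X - Polynomial.C c), by
      conv_lhs => rw [← Polynomial.modByMonic_add_div (hb.coord a j) (Polynomial.X - Polynomial.C c),
        Polynomial.modByMonic_X_sub_C_eq_C_eval]⟩
  choose g hg using this
  refine ⟨∑ j, Polynomial.aeval t (g j) * b j, ?_⟩
  rw [Finset.mul_sum, ← Finset.sum_add_distrib]
  conv_lhs => rw [← hb.sum_coord a]
  refine Finset.sum_congr rfl fun j _ => ?_
  conv_lhs => rw [hg j]
  simp [add_mul, Algebra.smul_def, mul_assoc]

theorem eq_zero_of_dvd (hb : IsPolyBasis (k := k) t b) (c : k) (γ : Fin r → k)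
    (h : (t - algebraMap k T c) ∣ ∑ j, γ j • b j) : γ = 0 := by
  obtain ⟨a, ha⟩ := h
  have h1 : hb.coord (∑ j, γ j • b j) = fun j => Polynomial.C (γ j) := by
    conv_lhs => enter [2, 2, j]; rw [Algebra.smul_def, ← Polynomial.aeval_C (x := t)]
    exact hb.coord_eq _
  have h2 : hb.coord ((t - algebraMap k T c) * a) =
      fun j => (Polynomial.X - Polynomial.C c) * hb.coord a j := by
    conv_lhs => rw [← hb.sum_coord a, Finset.mul_sum]
    rw [← hb.coord_eq fun j => (Polynomial.X - Polynomial.C c) * hb.coord a j]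
    exact congrArg hb.coord (Finset.sum_congr rfl fun j _ => by simp [mul_assoc])
  funext j
  have := congrArg (fun p : Fin r → k[X] => (p j).eval c) (h1.symm.trans ((congrArg hb.coord ha).trans h2))
  simpa using this

theorem finiteDimensional_quotient (hb : IsPolyBasis (k := k) t b) (c : k) :
    FiniteDimensional k (T ⧸ Ideal.span {t - algebraMap k T c}) := by
  let f : (Fin r → k) →ₗ[k] T ⧸ Ideal.span {t - algebraMap k T c} :=
    (Ideal.Quotient.mkₐ k _).toLinearMap ∘ₗ Fintype.linearCombination k b
  refine Module.Finite.of_surjective f fun y => ?_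
  obtain ⟨a, rfl⟩ := Ideal.Quotient.mk_surjective y
  obtain ⟨a', ha⟩ := hb.eq_sum_smul_add c a
  refine ⟨fun j => (hb.coord a j).eval c, ?_⟩
  show Ideal.Quotient.mk _ _ = _
  rw [Ideal.Quotient.eq, Ideal.mem_span_singleton]
  exact ⟨-a', by rw [Fintype.linearCombination_apply]; linear_combination -ha⟩

theorem finrank_quotient (hb : IsPolyBasis (k := k) t b) :
    Module.finrank k (T ⧸ Ideal.span {t}) = r := by
  let f : (Fin r → k) →ₗ[k] T ⧸ Ideal.span {t} :=
    (Ideal.Quotient.mkₐ k _).toLinearMap ∘ₗ Fintype.linearCombination k b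
  have hf : Function.Bijective f := by
    refine ⟨(injective_iff_map_eq_zero f).mpr fun γ hγ => hb.eq_zero_of_dvd 0 γ ?_, fun y => ?_⟩
    · rw [map_zero, sub_zero, ← Ideal.mem_span_singleton, ← Ideal.Quotient.eq_zero_iff_mem,
        ← Fintype.linearCombination_apply]
      exact hγ
    · obtain ⟨a, rfl⟩ := Ideal.Quotient.mk_surjective y
      obtain ⟨a', ha⟩ := hb.eq_sum_smul_add 0 a
      refine ⟨fun j => (hb.coord a j).eval 0, ?_⟩
      show Ideal.Quotient.mk _ _ = _
      rw [Ideal.Quotient.eq, Ideal.mem_span_singleton]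
      exact ⟨-a', by
        rw [Fintype.linearCombination_apply]
        rw [map_zero, sub_zero] at ha
        linear_combination -ha⟩
  rw [← (LinearEquiv.ofBijective f hf).finrank_eq, Module.finrank_fin_fun]

end IsPolyBasis

/-! ### Representations by polynomial matrices -/

variable {R : Type u} [CommRing R] [Algebra k R] {n : ℕ}

/-- The action of `R ⊗ T` attached to a representation of `T`. -/
def repHom (φ : T →ₐ[k] Matrix (Fin n) (Fin n) R[X]) :
    R ⊗[k] T →ₐ[R] Matrix (Fin n) (Fin n) R[X] :=
  Algebra.TensorProduct.lift (Algebra.ofId R _) φ fun r a => Algebra.commutes r (φ a)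

/-- The module `R[X]ⁿ` of a representation. -/
def RepMod (_φ : T →ₐ[k] Matrix (Fin n) (Fin n) R[X]) : Type u := Fin n → R[X]

namespace RepMod

variable (φ : T →ₐ[k] Matrix (Fin n) (Fin n) R[X])

instance : AddCommGroup (RepMod φ) := inferInstanceAs (AddCommGroup (Fin n → R[X]))

instance : Module R[X] (RepMod φ) := inferInstanceAs (Module R[X] (Fin n → R[X]))

instance : Module (R ⊗[k] T) (RepMod φ) :=
  Module.compHom (Fin n → R[X])
    ((Matrix.toLinAlgEquiv' (R := R[X]) (n := Fin n)).toRingEquiv.toRingHom.comp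
      (repHom φ).toRingHom)

variable {φ}

/-- View a vector as an element of the module. -/
def of (p : Fin n → R[X]) : RepMod φ := p

/-- The coordinates of an element of the module. -/
def val (p : RepMod φ) : Fin n → R[X] := p

theorem val_smul (z : R ⊗[k] T) (p : RepMod φ) : (z • p).val = repHom φ z *ᵥ p.val := by
  show Matrix.toLinAlgEquiv' (repHom φ z) p.val = _
  rw [Matrix.toLinAlgEquiv'_apply]

theorem val_tmul_smul (s : R) (a : T) (p : RepMod φ) :
    ((s ⊗ₜ[k] a) • p).val = Polynomial.C s • (φ a *ᵥ p.val) := by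
  rw [val_smul, repHom]
  erw [Algebra.TensorProduct.lift_tmul]
  rw [Algebra.ofId_apply, ← Algebra.smul_def, Matrix.smul_mulVec]
  funext i
  simp [Polynomial.smul_eq_C_mul]

theorem val_poly_smul (f : R[X]) (p : RepMod φ) : (f • p).val = f • p.val := rfl

theorem aeval_smul {t : T} (hφ : φ t = Matrix.scalar (Fin n) Polynomial.X) (f : R[X])
    (p : RepMod φ) : (Polynomial.aeval ((1 : R) ⊗ₜ[k] t) f) • p = f • p := by
  induction f using Polynomial.induction_on generalizing p with
  | C a =>
    show (_ • p).val = (_ • p).val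
    rw [Polynomial.aeval_C, Algebra.TensorProduct.algebraMap_apply, Algebra.algebraMap_self_apply,
      val_tmul_smul, map_one, Matrix.one_mulVec, val_poly_smul]
  | add f g hf hg => rw [map_add, add_smul, hf, hg, add_smul]
  | monomial n a ih =>
    rw [pow_succ, ← mul_assoc, map_mul, mul_smul, Polynomial.aeval_X, ih,
      mul_smul (Polynomial.C a * Polynomial.X ^ n) Polynomial.X p]
    congr 1
    show (((1 : R) ⊗ₜ[k] t) • p).val = ((Polynomial.X : R[X]) • p).val
    rw [val_tmul_smul, hφ, map_one, one_smul, val_poly_smul]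
    funext i
    simp [Matrix.scalar, Matrix.mulVec_diagonal]

end RepMod

/-- Change of coefficients of a representation. -/
def mapRep {R' : Type u} [CommRing R'] [Algebra k R'] (s : R →ₐ[k] R')
    (φ : T →ₐ[k] Matrix (Fin n) (Fin n) R[X]) : T →ₐ[k] Matrix (Fin n) (Fin n) R'[X] :=
  (Polynomial.mapAlgHom s).mapMatrix.comp φ

theorem mapRep_apply {R' : Type u} [CommRing R'] [Algebra k R'] (s : R →ₐ[k] R')
    (φ : T →ₐ[k] Matrix (Fin n) (Fin n) R[X]) (a : T) :
    mapRep s φ a = (φ a).map (Polynomial.map s.toRingHom) := by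
  ext i j
  simp [mapRep]

theorem rep_mulVec_eq_sum {t : T} {r : ℕ} {b : Fin r → T} (hb : IsPolyBasis (k := k) t b)
    (ψ : T →ₐ[k] Matrix (Fin n) (Fin n) k[X]) (hψ : ψ t = Matrix.scalar (Fin n) Polynomial.X)
    (m : Fin n → k[X]) (a : T) :
    ψ a *ᵥ m = ∑ j, hb.coord a j • (ψ (b j) *ᵥ m) := by
  have hf : ∀ f : k[X], ψ (Polynomial.aeval t f) = Matrix.scalar (Fin n) f := fun f => by
    rw [← Polynomial.aeval_algHom_apply, hψ]
    induction f using Polynomial.induction_on with
    | C a => ext i j; by_cases h : i = j <;> simp [Matrix.scalar, Matrix.algebraMap_matrix_apply, h]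
    | add f g hf hg => rw [map_add, map_add, hf, hg]
    | monomial n a ih =>
      rw [pow_succ, ← mul_assoc, map_mul, ih, Polynomial.aeval_X, ← map_mul]
  conv_lhs => rw [← hb.sum_coord a]
  rw [map_sum, Matrix.sum_mulVec]
  refine Finset.sum_congr rfl fun j _ => ?_
  rw [map_mul, hf, ← Matrix.mulVec_mulVec]
  funext i
  simp [Matrix.scalar, Matrix.mulVec_diagonal]

/-- A representation is invertible when each of its specialisations is generated freely by one
element at each point of the line. -/
theorem invertible_repMod [IsAlgClosed k] [Algebra.FiniteType k R] {t : T} {r : ℕ}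
    {b : Fin r → T} (hb : IsPolyBasis (k := k) t b)
    (φ : T →ₐ[k] Matrix (Fin n) (Fin n) R[X])
    (hφ : φ t = Matrix.scalar (Fin n) Polynomial.X)
    (h : ∀ (s : R →ₐ[k] k) (c : k), ∃ m : Fin n → k[X],
      (∀ z, ∃ (a : T) (w : Fin n → k[X]),
          z = mapRep s φ a *ᵥ m + (Polynomial.X - Polynomial.C c) • w) ∧
        ∀ (a : T) (w : Fin n → k[X]),
          mapRep s φ a *ᵥ m = (Polynomial.X - Polynomial.C c) • w →
            (t - algebraMap k T c) ∣ a) :
    Module.Invertible (R ⊗[k] T) (RepMod φ) := by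
  let : Algebra R[X] (R ⊗[k] T) := (Polynomial.aeval ((1 : R) ⊗ₜ[k] t)).toRingHom.toAlgebra
  have : IsScalarTower R[X] (R ⊗[k] T) (RepMod φ) :=
    IsScalarTower.of_algebraMap_smul fun f p => RepMod.aeval_smul hφ f p
  let eT : (Fin r → R[X]) ≃ₗ[R[X]] R ⊗[k] T :=
    { LinearEquiv.ofBijective (polyComb R t b) (hb R) with
      map_smul' := fun f p => by
        show polyComb R t b (f • p) = Polynomial.aeval ((1 : R) ⊗ₜ[k] t) f * polyComb R t b p
        simp [polyComb_apply, Finset.mul_sum, mul_assoc] }
  let bT : Module.Basis (Fin r) R[X] (R ⊗[k] T) := (Pi.basisFun R[X] (Fin r)).map eT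
  have hbT : ∀ j, bT j = (1 : R) ⊗ₜ[k] b j := fun j => by
    show polyComb R t b (Pi.basisFun R[X] (Fin r) j) = _
    rw [polyComb_apply, Finset.sum_eq_single j] <;>
      simp +contextual
  let bM : Module.Basis (Fin n) R[X] (RepMod φ) := Pi.basisFun R[X] (Fin n)
  refine invertible_of_points (k := k) bT bM fun ev => ?_
  let s : R →ₐ[k] k := ev.comp (IsScalarTower.toAlgHom k R R[X])
  set c : k := ev Polynomial.X with hc
  obtain ⟨m, hm1, hm2⟩ := h s c
  have hev : ∀ f : R[X], ev f = (f.map s.toRingHom).eval c := fun f => by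
    induction f using Polynomial.induction_on with
    | C a => simp [s]
    | add f g hf hg => simp [hf, hg]
    | monomial n a ih => simp [pow_succ, ← mul_assoc, ih, hc]
  let m' : RepMod φ := RepMod.of fun l => (m l).map (algebraMap k R)
  refine ⟨m', ?_⟩
  set ψ := mapRep s φ with hψdef
  have hψ : ψ t = Matrix.scalar (Fin n) Polynomial.X := by
    rw [hψdef, mapRep_apply, hφ]
    ext i j
    by_cases hij : i = j <;> simp [Matrix.scalar, hij]
  have hv : (fun j l => ev (bM.repr (bT j • m') l)) =
      fun j l => ((ψ (b j) *ᵥ m) l).eval c := by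
    funext j l
    have : bM.repr (bT j • m') l = (φ (b j) *ᵥ m'.val) l := by
      show ((bT j • m').val) l = _
      rw [hbT, RepMod.val_tmul_smul, map_one, one_smul]
    rw [this, hev]
    congr 1
    simp only [hψdef, mapRep_apply, Matrix.mulVec, dotProduct, Matrix.map_apply,
      Polynomial.map_sum, Polynomial.map_mul]
    refine Finset.sum_congr rfl fun i _ => congrArg _ ?_
    show ((m i).map (algebraMap k R)).map s.toRingHom = m i
    rw [Polynomial.map_map]
    convert Polynomial.map_id (p := m i) using 2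
    ext x
    exact s.commutes x
  rw [hv]
  refine ⟨?_, ?_⟩
  · rw [Fintype.linearIndependent_iff]
    intro γ hγ
    have hker : ∀ l, Polynomial.X - Polynomial.C c ∣ (ψ (∑ j, γ j • b j) *ᵥ m) l := fun l => by
      rw [Polynomial.dvd_iff_isRoot]
      show Polynomial.eval c _ = 0
      have := congrFun hγ l
      rw [map_sum, Matrix.sum_mulVec, Finset.sum_apply, Polynomial.eval_finsetSum]
      simpa [Finset.sum_apply, Matrix.smul_mulVec] using this
    choose w hw using hker
    exact fun i => congrFun (hb.eq_zero_of_dvd c γ (hm2 _ w (funext hw))) i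
  · rw [eq_top_iff]
    intro v _
    obtain ⟨a, w, haw⟩ := hm1 fun l => Polynomial.C (v l)
    have : v = ∑ j, (hb.coord a j).eval c • fun l => ((ψ (b j) *ᵥ m) l).eval c := by
      funext l
      have h1 := congrArg (Polynomial.eval c) (congrFun haw l)
      rw [rep_mulVec_eq_sum hb ψ hψ] at h1
      simpa [Finset.sum_apply, Polynomial.eval_finsetSum] using h1
    rw [this]
    exact Submodule.sum_mem _ fun j _ => Submodule.smul_mem _ _ (Submodule.subset_span ⟨j, rfl⟩)

/-- Nonzero elements of a finite extension of `k[t]` act injectively on a representation. -/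
theorem rep_torsionFree [IsDomain T] {t : T}
    (hfin : (Polynomial.aeval t : k[X] →ₐ[k] T).toRingHom.Finite)
    (hinj : Function.Injective (Polynomial.aeval t : k[X] →ₐ[k] T))
    (ψ : T →ₐ[k] Matrix (Fin n) (Fin n) k[X]) (hψ : ψ t = Matrix.scalar (Fin n) Polynomial.X)
    (a : T) (p : Fin n → k[X]) (h : ψ a *ᵥ p = 0) : a = 0 ∨ p = 0 := by
  let : Algebra k[X] T := (Polynomial.aeval t : k[X] →ₐ[k] T).toRingHom.toAlgebra
  have : Module.Finite k[X] T := hfin
  have : FaithfulSMul k[X] T := (faithfulSMul_iff_algebraMap_injective k[X] T).mpr hinj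
  by_cases ha : a = 0
  · exact Or.inl ha
  obtain ⟨f, hf0, hdvd⟩ :=
    (Algebra.IsIntegral.isIntegral (R := k[X]) a).isAlgebraic.exists_nonzero_dvd
      (mem_nonZeroDivisors_of_ne_zero ha)
  obtain ⟨a', ha'⟩ := hdvd
  refine Or.inr ?_
  have hfp : ψ (Polynomial.aeval t f) *ᵥ p = 0 := by
    rw [show Polynomial.aeval t f = algebraMap k[X] T f from rfl, ha', mul_comm, map_mul,
      ← Matrix.mulVec_mulVec, h, Matrix.mulVec_zero]
  rw [← Polynomial.aeval_algHom_apply, hψ] at hfp
  have hs : ∀ g : k[X], Polynomial.aeval (Matrix.scalar (Fin n) (Polynomial.X : k[X])) g =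
      Matrix.scalar (Fin n) g := fun g => by
    induction g using Polynomial.induction_on with
    | C a => ext i j; by_cases h : i = j <;> simp [Matrix.scalar, Matrix.algebraMap_matrix_apply, h]
    | add f g hf hg => rw [map_add, map_add, hf, hg]
    | monomial n a ih =>
      rw [pow_succ, ← mul_assoc, map_mul, ih, Polynomial.aeval_X, ← map_mul]
  funext i
  have h0 := congrFun ((hs f).symm ▸ hfp) i
  rw [Matrix.scalar_apply, Matrix.mulVec_diagonal] at h0
  exact (mul_eq_zero.mp h0).resolve_left hf0

/-- A torsion free representation of rank one over a Dedekind domain is generated freely by one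
element modulo `t - c`. -/
theorem exists_rep_generator [IsDedekindDomain T] {t : T} {r : ℕ} {b : Fin r → T}
    (hb : IsPolyBasis (k := k) t b)
    (hfin : (Polynomial.aeval t : k[X] →ₐ[k] T).toRingHom.Finite)
    (hinj : Function.Injective (Polynomial.aeval t : k[X] →ₐ[k] T)) (hn : 0 < n)
    (ψ : T →ₐ[k] Matrix (Fin n) (Fin n) k[X]) (hψ : ψ t = Matrix.scalar (Fin n) Polynomial.X)
    (hdep : ∀ m m' : Fin n → k[X], ∃ a a' : T, (a ≠ 0 ∨ a' ≠ 0) ∧ ψ a *ᵥ m = ψ a' *ᵥ m')
    (c : k) :
    ∃ m : Fin n → k[X],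
      (∀ z, ∃ (a : T) (w : Fin n → k[X]),
          z = ψ a *ᵥ m + (Polynomial.X - Polynomial.C c) • w) ∧
        ∀ (a : T) (w : Fin n → k[X]),
          ψ a *ᵥ m = (Polynomial.X - Polynomial.C c) • w → (t - algebraMap k T c) ∣ a := by
  let M := Fin n → k[X]
  let ρ : T →+* Module.End k[X] M :=
    (Matrix.toLinAlgEquiv' (R := k[X]) (n := Fin n)).toRingEquiv.toRingHom.comp ψ.toRingHom
  let : Module T M := Module.compHom M ρ
  have hsmul : ∀ (a : T) (p : M), a • p = ψ a *ᵥ p := fun a p => by
    show Matrix.toLinAlgEquiv' (ψ a) p = _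
    rw [Matrix.toLinAlgEquiv'_apply]
  have hpoly : ∀ (f : k[X]) (p : M), Polynomial.aeval t f • p = f • p := fun f p => by
    induction f using Polynomial.induction_on generalizing p with
    | C a =>
      rw [hsmul, Polynomial.aeval_C, AlgHom.commutes]
      funext i
      rw [Algebra.algebraMap_eq_smul_one, Matrix.smul_mulVec, Matrix.one_mulVec]
      exact Polynomial.smul_eq_C_mul a
    | add f g hf hg => rw [map_add, add_smul, hf, hg, add_smul]
    | monomial n a ih =>
      rw [pow_succ, ← mul_assoc, map_mul, mul_smul, Polynomial.aeval_X, ih,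
        mul_smul (Polynomial.C a * Polynomial.X ^ n) Polynomial.X p, hsmul, hψ]
      congr 1
      funext i
      simp [Matrix.scalar, Matrix.mulVec_diagonal]
      exact (smul_eq_mul _ _).symm
  classical
  have hfinM : Module.Finite T M := by
    refine ⟨Finset.univ.image fun i => (Pi.single i 1 : M), eq_top_iff.mpr fun p _ => ?_⟩
    rw [show p = ∑ i, Polynomial.aeval t (p i) • (Pi.single i 1 : M) by
      simp only [hpoly]
      funext l
      show p l = (∑ i, p i • (Pi.single i 1 : Fin n → k[X])) l
      simp [Finset.sum_apply, Pi.single_apply]]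
    exact Submodule.sum_mem _ fun i _ => Submodule.smul_mem _ _
      (Submodule.subset_span (by simp))
  have := hb.finiteDimensional_quotient c
  obtain ⟨m, h1, h2⟩ := exists_generator_mod (k := k) (T := T) (M := M)
    (fun a p h => rep_torsionFree hfin hinj ψ hψ a p (by rwa [hsmul] at h))
    (fun m m' => by simpa only [hsmul] using hdep m m')
    ⟨(Pi.single ⟨0, hn⟩ 1 : Fin n → k[X]),
      (Pi.single_ne_zero_iff.mpr one_ne_zero : (Pi.single ⟨0, hn⟩ 1 : Fin n → k[X]) ≠ 0)⟩
    (t - algebraMap k T c)
  have htc : ∀ p : M, (t - algebraMap k T c) • p = (Polynomial.X - Polynomial.C c) • p := fun p => by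
    rw [← hpoly]; simp
  refine ⟨m, fun z => ?_, fun a w h => h2 a w (by rw [hsmul, htc]; exact h)⟩
  obtain ⟨a, w, h⟩ := h1 z
  exact ⟨a, w, by rwa [hsmul, htc] at h⟩

/-- Two vectors in a representation of the same rank are dependent. -/
theorem rep_dependent {t : T} {r : ℕ} {b : Fin r → T} (hb : IsPolyBasis (k := k) t b)
    (hr : r = n) (hn : 0 < n) (ψ : T →ₐ[k] Matrix (Fin n) (Fin n) k[X])
    (hψ : ψ t = Matrix.scalar (Fin n) Polynomial.X) (m m' : Fin n → k[X]) :
    ∃ a a' : T, (a ≠ 0 ∨ a' ≠ 0) ∧ ψ a *ᵥ m = ψ a' *ᵥ m' := by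
  let f : (Fin r → k[X]) × (Fin r → k[X]) →ₗ[k[X]] (Fin n → k[X]) :=
    (Fintype.linearCombination k[X] fun j => ψ (b j) *ᵥ m).coprod
      (-(Fintype.linearCombination k[X] fun j => ψ (b j) *ᵥ m'))
  have hf : ¬ Function.Injective f := fun h => by
    have := LinearMap.finrank_le_finrank_of_injective h
    rw [Module.finrank_prod, Module.finrank_fin_fun, Module.finrank_fin_fun] at this
    omega
  rw [injective_iff_map_eq_zero] at hf
  push Not at hf
  obtain ⟨⟨g, g'⟩, h0, hne⟩ := hf
  refine ⟨∑ j, Polynomial.aeval t (g j) * b j, ∑ j, Polynomial.aeval t (g' j) * b j, ?_, ?_⟩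
  · by_contra hcon
    push Not at hcon
    refine hne (Prod.ext ?_ ?_)
    · show g = 0
      rw [← hb.coord_eq g, hcon.1, map_zero]
    · show g' = 0
      rw [← hb.coord_eq g', hcon.2, map_zero]
  · rw [rep_mulVec_eq_sum hb ψ hψ, rep_mulVec_eq_sum hb ψ hψ, hb.coord_eq, hb.coord_eq,
      ← sub_eq_zero]
    simpa [f, Fintype.linearCombination_apply, sub_eq_add_neg] using h0

end Fermat.Agent.Picard
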