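/-
Chart data: the matrix form of a triple with a frame.
-/
import Fermat.Agent.Picard.Algebra.Rep
import Fermat.Agent.Picard.Algebra.Loci
import Fermat.Agent.Picard.Algebra.Existence

set_option autoImplicit false

universe u

open scoped TensorProduct Matrix Polynomial

noncomputable section

namespace Fermat.Agent.Picard

section Reflect

variable {R : Type u} [CommRing R]

theorem reflect_finsetSum {ι : Type*} (s : Finset ι) (f : ι → R[X]) (N : ℕ) :
    Polynomial.reflect N (∑ i ∈ s, f i) = ∑ i ∈ s, Polynomial.reflect N (f i) := by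
  classical
  induction s using Finset.induction_on with
  | empty => ext; simp [Polynomial.coeff_reflect]
  | insert a s ha ih => rw [Finset.sum_insert ha, Finset.sum_insert ha, Polynomial.reflect_add, ih]

theorem natDegree_reflect_le_of_le {f : R[X]} {N : ℕ} (h : f.natDegree ≤ N) :
    (Polynomial.reflect N f).natDegree ≤ N :=
  Polynomial.natDegree_le_iff_coeff_eq_zero.mpr fun m hm => by
    rw [Polynomial.coeff_reflect,
      show Polynomial.revAt N m = m from if_neg (Nat.not_le.mpr hm)]
    exact Polynomial.coeff_eq_zero_of_natDegree_lt (by omega)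

theorem reflect_reflect_self (f : R[X]) (N : ℕ) :
    Polynomial.reflect N (Polynomial.reflect N f) = f := by
  ext i
  simp [Polynomial.coeff_reflect]

theorem reflect_mul_X_pow (f : R[X]) {N : ℕ} (M : ℕ) (h : f.natDegree ≤ N) :
    Polynomial.reflect (N + M) (f * Polynomial.X ^ M) = Polynomial.reflect N f := by
  rw [Polynomial.reflect_mul f (Polynomial.X ^ M) h (Polynomial.natDegree_X_pow_le M)]
  have : Polynomial.reflect M (Polynomial.X ^ M : R[X]) = 1 := by
    have h := Polynomial.reflect_C_mul_X_pow M M (c := (1 : R))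
    rw [map_one, one_mul, one_mul, Polynomial.revAt_le le_rfl, Nat.sub_self, pow_zero] at h
    exact h
  rw [this, mul_one]

theorem exists_natDegree_bound {ι : Type*} [Fintype ι] (p : ι → R[X]) :
    ∃ M, ∀ i, (p i).natDegree ≤ M :=
  ⟨Finset.univ.sup fun i => (p i).natDegree,
    fun i => Finset.le_sup (f := fun i => (p i).natDegree) (Finset.mem_univ i)⟩

theorem natDegree_mulVec_le {n : ℕ} {A : Matrix (Fin n) (Fin n) R[X]} {p : Fin n → R[X]}
    {N M : ℕ} (hA : ∀ i j, (A i j).natDegree ≤ N) (hp : ∀ i, (p i).natDegree ≤ M) (i : Fin n) :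
    ((A *ᵥ p) i).natDegree ≤ N + M := by
  show (∑ j, A i j * p j).natDegree ≤ N + M
  exact Polynomial.natDegree_sum_le_of_forall_le _ _ fun j _ =>
    le_trans Polynomial.natDegree_mul_le (Nat.add_le_add (hA i j) (hp j))

theorem reflect_mulVec {n : ℕ} {A : Matrix (Fin n) (Fin n) R[X]} {p : Fin n → R[X]}
    {N M : ℕ} (hA : ∀ i j, (A i j).natDegree ≤ N) (hp : ∀ i, (p i).natDegree ≤ M) :
    (fun i => Polynomial.reflect (N + M) ((A *ᵥ p) i)) =
      A.map (Polynomial.reflect N) *ᵥ fun i => Polynomial.reflect M (p i) := by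
  funext i
  simp only [Matrix.mulVec, dotProduct, Matrix.map_apply, reflect_finsetSum]
  exact Finset.sum_congr rfl fun j _ => Polynomial.reflect_mul _ _ (hA i j) (hp j)

end Reflect

namespace TwoChart

variable {k : Type u} [Field k] {X : TwoChart k}

theorem algebraMap_A_injective (X : TwoChart k) : Function.Injective (algebraMap X.A X.W) :=
  IsLocalization.injective X.W (powers_le_nonZeroDivisors_of_noZeroDivisors X.x_ne_zero)

theorem algebraMap_B_injective (X : TwoChart k) : Function.Injective (algebraMap X.B X.W) :=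
  IsLocalization.injective X.W (powers_le_nonZeroDivisors_of_noZeroDivisors X.y_ne_zero)

theorem exists_chartA_lift (X : TwoChart k) (b : X.B) :
    ∃ (N : ℕ) (a : X.A),
      algebraMap X.A X.W a = algebraMap X.A X.W X.x ^ N * algebraMap X.B X.W b := by
  obtain ⟨n, a, h⟩ := IsLocalization.Away.surj (S := X.W) X.x (algebraMap X.B X.W b)
  exact ⟨n, a, by rw [← h, mul_comm]⟩

theorem exists_chartB_lift (X : TwoChart k) (a : X.A) :
    ∃ (N : ℕ) (b : X.B),
      algebraMap X.A X.W a = algebraMap X.A X.W X.x ^ N * algebraMap X.B X.W b := by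
  obtain ⟨n, b, h⟩ := IsLocalization.Away.surj (S := X.W) X.y (algebraMap X.A X.W a)
  exact ⟨n, b, by rw [← h, mul_left_comm, ← mul_pow, X.x_mul_y, one_pow, mul_one]⟩

/-- A chart datum: the action of `A` on a free `R[x]`-module which extends to the other chart and
is normalised at the frame. -/
structure ChartDatum (X : TwoChart k) {n : ℕ} (q : Fin n → (X.A →ₐ[k] k)) (R : Type u)
    [CommRing R] [Algebra k R] where
  /-- the action of `A` -/
  φ : X.A →ₐ[k] Matrix (Fin n) (Fin n) R[X]
  map_x : φ X.x = Matrix.scalar (Fin n) Polynomial.X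
  deg : ∀ (a : X.A) (N : ℕ) (b : X.B),
    algebraMap X.A X.W a = algebraMap X.A X.W X.x ^ N * algebraMap X.B X.W b →
      ∀ i j, (φ a i j).natDegree ≤ N
  eval_q : ∀ a l j, (φ a l j).eval (algebraMap k R (q l X.x)) =
    if l = j then algebraMap k R (q l a) else 0
  eval_ε : ∀ a j, ∑ i, (φ a i j).eval (algebraMap k R (X.ε X.x)) = algebraMap k R (X.ε a)

namespace ChartDatum

variable {n : ℕ} {q : Fin n → (X.A →ₐ[k] k)}
variable {R R' : Type u} [CommRing R] [Algebra k R] [CommRing R'] [Algebra k R']
variable (D : X.ChartDatum q R)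

/-- The action of an element of the second chart, before bundling. -/
def ψFun (b : X.B) : Matrix (Fin n) (Fin n) R[X] :=
  (D.φ (X.exists_chartA_lift b).choose_spec.choose).map
    (Polynomial.reflect (X.exists_chartA_lift b).choose)

theorem ψFun_eq {a : X.A} {N : ℕ} {b : X.B}
    (h : algebraMap X.A X.W a = algebraMap X.A X.W X.x ^ N * algebraMap X.B X.W b) :
    D.ψFun b = (D.φ a).map (Polynomial.reflect N) := by
  set M := (X.exists_chartA_lift b).choose
  set a' := (X.exists_chartA_lift b).choose_spec.choose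
  have h' : algebraMap X.A X.W a' = algebraMap X.A X.W X.x ^ M * algebraMap X.B X.W b :=
    (X.exists_chartA_lift b).choose_spec.choose_spec
  have he : a * X.x ^ M = a' * X.x ^ N := X.algebraMap_A_injective (by
    rw [map_mul, map_mul, map_pow, map_pow, h, h']; ring)
  have hmul : ∀ (c : X.A) (L : ℕ) (i j : Fin n),
      D.φ (c * X.x ^ L) i j = D.φ c i j * Polynomial.X ^ L := fun c L i j => by
    rw [map_mul, map_pow, D.map_x, ← map_pow, Matrix.scalar_apply, Matrix.mul_diagonal]
  show (D.φ a').map (Polynomial.reflect M) = _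
  ext1 i j
  rw [Matrix.map_apply, Matrix.map_apply, ← reflect_mul_X_pow (D.φ a' i j) N (D.deg a' M b h' i j),
    ← hmul, ← he, hmul, Nat.add_comm, reflect_mul_X_pow _ M (D.deg a N b h i j)]

/-- The action of the second chart. -/
def ψ : X.B →ₐ[k] Matrix (Fin n) (Fin n) R[X] where
  toFun := D.ψFun
  map_one' := by
    rw [D.ψFun_eq (a := 1) (N := 0) (by simp), map_one]
    ext1 i j
    by_cases h : i = j
    · subst h
      rw [Matrix.map_apply, Matrix.one_apply_eq, ← Polynomial.C_1, Polynomial.reflect_C,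
        pow_zero, mul_one]
    · rw [Matrix.map_apply, Matrix.one_apply_ne h]
      ext m
      simp [Polynomial.coeff_reflect]
  map_mul' b b' := by
    obtain ⟨N, a, h⟩ := X.exists_chartA_lift b
    obtain ⟨N', a', h'⟩ := X.exists_chartA_lift b'
    rw [D.ψFun_eq h, D.ψFun_eq h', D.ψFun_eq (a := a * a') (N := N + N') (by
      rw [map_mul, map_mul, h, h', pow_add]; ring), map_mul]
    ext1 i j
    simp only [Matrix.map_apply, Matrix.mul_apply, reflect_finsetSum]
    exact Finset.sum_congr rfl fun l _ =>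
      Polynomial.reflect_mul _ _ (D.deg a N b h i l) (D.deg a' N' b' h' l j)
  map_zero' := by
    rw [D.ψFun_eq (a := 0) (N := 0) (by simp), map_zero]
    ext1 i j
    ext m
    simp [Polynomial.coeff_reflect]
  map_add' b b' := by
    obtain ⟨N, a, h⟩ := X.exists_chartA_lift b
    obtain ⟨N', a', h'⟩ := X.exists_chartA_lift b'
    have h1 : algebraMap X.A X.W (a * X.x ^ N') =
        algebraMap X.A X.W X.x ^ (N + N') * algebraMap X.B X.W b := by
      rw [map_mul, map_pow, h, pow_add]; ring
    have h2 : algebraMap X.A X.W (a' * X.x ^ N) =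
        algebraMap X.A X.W X.x ^ (N + N') * algebraMap X.B X.W b' := by
      rw [map_mul, map_pow, h', pow_add]; ring
    rw [D.ψFun_eq h1, D.ψFun_eq h2, D.ψFun_eq (a := a * X.x ^ N' + a' * X.x ^ N) (N := N + N')
      (by rw [map_add, map_add, h1, h2, mul_add]), map_add]
    ext1 i j
    simp [Polynomial.reflect_add]
  commutes' c := by
    rw [D.ψFun_eq (a := algebraMap k X.A c) (N := 0) (by
      rw [pow_zero, one_mul, ← IsScalarTower.algebraMap_apply, ← IsScalarTower.algebraMap_apply]),
      AlgHom.commutes]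
    ext1 i j
    by_cases h : i = j
    · subst h
      simp [Matrix.algebraMap_matrix_apply, Polynomial.algebraMap_apply]
    · ext m
      simp [Matrix.algebraMap_matrix_apply, h, Polynomial.coeff_reflect]

theorem ψ_eq {a : X.A} {N : ℕ} {b : X.B}
    (h : algebraMap X.A X.W a = algebraMap X.A X.W X.x ^ N * algebraMap X.B X.W b) :
    D.ψ b = (D.φ a).map (Polynomial.reflect N) :=
  D.ψFun_eq h

theorem ψ_y : D.ψ X.y = Matrix.scalar (Fin n) Polynomial.X := by
  rw [D.ψ_eq (a := 1) (N := 1) (by rw [map_one, pow_one, X.x_mul_y]), map_one]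
  ext1 i j
  by_cases h : i = j
  · subst h
    rw [Matrix.map_apply, Matrix.one_apply_eq, ← Polynomial.C_1, Polynomial.reflect_C]
    simp [Matrix.scalar]
  · ext m
    simp [Matrix.scalar, h, Polynomial.coeff_reflect]

/-- Change of base. -/
def map (s : R →ₐ[k] R') : X.ChartDatum q R' where
  φ := mapRep s D.φ
  map_x := by
    rw [mapRep_apply, D.map_x]
    ext i j
    by_cases h : i = j <;> simp [Matrix.scalar, h]
  deg a N b h i j := by
    rw [mapRep_apply, Matrix.map_apply]
    exact le_trans Polynomial.natDegree_map_le (D.deg a N b h i j)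
  eval_q a l j := by
    rw [mapRep_apply, Matrix.map_apply, Polynomial.eval_map, ← s.commutes]
    show Polynomial.eval₂ s.toRingHom (s.toRingHom _) _ = _
    rw [Polynomial.eval₂_at_apply, D.eval_q]
    split_ifs <;> simp
  eval_ε a j := by
    have := congrArg s (D.eval_ε a j)
    rw [map_sum, s.commutes] at this
    rw [← this]
    refine Finset.sum_congr rfl fun i _ => ?_
    rw [mapRep_apply, Matrix.map_apply, Polynomial.eval_map, ← s.commutes]
    exact Polynomial.eval₂_at_apply s.toRingHom _

theorem map_ψ (s : R →ₐ[k] R') (b : X.B) : (D.map s).ψ b = mapRep s D.ψ b := by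
  obtain ⟨N, a, h⟩ := X.exists_chartA_lift b
  rw [(D.map s).ψ_eq h, mapRep_apply, D.ψ_eq h]
  show (mapRep s D.φ a).map _ = _
  rw [mapRep_apply]
  ext i j m
  simp [Polynomial.coeff_reflect]

/-! ### The triple of a chart datum -/

/-- The first chart module. -/
abbrev modA : Type u := RepMod D.φ

/-- The second chart module. -/
abbrev modB : Type u := RepMod D.ψ

/-- The module on the overlap. -/
abbrev modW : Type u := ExtMod (X.resA R) D.modA

/-- The `i`-th frame section on the first chart. -/
def frameA (i : Fin n) : D.modA := RepMod.of (Pi.single i 1)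

/-- The restriction of the first chart to the overlap. -/
abbrev gA : D.modA →ₛₗ[X.resA R] D.modW := ExtMod.mk _

/-- The restriction of the second chart to the overlap. -/
def gBHom : D.modB →+ D.modW where
  toFun p := ∑ i, Polynomial.aeval ((1 : R) ⊗ₜ[k] algebraMap X.B X.W X.y) (p.val i) •
    D.gA (D.frameA i)
  map_zero' := by
    refine Finset.sum_eq_zero fun i _ => ?_
    rw [show (0 : D.modB).val i = 0 from rfl, map_zero, zero_smul]
  map_add' p p' := by
    rw [← Finset.sum_add_distrib]
    refine Finset.sum_congr rfl fun i _ => ?_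
    rw [← add_smul, ← map_add]
    rfl

theorem gA_eq_pow_smul_gB {N : ℕ} (p : Fin n → R[X]) (hp : ∀ i, (p i).natDegree ≤ N) :
    D.gA (RepMod.of p) = ((1 : R) ⊗ₜ[k] algebraMap X.A X.W X.x) ^ N •
      D.gBHom (RepMod.of fun i => Polynomial.reflect N (p i)) := by
  have hsum : (RepMod.of p : D.modA) =
      ∑ i, Polynomial.aeval ((1 : R) ⊗ₜ[k] X.x) (p i) • D.frameA i := by
    simp only [RepMod.aeval_smul D.map_x]
    show p = ∑ i, (p i • (Pi.single i 1 : Fin n → R[X]))
    funext l
    simp [Finset.sum_apply, Pi.single_apply]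
  rw [hsum, map_sum]
  show _ = _ • (∑ i, Polynomial.aeval ((1 : R) ⊗ₜ[k] algebraMap X.B X.W X.y)
    (Polynomial.reflect N (p i)) • D.gA (D.frameA i))
  rw [Finset.smul_sum]
  refine Finset.sum_congr rfl fun i _ => ?_
  rw [D.gA.map_smulₛₗ, smul_smul]
  congr 1
  have hx : X.resA R (Polynomial.aeval ((1 : R) ⊗ₜ[k] X.x) (p i)) =
      Polynomial.aeval ((1 : R) ⊗ₜ[k] algebraMap X.A X.W X.x) (p i) := by
    show (Algebra.TensorProduct.map (AlgHom.id R R) (IsScalarTower.toAlgHom k X.A X.W)) _ = _
    rw [← Polynomial.aeval_algHom_apply, Algebra.TensorProduct.map_tmul]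
    rfl
  rw [hx]
  let : Invertible ((1 : R) ⊗ₜ[k] algebraMap X.A X.W X.x) :=
    ⟨(1 : R) ⊗ₜ[k] algebraMap X.B X.W X.y,
      by rw [Algebra.TensorProduct.tmul_mul_tmul, mul_comm (algebraMap X.B X.W X.y), X.x_mul_y,
        one_mul, Algebra.TensorProduct.one_def],
      by rw [Algebra.TensorProduct.tmul_mul_tmul, X.x_mul_y, one_mul,
        Algebra.TensorProduct.one_def]⟩
  rw [mul_comm]
  exact (Polynomial.eval₂_reflect_mul_pow (algebraMap R (R ⊗[k] X.W))
    ((1 : R) ⊗ₜ[k] algebraMap X.A X.W X.x) N (p i) (hp i)).symm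

theorem isUnit_x_pow (N : ℕ) :
    IsUnit (((1 : R) ⊗ₜ[k] algebraMap X.A X.W X.x) ^ N) :=
  ((X.tensorUnit R X.xUnit).isUnit).pow N

theorem gB_semilinear (z : R ⊗[k] X.B) (p : D.modB) :
    D.gBHom (z • p) = X.resB R z • D.gBHom p := by
  induction z using TensorProduct.induction_on with
  | zero => rw [zero_smul, map_zero, map_zero, zero_smul]
  | add z w hz hw => rw [add_smul, map_add, hz, hw, map_add, add_smul]
  | tmul s b =>
    obtain ⟨N, a, h⟩ := X.exists_chartA_lift b
    obtain ⟨M, hM⟩ := exists_natDegree_bound p.val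
    let p' : Fin n → R[X] := fun i => Polynomial.reflect M (p.val i)
    have hp' : ∀ i, (p' i).natDegree ≤ M := fun i => natDegree_reflect_le_of_le (hM i)
    have hp : (RepMod.of fun i => Polynomial.reflect M (p' i) : D.modB) = p :=
      funext fun i => reflect_reflect_self _ _
    have h1 := D.gA_eq_pow_smul_gB (N := N + M) (((s ⊗ₜ[k] a) • (RepMod.of p' : D.modA)).val)
      fun i => by
        rw [RepMod.val_tmul_smul, Pi.smul_apply, smul_eq_mul]
        exact le_trans (Polynomial.natDegree_C_mul_le _ _) (natDegree_mulVec_le (D.deg a N b h) hp' i)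
    have h2 : (RepMod.of fun i => Polynomial.reflect (N + M)
        (((s ⊗ₜ[k] a) • (RepMod.of p' : D.modA)).val i) : D.modB) = (s ⊗ₜ[k] b) • p := by
      show (fun i => Polynomial.reflect (N + M)
        (((s ⊗ₜ[k] a) • (RepMod.of p' : D.modA)).val i)) = ((s ⊗ₜ[k] b) • p).val
      funext i
      rw [RepMod.val_tmul_smul, RepMod.val_tmul_smul, D.ψ_eq h, Pi.smul_apply, Pi.smul_apply, smul_eq_mul, smul_eq_mul,
        Polynomial.reflect_C_mul]
      congr 1
      rw [← hp]
      exact congrFun (reflect_mulVec (D.deg a N b h) hp') i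
    rw [h2, RepMod.of, RepMod.val] at h1
    apply (isUnit_x_pow (X := X) (R := R) (N + M)).smul_left_cancel.mp
    rw [← h1]
    show D.gA ((s ⊗ₜ[k] a) • (RepMod.of p' : D.modA)) = _
    rw [D.gA.map_smulₛₗ, D.gA_eq_pow_smul_gB p' hp', hp, smul_smul, smul_smul]
    congr 1
    rw [resA_tmul, resB_tmul, h]
    simp [Algebra.TensorProduct.tmul_pow, Algebra.TensorProduct.tmul_mul_tmul, pow_add]
    ring_nf

/-- The restriction of the second chart as a semilinear map. -/
def gB : D.modB →ₛₗ[X.resB R] D.modW :=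
  { D.gBHom with map_smul' := D.gB_semilinear }

/-! #### Invertibility of the modules -/

variable [IsAlgClosed k]

theorem rankX_pos (X : TwoChart k) : 0 < X.rankX := by
  rw [Points.rankX_eq_degInf]; exact Points.degInf_pos

omit [IsAlgClosed k] in
theorem exists_polyBasisA (X : TwoChart k) :
    ∃ b : Fin X.rankX → X.A, IsPolyBasis (k := k) X.x b := by
  obtain ⟨r, b, hb⟩ := exists_polyBasis X.x X.finite_x X.injective_x
  have : r = X.rankX := hb.finrank_quotient.symm
  subst this
  exact ⟨b, hb⟩

theorem dependentA {q : Fin X.rankX → (X.A →ₐ[k] k)} (D : X.ChartDatum q k)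
    (m m' : Fin X.rankX → k[X]) :
    ∃ a a' : X.A, (a ≠ 0 ∨ a' ≠ 0) ∧ D.φ a *ᵥ m = D.φ a' *ᵥ m' := by
  obtain ⟨b, hb⟩ := exists_polyBasisA X
  exact rep_dependent hb rfl (rankX_pos X) D.φ D.map_x m m'

theorem dependentB {q : Fin X.rankX → (X.A →ₐ[k] k)} (D : X.ChartDatum q k)
    (m m' : Fin X.rankX → k[X]) :
    ∃ b b' : X.B, (b ≠ 0 ∨ b' ≠ 0) ∧ D.ψ b *ᵥ m = D.ψ b' *ᵥ m' := by
  obtain ⟨M₁, h₁⟩ := exists_natDegree_bound m
  obtain ⟨M₂, h₂⟩ := exists_natDegree_bound m'
  set M := max M₁ M₂
  let p : Fin X.rankX → k[X] := fun i => Polynomial.reflect M (m i)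
  let p' : Fin X.rankX → k[X] := fun i => Polynomial.reflect M (m' i)
  have hp : ∀ i, (p i).natDegree ≤ M := fun i =>
    natDegree_reflect_le_of_le (le_trans (h₁ i) (le_max_left _ _))
  have hp' : ∀ i, (p' i).natDegree ≤ M := fun i =>
    natDegree_reflect_le_of_le (le_trans (h₂ i) (le_max_right _ _))
  obtain ⟨a, a', hne, heq⟩ := D.dependentA p p'
  obtain ⟨N, b, h⟩ := X.exists_chartB_lift a
  obtain ⟨N', b', h'⟩ := X.exists_chartB_lift a'
  have hyx : ∀ L, algebraMap X.A X.W X.x ^ L * algebraMap X.B X.W (X.y ^ L) = 1 := fun L => by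
    rw [map_pow, ← mul_pow, X.x_mul_y, one_pow]
  have hL : algebraMap X.A X.W a =
      algebraMap X.A X.W X.x ^ (N + N') * algebraMap X.B X.W (b * X.y ^ N') := by
    rw [h, pow_add, map_mul, ← mul_one (algebraMap X.A X.W X.x ^ N * _), ← hyx N']; ring
  have hL' : algebraMap X.A X.W a' =
      algebraMap X.A X.W X.x ^ (N + N') * algebraMap X.B X.W (b' * X.y ^ N) := by
    rw [h', pow_add, map_mul, ← mul_one (algebraMap X.A X.W X.x ^ N' * _), ← hyx N]; ring
  refine ⟨b * X.y ^ N', b' * X.y ^ N, ?_, ?_⟩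
  · refine hne.imp (fun ha h0 => ha (X.algebraMap_A_injective ?_))
      (fun ha h0 => ha (X.algebraMap_A_injective ?_))
    · rw [hL, h0, map_zero, mul_zero, map_zero]
    · rw [hL', h0, map_zero, mul_zero, map_zero]
  · have e1 := reflect_mulVec (D.deg a _ _ hL) hp
    have e2 := reflect_mulVec (D.deg a' _ _ hL') hp'
    simp only [p, p', reflect_reflect_self] at e1 e2
    rw [D.ψ_eq hL, D.ψ_eq hL', ← e1, ← e2]
    exact funext fun i => congrArg _ (congrFun heq i)

variable {q : Fin X.rankX → (X.A →ₐ[k] k)} (D : X.ChartDatum q R)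

theorem invertible_modA [Algebra.FiniteType k R] : Module.Invertible (R ⊗[k] X.A) D.modA := by
  obtain ⟨b, hb⟩ := exists_polyBasisA X
  exact invertible_repMod hb D.φ D.map_x fun s c =>
    exists_rep_generator hb X.finite_x X.injective_x (rankX_pos X) (D.map s).φ (D.map s).map_x
      (D.map s).dependentA c

theorem invertible_modB [Algebra.FiniteType k R] : Module.Invertible (R ⊗[k] X.B) D.modB := by
  obtain ⟨r, b, hb⟩ := exists_polyBasis X.y X.finite_y X.injective_y
  refine invertible_repMod hb D.ψ D.ψ_y fun s c => ?_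
  obtain ⟨m, h1, h2⟩ := exists_rep_generator hb X.finite_y X.injective_y (rankX_pos X) (D.map s).ψ
    (D.map s).ψ_y (D.map s).dependentB c
  simp only [D.map_ψ] at h1 h2
  exact ⟨m, h1, h2⟩

theorem injective_gA [Algebra.FiniteType k R] : Function.Injective D.gA :=
  haveI := D.invertible_modA
  (ExtMod.isScalarExtension (X.resA R)).injective (X.resA_injective R)

theorem injective_gB [Algebra.FiniteType k R] : Function.Injective D.gB := by
  rw [injective_iff_map_eq_zero]
  intro p hp
  obtain ⟨M, hM⟩ := exists_natDegree_bound p.val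
  have h := D.gA_eq_pow_smul_gB (fun i => Polynomial.reflect M (p.val i))
    fun i => natDegree_reflect_le_of_le (hM i)
  simp only [reflect_reflect_self] at h
  have h0 : D.gBHom (RepMod.of fun i => p.val i) = 0 := hp
  rw [h0, smul_zero] at h
  have h1 := D.injective_gA (h.trans (map_zero _).symm)
  funext i
  have h2 := congrArg (Polynomial.reflect M) (congrFun h1 i)
  have h3 : Polynomial.reflect M (Polynomial.reflect M (p.val i)) = p.val i :=
    reflect_reflect_self _ _
  refine h3.symm.trans (h2.trans ?_)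
  ext m
  rw [Polynomial.coeff_reflect]
  rfl

/-- The triple of a chart datum. -/
def tri [Algebra.FiniteType k R] : X.Tri R :=
  haveI := D.invertible_modA
  haveI := D.invertible_modB
  { MA := D.modA
    MB := D.modB
    MW := D.modW
    fA := D.gA
    fB := D.gB
    surjA := fun w => by
      obtain ⟨N, a, h⟩ := loc_surj_of_univ (ExtMod.isScalarExtension (X.resA R))
        ((1 : R) ⊗ₜ[k] X.x) (fun z => by
          obtain ⟨n, a, ha⟩ := exists_pow_mul_mem_range R (T := X.W) X.x z
          exact ⟨n, a, by rw [resA_tmul]; exact ha⟩) w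
      exact ⟨N, a, by rwa [resA_tmul] at h⟩
    injA := fun m hm => ⟨0, by
      rw [pow_zero, one_smul]; exact D.injective_gA (hm.trans (map_zero _).symm)⟩
    surjB := fun w => by
      obtain ⟨N, a, h⟩ := loc_surj_of_univ (ExtMod.isScalarExtension (X.resA R))
        ((1 : R) ⊗ₜ[k] X.x) (fun z => by
          obtain ⟨n, a, ha⟩ := exists_pow_mul_mem_range R (T := X.W) X.x z
          exact ⟨n, a, by rw [resA_tmul]; exact ha⟩) w
      rw [resA_tmul] at h
      obtain ⟨M, hM⟩ := exists_natDegree_bound (RepMod.val a)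
      have h1 := D.gA_eq_pow_smul_gB (RepMod.val a) hM
      refine ⟨M, ((1 : R) ⊗ₜ[k] X.y) ^ N • (RepMod.of fun i =>
        Polynomial.reflect M (RepMod.val a i) : D.modB), ?_⟩
      rw [D.gB.map_smulₛₗ, map_pow, resB_tmul]
      apply (isUnit_x_pow (X := X) (R := R) (N + M)).smul_left_cancel.mp
      have hxy : ∀ L : ℕ, ((1 : R) ⊗ₜ[k] algebraMap X.A X.W X.x) ^ L *
          ((1 : R) ⊗ₜ[k] algebraMap X.B X.W X.y) ^ L = 1 := fun L => by
        rw [← mul_pow, Algebra.TensorProduct.tmul_mul_tmul, X.x_mul_y, one_mul,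
          ← Algebra.TensorProduct.one_def, one_pow]
      rw [smul_smul, smul_smul, pow_add, mul_assoc, hxy, mul_one,
        mul_comm (_ ^ N) (_ ^ M), mul_assoc, hxy, mul_one]
      exact h.trans h1
    injB := fun m hm => ⟨0, by
      rw [pow_zero, one_smul]; exact D.injective_gB (hm.trans (map_zero _).symm)⟩ }

end ChartDatum

end TwoChart

end Fermat.Agent.Picard
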