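/-
The triple of a chart datum has a normalised frame.
-/
import Fermat.Agent.Picard.Algebra.ChartDatum

set_option autoImplicit false

universe u

open scoped TensorProduct Matrix Polynomial

noncomputable section

namespace Fermat.Agent.Picard

namespace TwoChart

variable {k : Type u} [Field k] {X : TwoChart k}
variable {R : Type u} [CommRing R] [Algebra k R]

theorem Tri.exists_fibre_equiv (L : X.Tri R) (σ : X.A →ₐ[k] k) (g : L.MA →ₛₗ[X.evalAt R σ] R)
    (hg : Function.Surjective g) :
    IsScalarExtension (X.evalAt R σ) g ∧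
      ∃ e : L.fibre σ ≃ₗ[R] R, ∀ m, e (L.toFibre σ m) = g m := by
  let f := (L.univ_toFibre σ).lift g
  have hf : Function.Surjective f := fun r => by
    obtain ⟨m, hm⟩ := hg r
    exact ⟨L.toFibre σ m, by rw [IsScalarExtension.lift_apply, hm]⟩
  have hb := Module.Invertible.bijective_of_surjective hf
  exact ⟨(L.univ_toFibre σ).of_equiv (LinearEquiv.ofBijective f hb)
      (g' := g) fun m => (IsScalarExtension.lift_apply (L.univ_toFibre σ) g m).symm,
    LinearEquiv.ofBijective f hb, fun m => IsScalarExtension.lift_apply (L.univ_toFibre σ) g m⟩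

namespace ChartDatum

variable {n : ℕ} {q : Fin n → (X.A →ₐ[k] k)} (D : X.ChartDatum q R)

/-- The value of the `l`-th coordinate at the `l`-th frame point. -/
def evalQ (l : Fin n) : D.modA →ₛₗ[X.evalAt R (q l)] R where
  toFun p := (p.val l).eval (algebraMap k R (q l X.x))
  map_add' p p' := Polynomial.eval_add
  map_smul' z p := by
    induction z using TensorProduct.induction_on with
    | zero => rw [zero_smul, map_zero, zero_smul]; exact Polynomial.eval_zero
    | add z w hz hw =>
      rw [add_smul, map_add, add_smul, ← hz, ← hw]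
      exact Polynomial.eval_add
    | tmul s a =>
      rw [RepMod.val_tmul_smul, evalAt_tmul, Pi.smul_apply, smul_eq_mul, Polynomial.eval_mul,
        Polynomial.eval_C, smul_eq_mul, Algebra.smul_def, mul_comm (algebraMap k R (q l a)) s,
        mul_assoc]
      congr 1
      simp only [Matrix.mulVec, dotProduct, Polynomial.eval_finsetSum, Polynomial.eval_mul,
        D.eval_q]
      simp

/-- The sum of the coordinates at the marked point. -/
def evalMark : D.modA →ₛₗ[X.evalAt R X.ε] R where
  toFun p := ∑ i, (p.val i).eval (algebraMap k R (X.ε X.x))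
  map_add' p p' := by
    rw [← Finset.sum_add_distrib]
    exact Finset.sum_congr rfl fun i _ => Polynomial.eval_add
  map_smul' z p := by
    induction z using TensorProduct.induction_on with
    | zero =>
      rw [zero_smul, map_zero, zero_smul]
      exact Finset.sum_eq_zero fun i _ => Polynomial.eval_zero
    | add z w hz hw =>
      rw [add_smul, map_add, add_smul, ← hz, ← hw, ← Finset.sum_add_distrib]
      exact Finset.sum_congr rfl fun i _ => Polynomial.eval_add
    | tmul s a =>
      simp only [RepMod.val_tmul_smul, evalAt_tmul, Pi.smul_apply, smul_eq_mul, Polynomial.eval_mul,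
        Polynomial.eval_C, Matrix.mulVec, dotProduct, Polynomial.eval_finsetSum]
      rw [← Finset.mul_sum, Finset.sum_comm, Algebra.smul_def, mul_comm (algebraMap k R (X.ε a)) s,
        mul_assoc]
      congr 1
      rw [Finset.mul_sum]
      exact Finset.sum_congr rfl fun j _ => by rw [← Finset.sum_mul, D.eval_ε]

theorem surjective_evalQ (l : Fin n) : Function.Surjective (D.evalQ l) := fun r =>
  ⟨RepMod.of (Pi.single l (Polynomial.C r)), by
    show ((Pi.single l (Polynomial.C r) : Fin n → R[X]) l).eval _ = r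
    rw [Pi.single_eq_same, Polynomial.eval_C]⟩

theorem surjective_evalMark (hn : 0 < n) : Function.Surjective D.evalMark := fun r =>
  ⟨RepMod.of (Pi.single ⟨0, hn⟩ (Polynomial.C r)), by
    show ∑ i, ((Pi.single ⟨0, hn⟩ (Polynomial.C r) : Fin n → R[X]) i).eval _ = r
    rw [Finset.sum_eq_single (⟨0, hn⟩ : Fin n)]
    · rw [Pi.single_eq_same, Polynomial.eval_C]
    · intro i _ hi
      rw [Pi.single_eq_of_ne hi, Polynomial.eval_zero]
    · simp⟩

/-- A constant vector on the first chart. -/
def constA (c : Fin n → R) : D.modA := RepMod.of fun i => Polynomial.C (c i)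

/-- A constant vector on the second chart. -/
def constB (c : Fin n → R) : D.modB := RepMod.of fun i => Polynomial.C (c i)

theorem gA_constA (c : Fin n → R) : D.gA (D.constA c) = D.gB (D.constB c) := by
  rw [constA, D.gA_eq_pow_smul_gB (N := 0) _ fun i => (Polynomial.natDegree_C _).le, pow_zero,
    one_smul]
  simp only [Polynomial.reflect_C, pow_zero, mul_one]
  rfl

theorem evalQ_constA (c : Fin n → R) (l : Fin n) : D.evalQ l (D.constA c) = c l :=
  Polynomial.eval_C

theorem evalMark_constA (c : Fin n → R) : D.evalMark (D.constA c) = ∑ i, c i := by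
  show ∑ i, (Polynomial.C (c i)).eval _ = _
  simp only [Polynomial.eval_C]

section Good

variable [IsAlgClosed k] {q : Fin X.rankX → (X.A →ₐ[k] k)} (D : X.ChartDatum q R)
variable [Algebra.FiniteType k R]

/-- The restriction of the first chart of the triple. -/
theorem tri_fA (m : D.tri.MA) : D.tri.fA m = D.gA m := rfl

/-- A constant vector in the triple. -/
def constTA (c : Fin X.rankX → R) : D.tri.MA := D.constA c

/-- A constant vector in the triple, second chart. -/
def constTB (c : Fin X.rankX → R) : D.tri.MB := D.constB c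

/-- The frame evaluation on the triple. -/
def evalTQ (l : Fin X.rankX) : D.tri.MA →ₛₗ[X.evalAt R (q l)] R := D.evalQ l

/-- The marked evaluation on the triple. -/
def evalTMark : D.tri.MA →ₛₗ[X.evalAt R X.ε] R := D.evalMark

theorem evalTQ_constTA (c : Fin X.rankX → R) (l : Fin X.rankX) :
    D.evalTQ l (D.constTA c) = c l := D.evalQ_constA c l

theorem evalTMark_constTA (c : Fin X.rankX → R) : D.evalTMark (D.constTA c) = ∑ i, c i :=
  D.evalMark_constA c

theorem tri_fA_constTA (c : Fin X.rankX → R) : D.tri.fA (D.constTA c) = D.tri.fB (D.constTB c) :=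
  D.gA_constA c

theorem exists_H0_const (z : D.tri.H0) : ∃ c : Fin X.rankX → R, z.1.1 = D.constTA c := by
  let za : D.modA := z.1.1
  let zb : D.modB := z.1.2
  have hz : D.gA za = D.gB zb :=
    sub_eq_zero.mp ((Tri.diff_apply D.tri z.1.1 z.1.2).symm.trans (LinearMap.mem_ker.mp z.2))
  obtain ⟨M, hM⟩ := exists_natDegree_bound (RepMod.val za)
  obtain ⟨N, hN⟩ := exists_natDegree_bound (RepMod.val zb)
  have h1 := D.gA_eq_pow_smul_gB (RepMod.val za) hM
  have h2 : D.gB (((1 : R) ⊗ₜ[k] X.y) ^ M • zb) =
      D.gB (RepMod.of fun i => Polynomial.reflect M (RepMod.val za i)) := by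
    rw [D.gB.map_smulₛₗ, map_pow, resB_tmul, ← hz]
    show _ • D.gA (RepMod.of (RepMod.val za)) = _
    rw [h1, smul_smul, ← mul_pow, Algebra.TensorProduct.tmul_mul_tmul, mul_comm (algebraMap X.B X.W X.y),
      X.x_mul_y, one_mul, ← Algebra.TensorProduct.one_def, one_pow, one_smul]
    rfl
  have h3 := D.injective_gB h2
  have h4 : ∀ i, Polynomial.reflect M (RepMod.val za i) =
      Polynomial.X ^ M * RepMod.val zb i := fun i => by
    have h5 : ((1 : R) ⊗ₜ[k] X.y) ^ M • zb = (Polynomial.X ^ M : R[X]) • zb := by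
      rw [← RepMod.aeval_smul D.ψ_y, map_pow, Polynomial.aeval_X]
    exact ((congrFun (h5.symm.trans h3) i)).symm
  refine ⟨fun i => (RepMod.val zb i).coeff 0, funext fun i => ?_⟩
  have hb : (RepMod.val zb i).natDegree ≤ 0 := by
    refine Polynomial.natDegree_le_iff_coeff_eq_zero.mpr fun m hm => ?_
    have h6 := congrArg (fun f => Polynomial.coeff f (m + M)) (h4 i)
    simp only [Polynomial.coeff_X_pow_mul] at h6
    rw [← h6]
    exact Polynomial.coeff_eq_zero_of_natDegree_lt
      (lt_of_le_of_lt (natDegree_reflect_le_of_le (hM i)) (by omega))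
  show RepMod.val za i = Polynomial.C ((RepMod.val zb i).coeff 0)
  rw [← reflect_reflect_self (RepMod.val za i) M, h4,
    Polynomial.eq_C_of_natDegree_le_zero hb, mul_comm, Polynomial.coeff_C_zero,
    Polynomial.reflect_C_mul_X_pow, Polynomial.revAt_le le_rfl, Nat.sub_self, pow_zero, mul_one]

theorem frameGood_tri : X.FrameGood q D.tri := by
  choose hq eq heq using fun l => D.tri.exists_fibre_equiv (q l) (D.evalTQ l) (D.surjective_evalQ l)
  obtain ⟨-, eε, heε⟩ :=
    D.tri.exists_fibre_equiv X.ε D.evalTMark (D.surjective_evalMark (rankX_pos X))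
  refine ⟨⟨?_, ?_⟩, ⟨?_, ?_⟩, fun i => ⟨?_, ?_⟩⟩
  · rw [injective_iff_map_eq_zero]
    intro z h₀
    let a : D.modA := z.1
    let b : D.modB := z.2
    have h : D.gA a = D.gB (((1 : R) ⊗ₜ[k] X.y) • b) :=
      sub_eq_zero.mp ((Tri.diff_apply D.tri _ _).symm.trans
        ((Tri.diff_twist_inv D.tri z.1 z.2).symm.trans h₀))
    obtain ⟨M, hM⟩ := exists_natDegree_bound (RepMod.val a)
    have h1 := D.gA_eq_pow_smul_gB (RepMod.val a) hM
    have h2 : D.gB (RepMod.of fun i => Polynomial.reflect M (RepMod.val a i)) =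
        D.gB (((1 : R) ⊗ₜ[k] X.y) ^ (M + 1) • b) := by
      rw [pow_succ, mul_smul, D.gB.map_smulₛₗ, map_pow, resB_tmul]
      show _ = _ • (D.gB (((1 : R) ⊗ₜ[k] X.y) • b))
      rw [← h]
      show _ = _ • D.gA (RepMod.of (RepMod.val a))
      rw [h1, smul_smul, ← mul_pow, Algebra.TensorProduct.tmul_mul_tmul,
        mul_comm (algebraMap X.B X.W X.y),
        X.x_mul_y, one_mul, ← Algebra.TensorProduct.one_def, one_pow, one_smul]
      rfl
    have h5 : ((1 : R) ⊗ₜ[k] X.y) ^ (M + 1) • b = (Polynomial.X ^ (M + 1) : R[X]) • b := by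
      rw [← RepMod.aeval_smul D.ψ_y, map_pow, Polynomial.aeval_X]
    have h3 : ∀ i, Polynomial.reflect M (RepMod.val a i) =
        Polynomial.X ^ (M + 1) * RepMod.val b i := fun i =>
      congrFun ((D.injective_gB h2).trans h5) i
    have hb : ∀ i, RepMod.val b i = 0 := fun i => by
      ext m
      have h6 := congrArg (fun f => Polynomial.coeff f (m + (M + 1))) (h3 i)
      simp only [Polynomial.coeff_X_pow_mul] at h6
      rw [← h6, Polynomial.coeff_zero]
      exact Polynomial.coeff_eq_zero_of_natDegree_lt
        (lt_of_le_of_lt (natDegree_reflect_le_of_le (hM i)) (by omega))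
    refine Prod.ext (funext fun i => ?_) (funext hb)
    show RepMod.val a i = 0
    rw [← reflect_reflect_self (RepMod.val a i) M, h3, hb, mul_zero]
    ext m
    simp [Polynomial.coeff_reflect]
  · intro w₀
    obtain ⟨M, b₀, hw₀⟩ := D.tri.surjB w₀
    let b : D.modB := b₀
    let w : D.modW := w₀
    have hw : ((1 : R) ⊗ₜ[k] algebraMap X.B X.W X.y) ^ M • w = D.gB b := hw₀
    let low : Fin X.rankX → R[X] := fun i =>
      Polynomial.reflect M (RepMod.val b i %ₘ Polynomial.X ^ (M + 1))
    let high : D.modB := RepMod.of fun i => RepMod.val b i /ₘ Polynomial.X ^ (M + 1)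
    have hlow : ∀ i, (RepMod.val b i %ₘ Polynomial.X ^ (M + 1)).natDegree ≤ M := fun i =>
      Polynomial.natDegree_le_iff_coeff_eq_zero.mpr fun m hm => by
        rcases subsingleton_or_nontrivial R with h | h
        · exact Subsingleton.elim _ _
        refine Polynomial.coeff_eq_zero_of_degree_lt (lt_of_lt_of_le
          (Polynomial.degree_modByMonic_lt _ (Polynomial.monic_X_pow _)) ?_)
        rw [Polynomial.degree_X_pow]
        exact_mod_cast hm
    let lowA : D.modA := RepMod.of low
    refine ⟨(lowA, -high), ?_⟩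
    refine (Tri.diff_twist_inv D.tri _ _).trans ((Tri.diff_apply D.tri _ _).trans ?_)
    show D.gA lowA - D.gB (((1 : R) ⊗ₜ[k] X.y) • -high) = w
    set lowB : D.modB := RepMod.of fun i => RepMod.val b i %ₘ Polynomial.X ^ (M + 1) with hlowB
    have h1 := D.gA_eq_pow_smul_gB low fun i => natDegree_reflect_le_of_le (hlow i)
    simp only [low, reflect_reflect_self] at h1
    have h1' : D.gA lowA = ((1 : R) ⊗ₜ[k] algebraMap X.A X.W X.x) ^ M • D.gB lowB := h1
    rw [h1']
    have hb : b = lowB + ((1 : R) ⊗ₜ[k] X.y) ^ (M + 1) • high := by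
      rw [show ((1 : R) ⊗ₜ[k] X.y) ^ (M + 1) • high = (Polynomial.X ^ (M + 1) : R[X]) • high by
        rw [← RepMod.aeval_smul D.ψ_y, map_pow, Polynomial.aeval_X]]
      funext i
      exact (Polynomial.modByMonic_add_div (RepMod.val b i) (Polynomial.X ^ (M + 1))).symm
    have hw' : w = ((1 : R) ⊗ₜ[k] algebraMap X.A X.W X.x) ^ M • D.gB b := by
      rw [← hw, smul_smul, ← mul_pow, Algebra.TensorProduct.tmul_mul_tmul, X.x_mul_y, one_mul,
        ← Algebra.TensorProduct.one_def, one_pow, one_smul]
    refine Eq.trans ?_ hw'.symm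
    rw [hb, map_add, smul_add, smul_neg, map_neg, sub_neg_eq_add, D.gB.map_smulₛₗ,
      D.gB.map_smulₛₗ, map_pow, resB_tmul, smul_smul, pow_succ, ← mul_assoc, ← mul_pow,
      Algebra.TensorProduct.tmul_mul_tmul, X.x_mul_y, one_mul, ← Algebra.TensorProduct.one_def,
      one_pow, one_mul]
  · rw [injective_iff_map_eq_zero]
    intro z hz
    obtain ⟨c, hc⟩ := D.exists_H0_const z
    have hc0 : c = 0 := funext fun l => by
      have h := congrArg (eq l) (congrFun hz l)
      rw [Pi.zero_apply, map_zero] at h
      rw [Pi.zero_apply, ← D.evalTQ_constTA c l, ← hc, ← heq]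
      exact h
    refine Subtype.ext (Prod.ext ?_ (D.injective_gB ?_))
    · rw [hc, hc0]
      exact funext fun i => Polynomial.C_0
    · have h := LinearMap.mem_ker.mp z.2
      rw [Tri.diff_apply, sub_eq_zero] at h
      show D.tri.fB z.1.2 = D.gB 0
      rw [← h, map_zero, hc, hc0]
      show D.gA (RepMod.of fun i => Polynomial.C (0 : R)) = 0
      simp only [Polynomial.C_0]
      exact map_zero D.gA
  · intro v
    let c : Fin X.rankX → R := fun l => eq l (v l)
    refine ⟨⟨(D.constTA c, D.constTB c), ?_⟩, funext fun l => (eq l).injective ?_⟩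
    · rw [LinearMap.mem_ker, Tri.diff_apply, sub_eq_zero]
      exact D.tri_fA_constTA c
    · show eq l (D.tri.toFibre (q l) (D.constTA c)) = eq l (v l)
      rw [heq, D.evalTQ_constTA]
  · rw [injective_iff_map_eq_zero]
    intro z hz
    obtain ⟨c, hc⟩ := D.exists_H0_const z
    have h0 : ∀ σ : X.A →ₐ[k] k, ∀ l, Function.update q i X.ε l = σ →
        D.tri.toFibre σ z.1.1 = 0 := by
      rintro σ l rfl
      exact congrFun hz l
    have hq0 : ∀ l, l ≠ i → c l = 0 := fun l hl => by
      rw [← D.evalTQ_constTA c l, ← hc, ← heq, h0 _ l (Function.update_of_ne hl _ _), map_zero]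
    have hc0 : c = 0 := funext fun l => by
      by_cases hl : l = i
      · have h := D.evalTMark_constTA c
        rw [Finset.sum_eq_single i (fun j _ hj => hq0 j hj) (by simp), ← hc, ← heε,
          h0 _ i (Function.update_self _ _ _), map_zero] at h
        rw [hl, ← h]
        rfl
      · exact hq0 l hl
    refine Subtype.ext (Prod.ext ?_ (D.injective_gB ?_))
    · rw [hc, hc0]
      exact funext fun i => Polynomial.C_0
    · have h := LinearMap.mem_ker.mp z.2
      rw [Tri.diff_apply, sub_eq_zero] at h
      show D.tri.fB z.1.2 = D.gB 0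
      rw [← h, map_zero, hc, hc0]
      show D.gA (RepMod.of fun i => Polynomial.C (0 : R)) = 0
      simp only [Polynomial.C_0]
      exact map_zero D.gA
  · intro v
    have key : ∀ l, ∃ g : D.tri.fibre (Function.update q i X.ε l) ≃ₗ[R] R,
        ∀ c : Fin X.rankX → R, g (D.tri.toFibre _ (D.constTA c)) =
          if l = i then ∑ j, c j else c l := by
      intro l
      by_cases hl : l = i
      · subst hl
        rw [Function.update_self]
        exact ⟨eε, fun c => by rw [heε, if_pos rfl, ← D.evalTMark_constTA c]⟩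
      · rw [Function.update_of_ne hl]
        exact ⟨eq l, fun c => by rw [heq, if_neg hl, ← D.evalTQ_constTA c l]⟩
    choose g hg using key
    let c₀ : Fin X.rankX → R := fun l => g l (v l)
    let c : Fin X.rankX → R :=
      Function.update c₀ i (c₀ i - ∑ j ∈ Finset.univ.erase i, c₀ j)
    refine ⟨⟨(D.constTA c, D.constTB c), ?_⟩, funext fun l => (g l).injective ?_⟩
    · rw [LinearMap.mem_ker, Tri.diff_apply, sub_eq_zero]
      exact D.tri_fA_constTA c
    · show g l (D.tri.toFibre _ (D.constTA c)) = c₀ l
      rw [hg]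
      split_ifs with hl
      · subst hl
        rw [← Finset.add_sum_erase _ _ (Finset.mem_univ l)]
        rw [Finset.sum_congr rfl fun j hj => Function.update_of_ne (Finset.mem_erase.mp hj).1 _ c₀]
        simp [c]
      · simp [c, hl]

theorem normalised_tri : D.tri.Normalised :=
  ⟨D.evalMark, (D.tri.exists_fibre_equiv X.ε D.evalMark
    (D.surjective_evalMark (rankX_pos X))).1⟩

end Good

end ChartDatum

end TwoChart

end Fermat.Agent.Picard
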