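/-
Classification of triples with a normalised frame by chart data.
-/
import Fermat.Agent.Picard.Algebra.ChartTri

set_option autoImplicit false

universe u

open scoped TensorProduct Matrix Polynomial

noncomputable section

namespace Fermat.Agent.Picard

/-- A semilinear map between invertible modules whose image spans is an extension of scalars. -/
theorem isScalarExtension_of_span_eq_top {S T M N : Type u} [CommRing S] [CommRing T]
    [AddCommGroup M] [Module S M] [Module.Invertible S M] [AddCommGroup N] [Module T N]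
    [Module.Invertible T N] {φ : S →+* T} (g : M →ₛₗ[φ] N)
    (hg : Submodule.span T (Set.range g) = ⊤) : IsScalarExtension φ g := by
  let f := (ExtMod.isScalarExtension φ (L := M)).lift g
  have hf : Function.Surjective f := by
    rw [← LinearMap.range_eq_top, eq_top_iff, ← hg, Submodule.span_le]
    rintro _ ⟨m, rfl⟩
    exact ⟨ExtMod.mk φ m, IsScalarExtension.lift_apply _ g m⟩
  exact (ExtMod.isScalarExtension φ).of_equiv
    (LinearEquiv.ofBijective f (Module.Invertible.bijective_of_surjective hf))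
    fun m => (IsScalarExtension.lift_apply (ExtMod.isScalarExtension φ (L := M)) g m).symm

namespace TwoChart

variable {k : Type u} [Field k] [IsAlgClosed k] {X : TwoChart k}
variable {R : Type u} [CommRing R] [Algebra k R]

theorem evalAt_aeval_x (σ : X.A →ₐ[k] k) (f : R[X]) :
    X.evalAt R σ (Polynomial.aeval ((1 : R) ⊗ₜ[k] X.x) f) = f.eval (algebraMap k R (σ X.x)) := by
  induction f using Polynomial.induction_on with
  | C a => rw [Polynomial.aeval_C, evalAt_algebraMap, Polynomial.eval_C]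
  | add f g hf hg => rw [map_add, map_add, hf, hg, Polynomial.eval_add]
  | monomial n a ih =>
    rw [pow_succ, ← mul_assoc, map_mul (Polynomial.aeval _), map_mul (X.evalAt R σ), ih]
    simp [Algebra.smul_def]

theorem aeval_map_baseHom {S : Type u} [CommRing S] [Algebra k S] (s : S →ₐ[k] R) {T : Type u}
    [CommRing T] [Algebra k T] (t : T) (f : S[X]) :
    baseHom s T (Polynomial.aeval ((1 : S) ⊗ₜ[k] t) f) =
      Polynomial.aeval ((1 : R) ⊗ₜ[k] t) (f.map s.toRingHom) := by
  induction f using Polynomial.induction_on with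
  | C a =>
    simp [Algebra.TensorProduct.algebraMap_apply]
  | add f g hf hg => rw [map_add, map_add, hf, hg, Polynomial.map_add, map_add]
  | monomial n a ih =>
    rw [pow_succ, ← mul_assoc, map_mul (Polynomial.aeval _), map_mul (baseHom s T), ih]
    simp

/-- Frame sections of a normalised triple. -/
structure FrameSections {n : ℕ} (q : Fin n → (X.A →ₐ[k] k)) (M : X.Tri R) where
  /-- the sections on the first chart -/
  e : Fin n → M.MA
  /-- the sections on the second chart -/
  f : Fin n → M.MB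
  glue : ∀ i, M.fA (e i) = M.fB (f i)
  /-- the trivialisation along the marked point -/
  g : M.MA →ₛₗ[X.evalAt R X.ε] R
  univ_g : IsScalarExtension (X.evalAt R X.ε) g
  eval_ne : ∀ i l, l ≠ i → M.toFibre (q l) (e i) = 0
  mark : ∀ i, g (e i) = 1

theorem exists_frameSections {n : ℕ} {q : Fin n → (X.A →ₐ[k] k)} {M : X.Tri R}
    (hM : X.FrameGood q M) (hn : M.Normalised) : Nonempty (FrameSections q M) := by
  obtain ⟨g, hg⟩ := hn
  let eg : M.fibre X.ε ≃ₗ[R] R := (M.univ_toFibre X.ε).equiv hg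
  have key : ∀ i, ∃ z : M.H0, (∀ l, l ≠ i → M.toFibre (q l) z.1.1 = 0) ∧ g z.1.1 = 1 := by
    intro i
    have hv : ∀ l, ∃ v : M.fibre (Function.update q i X.ε l),
        ∀ m : M.MA, M.toFibre _ m = v → (l ≠ i → M.toFibre (q l) m = 0) ∧ (l = i → g m = 1) := by
      intro l
      by_cases hl : l = i
      · subst hl
        rw [Function.update_self]
        refine ⟨eg.symm 1, fun m hm => ⟨fun h => absurd rfl h, fun _ => ?_⟩⟩
        have := congrArg eg hm
        rw [LinearEquiv.apply_symm_apply] at this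
        exact ((M.univ_toFibre X.ε).equiv_apply hg m).symm.trans this
      · rw [Function.update_of_ne hl]
        exact ⟨0, fun m hm => ⟨fun _ => hm, fun h => absurd h hl⟩⟩
    choose v hv using hv
    obtain ⟨z, hz⟩ := (hM.2.2 i).2 v
    exact ⟨z, fun l hl => (hv l _ (congrFun hz l)).1 hl, (hv i _ (congrFun hz i)).2 rfl⟩
  choose z hz0 hz1 using key
  exact ⟨{
    e := fun i => (z i).1.1
    f := fun i => (z i).1.2
    glue := fun i => sub_eq_zero.mp ((Tri.diff_apply M _ _).symm.trans (LinearMap.mem_ker.mp (z i).2))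
    g := g
    univ_g := hg
    eval_ne := hz0
    mark := hz1 }⟩

namespace FrameSections

variable {n : ℕ} {q : Fin n → (X.A →ₐ[k] k)} {M : X.Tri R} (F : FrameSections q M)

/-- The `i`-th section. -/
def sec (i : Fin n) : M.H0 :=
  ⟨(F.e i, F.f i), LinearMap.mem_ker.mpr ((Tri.diff_apply M _ _).trans (sub_eq_zero.mpr (F.glue i)))⟩

theorem toFibre_smul (σ : X.A →ₐ[k] k) (c : R) (m : M.MA) :
    M.toFibre σ (c • m) = c • M.toFibre σ m := by
  rw [← algebraMap_smul (R ⊗[k] X.A) c m, (M.toFibre σ).map_smulₛₗ, evalAt_algebraMap]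

theorem g_smul (c : R) (m : M.MA) : F.g (c • m) = c * F.g m := by
  rw [← algebraMap_smul (R ⊗[k] X.A) c m, F.g.map_smulₛₗ, evalAt_algebraMap, smul_eq_mul]

section

variable (hM : X.FrameGood q M)
include hM

theorem eq_smul_sec (z : M.H0) (i : Fin n) (h : ∀ l, l ≠ i → M.toFibre (q l) z.1.1 = 0) :
    z = F.g z.1.1 • F.sec i := by
  refine (hM.2.2 i).1 (funext fun l => ?_)
  show M.toFibre _ z.1.1 = M.toFibre _ (F.g z.1.1 • F.e i)
  rw [toFibre_smul]
  by_cases hl : l = i
  · subst hl
    rw [Function.update_self]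
    apply ((M.univ_toFibre X.ε).equiv F.univ_g).injective
    rw [map_smul, IsScalarExtension.equiv_apply, IsScalarExtension.equiv_apply, F.mark,
      smul_eq_mul, mul_one]
  · rw [Function.update_of_ne hl, h l hl, F.eval_ne i l hl, smul_zero]

theorem bijective_smul_fibre (i : Fin n) :
    Function.Bijective (LinearMap.toSpanSingleton R (M.fibre (q i)) (M.toFibre (q i) (F.e i))) := by
  refine Module.Invertible.bijective_of_surjective fun t => ?_
  obtain ⟨z, hz⟩ := hM.2.1.2 (Pi.single i t)
  have hz' : ∀ l, M.toFibre (q l) z.1.1 = (Pi.single i t : ∀ l, M.fibre (q l)) l := congrFun hz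
  have h := F.eq_smul_sec hM z i fun l hl => by rw [hz', Pi.single_eq_of_ne hl]
  refine ⟨F.g z.1.1, ?_⟩
  have h' : z.1.1 = F.g z.1.1 • F.e i := congrArg (fun w : M.H0 => w.1.1) h
  rw [LinearMap.toSpanSingleton_apply, ← toFibre_smul, ← h', hz', Pi.single_eq_same]

omit hM in
theorem toFibre_sum (c : Fin n → R) (l : Fin n) :
    M.toFibre (q l) (∑ i, c i • F.e i) = c l • M.toFibre (q l) (F.e l) := by
  rw [map_sum, Finset.sum_eq_single l]
  · exact toFibre_smul _ _ _
  · intro i _ hi
    rw [toFibre_smul, F.eval_ne i l hi.symm, smul_zero]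
  · simp

theorem exists_coeff (z : M.H0) : ∃ c : Fin n → R, z = ∑ i, c i • F.sec i := by
  choose c hc using fun i => (F.bijective_smul_fibre hM i).2 (M.toFibre (q i) z.1.1)
  refine ⟨c, hM.2.1.1 (funext fun l => ?_)⟩
  show M.toFibre (q l) z.1.1 = M.toFibre (q l) (∑ i, c i • F.sec i : M.H0).1.1
  rw [← hc l, LinearMap.toSpanSingleton_apply, Submodule.coe_sum, Prod.fst_sum]
  exact (F.toFibre_sum c l).symm

theorem coeff_eq_zero (c : Fin n → R) (h : ∑ i, c i • F.e i = 0) : c = 0 := funext fun l =>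
  (F.bijective_smul_fibre hM l).1 (by
    rw [LinearMap.toSpanSingleton_apply, ← F.toFibre_sum, h, map_zero, Pi.zero_apply, map_zero])

end

/-- The combination `∑ pᵢ(x) eᵢ`. -/
def theta : (Fin n → R[X]) →ₗ[R] M.MA :=
  ∑ i, (LinearMap.toSpanSingleton (R ⊗[k] X.A) M.MA (F.e i)).restrictScalars R ∘ₗ
    (Polynomial.aeval ((1 : R) ⊗ₜ[k] X.x)).toLinearMap ∘ₗ LinearMap.proj i

theorem theta_apply (p : Fin n → R[X]) :
    F.theta p = ∑ i, Polynomial.aeval ((1 : R) ⊗ₜ[k] X.x) (p i) • F.e i := by
  simp [theta]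

theorem theta_poly_smul (h : R[X]) (p : Fin n → R[X]) :
    F.theta (h • p) = Polynomial.aeval ((1 : R) ⊗ₜ[k] X.x) h • F.theta p := by
  rw [theta_apply, theta_apply, Finset.smul_sum]
  exact Finset.sum_congr rfl fun i _ => by rw [Pi.smul_apply, smul_eq_mul, map_mul, mul_smul]

theorem theta_const (c : Fin n → R) :
    F.theta (fun i => Polynomial.C (c i)) = ∑ i, c i • F.e i := by
  rw [theta_apply]
  exact Finset.sum_congr rfl fun i _ => by rw [Polynomial.aeval_C, algebraMap_smul]

theorem fA_aeval_smul (h : R[X]) (m : M.MA) :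
    M.fA (Polynomial.aeval ((1 : R) ⊗ₜ[k] X.x) h • m) =
      Polynomial.aeval ((1 : R) ⊗ₜ[k] algebraMap X.A X.W X.x) h • M.fA m := by
  rw [M.fA.map_smulₛₗ]
  congr 1
  show (Algebra.TensorProduct.map (AlgHom.id R R) (IsScalarTower.toAlgHom k X.A X.W)) _ = _
  rw [← Polynomial.aeval_algHom_apply, Algebra.TensorProduct.map_tmul]
  rfl

section

variable (hM : X.FrameGood q M)
include hM

theorem exists_split (a : M.MA) : ∃ (c : Fin n → R) (a₁ : M.MA),
    a = (∑ i, c i • F.e i) + ((1 : R) ⊗ₜ[k] X.x) • a₁ := by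
  obtain ⟨z, hz⟩ := hM.1.2 (((1 : R) ⊗ₜ[k] algebraMap X.B X.W X.y) • M.fA a)
  let a₁ : M.MA := z.1
  let b₁ : M.MB := z.2
  have h : M.fA a₁ - M.fB (((1 : R) ⊗ₜ[k] X.y) • b₁) =
      ((1 : R) ⊗ₜ[k] algebraMap X.B X.W X.y) • M.fA a :=
    ((Tri.diff_apply M _ _).symm.trans (Tri.diff_twist_inv M z.1 z.2).symm).trans hz
  have hmem : (a - ((1 : R) ⊗ₜ[k] X.x) • a₁, -b₁) ∈ M.H0 := by
    rw [LinearMap.mem_ker, Tri.diff_apply, map_sub, map_neg, sub_neg_eq_add]
    have h' := congrArg (((1 : R) ⊗ₜ[k] algebraMap X.A X.W X.x) • ·) h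
    simp only [smul_sub, M.fB.map_smulₛₗ, resB_tmul, smul_smul, Algebra.TensorProduct.tmul_mul_tmul,
      X.x_mul_y, one_mul, ← Algebra.TensorProduct.one_def, one_smul] at h'
    rw [M.fA.map_smulₛₗ, resA_tmul, ← h']
    abel
  obtain ⟨c, hc⟩ := F.exists_coeff hM ⟨_, hmem⟩
  refine ⟨c, a₁, ?_⟩
  have h1 := congrArg (fun w : M.H0 => w.1.1) hc
  simp only [Submodule.coe_sum, Prod.fst_sum] at h1
  rw [← sub_eq_iff_eq_add]
  exact h1

theorem exists_splitB (b : M.MB) : ∃ (c : Fin n → R) (b₁ : M.MB),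
    b = (∑ i, c i • F.f i) - ((1 : R) ⊗ₜ[k] X.y) • b₁ := by
  obtain ⟨z, hz⟩ := hM.1.2 (M.fB b)
  let a₁ : M.MA := z.1
  let b₁ : M.MB := z.2
  have h : M.fA a₁ - M.fB (((1 : R) ⊗ₜ[k] X.y) • b₁) = M.fB b :=
    ((Tri.diff_apply M _ _).symm.trans (Tri.diff_twist_inv M z.1 z.2).symm).trans hz
  have hmem : (a₁, b + ((1 : R) ⊗ₜ[k] X.y) • b₁) ∈ M.H0 := by
    rw [LinearMap.mem_ker, Tri.diff_apply, map_add, ← h]
    abel
  obtain ⟨c, hc⟩ := F.exists_coeff hM ⟨_, hmem⟩
  refine ⟨c, b₁, ?_⟩
  have h1 := congrArg (fun w : M.H0 => w.1.2) hc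
  simp only [Submodule.coe_sum, Prod.snd_sum] at h1
  rw [eq_sub_iff_add_eq]
  exact h1

theorem exists_theta_bound (N : ℕ) (a : M.MA) (b : M.MB)
    (h : ((1 : R) ⊗ₜ[k] algebraMap X.B X.W X.y) ^ N • M.fA a = M.fB b) :
    ∃ p, (∀ i, (p i).natDegree ≤ N) ∧ F.theta p = a := by
  induction N generalizing a b with
  | zero =>
    rw [pow_zero, one_smul] at h
    obtain ⟨c, hc⟩ := F.exists_coeff hM ⟨(a, b), by
      rw [LinearMap.mem_ker, Tri.diff_apply, h, sub_self]⟩
    refine ⟨fun i => Polynomial.C (c i), fun i => (Polynomial.natDegree_C _).le, ?_⟩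
    have h1 := congrArg (fun w : M.H0 => w.1.1) hc
    simp only [Submodule.coe_sum, Prod.fst_sum] at h1
    rw [theta_const]
    exact h1.symm
  | succ N ih =>
    obtain ⟨c, a₁, rfl⟩ := F.exists_split hM a
    have hv : M.fA (∑ i, c i • F.e i) = M.fB (∑ i, c i • F.f i) := by
      simp only [map_sum]
      refine Finset.sum_congr rfl fun i _ => ?_
      show M.rA (c i • F.e i) = M.rB (c i • F.f i)
      rw [map_smul, map_smul, Tri.rA_apply, Tri.rB_apply, F.glue]
    obtain ⟨p₁, hp₁, hp₁'⟩ := ih a₁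
      (b - ((1 : R) ⊗ₜ[k] X.y) ^ (N + 1) • ∑ i, c i • F.f i) (by
      rw [map_sub, M.fB.map_smulₛₗ, map_pow, resB_tmul, ← h, ← hv, map_add, smul_add,
        add_sub_cancel_left, M.fA.map_smulₛₗ, resA_tmul, smul_smul, pow_succ, mul_assoc,
        Algebra.TensorProduct.tmul_mul_tmul, mul_comm (algebraMap X.B X.W X.y), X.x_mul_y, one_mul,
        ← Algebra.TensorProduct.one_def, mul_one])
    refine ⟨(fun i => Polynomial.C (c i)) + (Polynomial.X : R[X]) • p₁, fun i => ?_, ?_⟩
    · rw [Pi.add_apply, Pi.smul_apply, smul_eq_mul]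
      refine le_trans (Polynomial.natDegree_add_le _ _) (max_le ?_ ?_)
      · rw [Polynomial.natDegree_C]; exact Nat.zero_le _
      · exact le_trans Polynomial.natDegree_mul_le
          (le_trans (Nat.add_le_add Polynomial.natDegree_X_le (hp₁ i)) (by omega))
    · rw [map_add, theta_const, theta_poly_smul, hp₁', Polynomial.aeval_X]

theorem surjective_theta : Function.Surjective F.theta := fun a => by
  obtain ⟨N, b, hb⟩ := M.surjB (M.fA a)
  obtain ⟨p, -, hp⟩ := F.exists_theta_bound hM N a b hb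
  exact ⟨p, hp⟩

theorem eq_zero_of_sum_add (c : Fin n → R) (a₁ : M.MA)
    (h : (∑ i, c i • F.e i) + ((1 : R) ⊗ₜ[k] X.x) • a₁ = 0) : c = 0 ∧ a₁ = 0 := by
  have hv : M.fA (∑ i, c i • F.e i) = M.fB (∑ i, c i • F.f i) := by
    simp only [map_sum]
    refine Finset.sum_congr rfl fun i _ => ?_
    show M.rA (c i • F.e i) = M.rB (c i • F.f i)
    rw [map_smul, map_smul, Tri.rA_apply, Tri.rB_apply, F.glue]
  have h0 : (M.twist X.xUnit⁻¹).diff (a₁, -∑ i, c i • F.f i) = 0 := by
    refine (Tri.diff_twist_inv M a₁ _).trans ((Tri.diff_apply M _ _).trans ?_)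
    rw [M.fB.map_smulₛₗ, map_neg, ← hv, eq_neg_of_add_eq_zero_left h, map_neg, M.fA.map_smulₛₗ,
      neg_neg, smul_smul, resA_tmul, resB_tmul, Algebra.TensorProduct.tmul_mul_tmul,
      mul_comm (algebraMap X.B X.W X.y), X.x_mul_y, one_mul, ← Algebra.TensorProduct.one_def,
      one_smul, sub_self]
    rfl
  have h1 := hM.1.1 (h0.trans (map_zero _).symm)
  have ha : a₁ = 0 := congrArg Prod.fst h1
  refine ⟨F.coeff_eq_zero hM c ?_, ha⟩
  rwa [ha, smul_zero, add_zero] at h

theorem injective_theta : Function.Injective F.theta := by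
  rw [injective_iff_map_eq_zero]
  intro p hp
  obtain ⟨N, hN⟩ := exists_natDegree_bound p
  induction N generalizing p with
  | zero =>
    have hC : p = fun i => Polynomial.C ((p i).coeff 0) :=
      funext fun i => Polynomial.eq_C_of_natDegree_le_zero (hN i)
    rw [hC, theta_const] at hp
    have hc := F.coeff_eq_zero hM _ hp
    funext i
    rw [congrFun hC i, congrFun hc i]
    exact Polynomial.C_0
  | succ N ih =>
    have hC : p = (fun i => Polynomial.C ((p i).coeff 0)) +
        (Polynomial.X : R[X]) • fun i => (p i).divX := funext fun i => by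
      rw [Pi.add_apply, Pi.smul_apply, smul_eq_mul, add_comm]
      exact (Polynomial.X_mul_divX_add (p i)).symm
    rw [hC, map_add, theta_const, theta_poly_smul, Polynomial.aeval_X] at hp
    obtain ⟨hc, hrest⟩ := F.eq_zero_of_sum_add hM _ _ hp
    have h1 := ih (fun i => (p i).divX) hrest fun i => by
      rw [Polynomial.natDegree_divX_eq_natDegree_tsub_one]
      have := hN i
      omega
    funext i
    rw [congrFun hC i, h1, smul_zero, add_zero, congrFun hc i]
    exact Polynomial.C_0

theorem mem_span_range_f (b : M.MB) : b ∈ Submodule.span (R ⊗[k] X.B) (Set.range F.f) := by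
  have hc : ∀ c : Fin n → R, ∑ i, c i • F.f i ∈ Submodule.span (R ⊗[k] X.B) (Set.range F.f) :=
    fun c => Submodule.sum_mem _ fun i _ => by
      rw [← algebraMap_smul (R ⊗[k] X.B) (c i) (F.f i)]
      exact Submodule.smul_mem _ _ (Submodule.subset_span ⟨i, rfl⟩)
  obtain ⟨N, a, h⟩ := M.surjA (M.fB b)
  induction N generalizing a b with
  | zero =>
    rw [pow_zero, one_smul] at h
    obtain ⟨c, hc'⟩ := F.exists_coeff hM ⟨(a, b), by
      rw [LinearMap.mem_ker, Tri.diff_apply, h, sub_self]⟩
    have h1 := congrArg (fun w : M.H0 => w.1.2) hc'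
    simp only [Submodule.coe_sum, Prod.snd_sum] at h1
    rw [show b = ∑ i, (c i • F.sec i : M.H0).1.2 from h1]
    exact hc c
  | succ N ih =>
    obtain ⟨c, b₁, rfl⟩ := F.exists_splitB hM b
    refine Submodule.sub_mem _ (hc c) (Submodule.smul_mem _ _ ?_)
    have hv : M.fA (∑ i, c i • F.e i) = M.fB (∑ i, c i • F.f i) := by
      simp only [map_sum]
      refine Finset.sum_congr rfl fun i _ => ?_
      show M.rA (c i • F.e i) = M.rB (c i • F.f i)
      rw [map_smul, map_smul, Tri.rA_apply, Tri.rB_apply, F.glue]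
    refine ih b₁ (((1 : R) ⊗ₜ[k] X.x) ^ (N + 1) • (∑ i, c i • F.e i) - a) ?_
    rw [map_sub, M.fA.map_smulₛₗ, map_pow, resA_tmul, ← h, hv, map_sub, smul_sub, sub_sub_cancel,
      M.fB.map_smulₛₗ, resB_tmul, smul_smul, pow_succ, mul_assoc,
      Algebra.TensorProduct.tmul_mul_tmul, X.x_mul_y, one_mul, ← Algebra.TensorProduct.one_def,
      mul_one]

/-- The coordinates with respect to the sections. -/
def thetaEquiv : (Fin n → R[X]) ≃ₗ[R] M.MA :=
  LinearEquiv.ofBijective F.theta ⟨F.injective_theta hM, F.surjective_theta hM⟩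

/-- The matrix of multiplication by an element of `A`. -/
def mat (a : X.A) : Matrix (Fin n) (Fin n) R[X] :=
  Matrix.of fun i j => (F.thetaEquiv hM).symm (((1 : R) ⊗ₜ[k] a) • F.e j) i

theorem theta_mat_col (a : X.A) (j : Fin n) :
    F.theta (fun i => F.mat hM a i j) = ((1 : R) ⊗ₜ[k] a) • F.e j :=
  (F.thetaEquiv hM).apply_symm_apply _

theorem theta_mat_mulVec (a : X.A) (p : Fin n → R[X]) :
    F.theta (F.mat hM a *ᵥ p) = ((1 : R) ⊗ₜ[k] a) • F.theta p := by
  have h : F.mat hM a *ᵥ p = ∑ j, p j • fun i => F.mat hM a i j := by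
    funext i
    simp [Matrix.mulVec, dotProduct, Finset.sum_apply, mul_comm]
  rw [h, map_sum, theta_apply F p, Finset.smul_sum]
  exact Finset.sum_congr rfl fun j _ => by
    rw [theta_poly_smul, theta_mat_col, smul_comm]

theorem eq_of_mulVec {P Q : Matrix (Fin n) (Fin n) R[X]}
    (h : ∀ p, F.theta (P *ᵥ p) = F.theta (Q *ᵥ p)) : P = Q := by
  refine Matrix.ext fun i j => ?_
  have := congrFun (F.injective_theta hM (h (Pi.single j 1))) i
  simpa [Matrix.mulVec_single] using this

/-- The representation of `A` on the sections. -/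
def rep : X.A →ₐ[k] Matrix (Fin n) (Fin n) R[X] where
  toFun := F.mat hM
  map_one' := F.eq_of_mulVec hM fun p => by
    rw [theta_mat_mulVec, Matrix.one_mulVec, ← Algebra.TensorProduct.one_def, one_smul]
  map_mul' a a' := F.eq_of_mulVec hM fun p => by
    rw [theta_mat_mulVec, ← Matrix.mulVec_mulVec, theta_mat_mulVec, theta_mat_mulVec, smul_smul,
      Algebra.TensorProduct.tmul_mul_tmul, one_mul]
  map_zero' := F.eq_of_mulVec hM fun p => by
    rw [theta_mat_mulVec, TensorProduct.tmul_zero, zero_smul, Matrix.zero_mulVec, map_zero]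
  map_add' a a' := F.eq_of_mulVec hM fun p => by
    rw [theta_mat_mulVec, Matrix.add_mulVec, map_add, theta_mat_mulVec, theta_mat_mulVec,
      TensorProduct.tmul_add, add_smul]
  commutes' c := F.eq_of_mulVec hM fun p => by
    rw [theta_mat_mulVec, Algebra.algebraMap_eq_smul_one (R := k) (A := Matrix _ _ R[X]),
      Matrix.smul_mulVec, Matrix.one_mulVec, ← algebraMap_smul R c p, map_smul,
      ← algebraMap_smul (R ⊗[k] X.A) (algebraMap k R c) (F.theta p)]
    congr 1
    rw [Algebra.TensorProduct.algebraMap_apply, Algebra.algebraMap_self_apply,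
      Algebra.algebraMap_eq_smul_one, Algebra.algebraMap_eq_smul_one, TensorProduct.smul_tmul]

theorem theta_rep (a : X.A) (p : Fin n → R[X]) :
    F.theta (F.rep hM a *ᵥ p) = ((1 : R) ⊗ₜ[k] a) • F.theta p :=
  F.theta_mat_mulVec hM a p

/-- The chart datum of a framed triple. -/
def datum : X.ChartDatum q R where
  φ := F.rep hM
  map_x := F.eq_of_mulVec hM fun p => by
    rw [theta_rep]
    have : Matrix.scalar (Fin n) (Polynomial.X : R[X]) *ᵥ p = (Polynomial.X : R[X]) • p := by
      funext i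
      simp [Matrix.scalar, Matrix.mulVec_diagonal]
    rw [this, theta_poly_smul, Polynomial.aeval_X]
  deg a N b h i j := by
    obtain ⟨p, hp, hp'⟩ := F.exists_theta_bound hM N (((1 : R) ⊗ₜ[k] a) • F.e j)
      (((1 : R) ⊗ₜ[k] b) • F.f j) (by
      rw [M.fA.map_smulₛₗ, M.fB.map_smulₛₗ, resA_tmul, resB_tmul, smul_smul, F.glue, h]
      congr 1
      rw [Algebra.TensorProduct.tmul_pow, Algebra.TensorProduct.tmul_mul_tmul, one_pow, one_mul,
        ← mul_assoc, ← mul_pow, mul_comm (algebraMap X.B X.W X.y), X.x_mul_y, one_pow, one_mul])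
    have := F.injective_theta hM (hp'.trans (F.theta_mat_col hM a j).symm)
    show (F.mat hM a i j).natDegree ≤ N
    rw [← congrFun this i]
    exact hp i
  eval_q a l j := by
    have h := congrArg (M.toFibre (q l)) (F.theta_mat_col hM a j)
    rw [theta_apply, map_sum, Finset.sum_eq_single l, (M.toFibre (q l)).map_smulₛₗ,
      (M.toFibre (q l)).map_smulₛₗ, evalAt_aeval_x, evalAt_tmul] at h
    · show (F.mat hM a l j).eval _ = _
      refine (F.bijective_smul_fibre hM l).1 ?_
      rw [LinearMap.toSpanSingleton_apply, LinearMap.toSpanSingleton_apply, h]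
      split_ifs with hlj
      · subst hlj
        rw [Algebra.smul_def, mul_one]
      · rw [F.eval_ne j l hlj, smul_zero, zero_smul]
    · intro i _ hi
      rw [(M.toFibre (q l)).map_smulₛₗ, F.eval_ne i l hi.symm, smul_zero]
    · simp
  eval_ε a j := by
    have h := congrArg F.g (F.theta_mat_col hM a j)
    rw [theta_apply, map_sum, F.g.map_smulₛₗ, evalAt_tmul, F.mark, smul_eq_mul, mul_one,
      Algebra.smul_def, mul_one] at h
    rw [← h]
    refine Finset.sum_congr rfl fun i _ => ?_
    rw [F.g.map_smulₛₗ, evalAt_aeval_x, F.mark, smul_eq_mul, mul_one]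
    rfl

end

end FrameSections

variable {S : Type u} [CommRing S] [Algebra k S] [Algebra.FiniteType k S]
variable {q : Fin X.rankX → (X.A →ₐ[k] k)}

theorem ChartDatum.fA_constTA_single (D : X.ChartDatum q S) (j : Fin X.rankX) :
    D.tri.fA (D.constTA (Pi.single j 1)) = D.tri.fB (D.constTB (Pi.single j 1)) :=
  D.tri_fA_constTA _

theorem ChartDatum.sum_smul_const (D : X.ChartDatum q S) (p : D.tri.MA) :
    p = ∑ i, Polynomial.aeval ((1 : S) ⊗ₜ[k] X.x) (RepMod.val (φ := D.φ) p i) •
      D.constTA (Pi.single i 1) := by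
  show (p : D.modA) = ∑ i, Polynomial.aeval ((1 : S) ⊗ₜ[k] X.x) (RepMod.val (φ := D.φ) p i) •
      (D.constA (Pi.single i 1) : D.modA)
  simp only [RepMod.aeval_smul D.map_x]
  funext l
  show RepMod.val (φ := D.φ) p l = (∑ i, RepMod.val (φ := D.φ) p i •
    (fun m => Polynomial.C ((Pi.single i (1 : S) : Fin X.rankX → S) m) : Fin X.rankX → S[X])) l
  simp [Finset.sum_apply, Pi.single_apply, apply_ite Polynomial.C]

/-- A framed triple is pulled back from the triple of any datum specialising to its own. -/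
theorem exists_pullback_of_datum {M : X.Tri R} (hM : X.FrameGood q M) (F : FrameSections q M)
    (D : X.ChartDatum q S) (s : S →ₐ[k] R) (hs : (D.map s).φ = (F.datum hM).φ) :
    Nonempty (Tri.Pullback s D.tri M) := by
  have hrep : ∀ a, mapRep s D.φ a = F.rep hM a := fun a => DFunLike.congr_fun hs a
  let mapP : (Fin X.rankX → S[X]) →+ (Fin X.rankX → R[X]) :=
    (Polynomial.mapRingHom s.toRingHom).toAddMonoidHom.compLeft _
  let gA : D.tri.MA →ₛₗ[baseHom s X.A] M.MA :=
    { toFun := fun p => F.theta (mapP (RepMod.val (φ := D.φ) p))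
      map_add' := fun p p' => by
        rw [← map_add, ← map_add]
        rfl
      map_smul' := fun z p₀ => by
        obtain ⟨p, rfl⟩ : ∃ p : D.modA, (p : D.tri.MA) = p₀ := ⟨p₀, rfl⟩
        show F.theta (mapP (RepMod.val (φ := D.φ) (z • p))) =
          baseHom s X.A z • F.theta (mapP (RepMod.val (φ := D.φ) p))
        induction z using TensorProduct.induction_on with
        | zero =>
          rw [zero_smul, map_zero, zero_smul, show RepMod.val (0 : D.modA) = 0 from rfl, map_zero,
            map_zero]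
        | add z w hz hw =>
          rw [add_smul, map_add, add_smul, ← hz, ← hw, ← map_add, ← map_add]
          rfl
        | tmul r a =>
          have hmap : mapP (RepMod.val (φ := D.φ) ((r ⊗ₜ[k] a) • p)) =
              (Polynomial.C (s r) : R[X]) •
                (F.rep hM a *ᵥ mapP (RepMod.val (φ := D.φ) p)) := by
            funext i
            show Polynomial.map s.toRingHom (((r ⊗ₜ[k] a) • p).val i) = _
            rw [RepMod.val_tmul_smul, ← hrep, mapRep_apply, Pi.smul_apply, Pi.smul_apply,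
              smul_eq_mul, smul_eq_mul, Polynomial.map_mul, Polynomial.map_C]
            congr 1
            simp only [Matrix.mulVec, dotProduct, Polynomial.map_sum, Polynomial.map_mul,
              Matrix.map_apply]
            rfl
          rw [hmap, F.theta_poly_smul, F.theta_rep, smul_smul, Polynomial.aeval_C,
            Algebra.TensorProduct.algebraMap_apply, Algebra.algebraMap_self_apply,
            Algebra.TensorProduct.tmul_mul_tmul, mul_one, one_mul, baseHom_tmul] }
  have hgA : ∀ i, gA (D.constTA (Pi.single i 1)) = F.e i := fun i => by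
    show F.theta (mapP fun m => Polynomial.C ((Pi.single i (1 : S) : Fin X.rankX → S) m)) = _
    rw [show mapP (fun m => Polynomial.C ((Pi.single i (1 : S) : Fin X.rankX → S) m)) =
      fun m => Polynomial.C ((Pi.single i (1 : R) : Fin X.rankX → R) m) from funext fun m => by
        show Polynomial.map s.toRingHom _ = _
        rw [Polynomial.map_C, Pi.single_apply, Pi.single_apply]
        congr 1
        split_ifs <;> simp, F.theta_const, Finset.sum_eq_single i]
    · rw [Pi.single_eq_same, one_smul]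
    · intro j _ hj
      rw [Pi.single_eq_of_ne hj, zero_smul]
    · simp
  have hspanA : Submodule.span (R ⊗[k] X.A) (Set.range gA) = ⊤ := by
    refine eq_top_iff.mpr fun a _ => ?_
    obtain ⟨p, rfl⟩ := F.surjective_theta hM a
    rw [F.theta_apply]
    exact Submodule.sum_mem _ fun i _ =>
      Submodule.smul_mem _ _ (Submodule.subset_span ⟨_, hgA i⟩)
  let gW : D.tri.MW →ₛₗ[baseHom s X.W] M.MW :=
    D.tri.univ_fA.liftSemi (M.fA.toAddMonoidHom.comp gA.toAddMonoidHom) fun z m => by
      show M.fA (gA (z • m)) = _ • M.fA (gA m)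
      rw [gA.map_smulₛₗ, M.fA.map_smulₛₗ, baseHom_resA]
  have hgW : ∀ m, gW (D.tri.fA m) = M.fA (gA m) := fun m =>
    D.tri.univ_fA.liftSemi_apply _ _ m
  have hspanW : Submodule.span (R ⊗[k] X.W) (Set.range gW) = ⊤ := by
    refine eq_top_iff.mpr fun w _ => ?_
    refine IsScalarExtension.induction_on M.univ_fA w (fun t m => ?_) fun x y hx hy =>
      Submodule.add_mem _ hx hy
    refine Submodule.smul_mem _ _ ?_
    have hm : m ∈ Submodule.span (R ⊗[k] X.A) (Set.range gA) := by rw [hspanA]; trivial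
    induction hm using Submodule.span_induction with
    | mem z hz =>
      obtain ⟨p, rfl⟩ := hz
      exact Submodule.subset_span ⟨D.tri.fA p, hgW p⟩
    | zero => rw [map_zero]; exact Submodule.zero_mem _
    | add x y _ _ hx hy => rw [map_add]; exact Submodule.add_mem _ hx hy
    | smul c x _ hx => rw [M.fA.map_smulₛₗ]; exact Submodule.smul_mem _ _ hx
  let gBf : D.tri.MB → M.MB := fun p =>
    ∑ i, Polynomial.aeval ((1 : R) ⊗ₜ[k] X.y) ((RepMod.val (φ := D.ψ) p i).map s.toRingHom) • F.f i
  have hfB : ∀ p, D.tri.fB p = ∑ i, Polynomial.aeval ((1 : S) ⊗ₜ[k] algebraMap X.B X.W X.y)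
      (RepMod.val (φ := D.ψ) p i) • D.tri.fA (D.constTA (Pi.single i 1)) := fun p => by
    show (∑ i, Polynomial.aeval ((1 : S) ⊗ₜ[k] algebraMap X.B X.W X.y)
      (RepMod.val (φ := D.ψ) p i) • D.gA (D.frameA i) : D.modW) =
        ∑ i, Polynomial.aeval ((1 : S) ⊗ₜ[k] algebraMap X.B X.W X.y)
          (RepMod.val (φ := D.ψ) p i) • D.gA (D.constA (Pi.single i 1))
    refine Finset.sum_congr rfl fun i _ => ?_
    congr 2
    funext m
    show (Pi.single i (1 : S[X]) : Fin X.rankX → S[X]) m = Polynomial.C _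
    rw [Pi.single_apply, Pi.single_apply]
    split_ifs <;> simp
  have hgB : ∀ p, M.fB (gBf p) = gW (D.tri.fB p) := by
    intro p
    rw [hfB, map_sum, map_sum]
    refine Finset.sum_congr rfl fun i _ => ?_
    have hf : gW (D.tri.fA (D.constTA (Pi.single i 1))) = M.fB (F.f i) := by
      rw [hgW, hgA, F.glue]
    have hy : X.resB R (Polynomial.aeval ((1 : R) ⊗ₜ[k] X.y)
        ((RepMod.val (φ := D.ψ) p i).map s.toRingHom)) = baseHom s X.W
          (Polynomial.aeval ((1 : S) ⊗ₜ[k] algebraMap X.B X.W X.y) (RepMod.val (φ := D.ψ) p i)) := by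
      rw [aeval_map_baseHom]
      show (Algebra.TensorProduct.map (AlgHom.id R R) (IsScalarTower.toAlgHom k X.B X.W)) _ = _
      rw [← Polynomial.aeval_algHom_apply, Algebra.TensorProduct.map_tmul]
      rfl
    rw [gW.map_smulₛₗ, M.fB.map_smulₛₗ, hf, hy]
  let gB : D.tri.MB →ₛₗ[baseHom s X.B] M.MB :=
    { toFun := gBf
      map_add' := fun p p' => M.fB_injective (by rw [map_add, hgB, hgB, hgB, map_add, map_add])
      map_smul' := fun z p => M.fB_injective (by
        rw [hgB, M.fB.map_smulₛₗ, hgB, D.tri.fB.map_smulₛₗ, gW.map_smulₛₗ, baseHom_resB]) }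
  have hspanB : Submodule.span (R ⊗[k] X.B) (Set.range gB) = ⊤ := by
    refine eq_top_iff.mpr fun b _ => Submodule.span_mono ?_ (F.mem_span_range_f hM b)
    rintro _ ⟨i, rfl⟩
    refine ⟨D.constTB (Pi.single i 1), M.fB_injective ?_⟩
    show M.fB (gBf _) = _
    rw [hgB, ← D.fA_constTA_single, hgW, hgA, F.glue]
  exact ⟨{ gA := gA, gB := gB, gW := gW
           commA := hgW
           commB := fun m => (hgB m).symm
           univA := isScalarExtension_of_span_eq_top gA hspanA
           univB := isScalarExtension_of_span_eq_top gB hspanB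
           univW := isScalarExtension_of_span_eq_top gW hspanW }⟩

/-- The datum of a pullback is the datum of the frame. -/
theorem datum_eq_of_pullback {M : X.Tri R} (hM : X.FrameGood q M) (F : FrameSections q M)
    (D : X.ChartDatum q S) (s : S →ₐ[k] R) (P : Tri.Pullback s D.tri M) :
    (D.map s).φ = (F.datum hM).φ := by
  let E : Fin X.rankX → D.tri.MA := fun i => D.constTA (Pi.single i 1)
  obtain ⟨huS, eS, heS⟩ := D.tri.exists_fibre_equiv X.ε D.evalTMark
    (D.surjective_evalMark (ChartDatum.rankX_pos X))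
  let g' : M.MA →ₛₗ[X.evalAt R X.ε] R :=
    P.univA.liftSemi (s.toRingHom.toAddMonoidHom.comp D.evalTMark.toAddMonoidHom) fun z m => by
      simp [evalAt_baseHom]
  have hg' : ∀ m, g' (P.gA m) = s (D.evalTMark m) := fun m =>
    P.univA.liftSemi_apply (s.toRingHom.toAddMonoidHom.comp D.evalTMark.toAddMonoidHom) _ m
  let χ : S ⊗[k] X.A →+* R := s.toRingHom.comp (X.evalAt S X.ε)
  let g₃ : D.tri.MA →ₛₗ[χ] R :=
    { toFun := fun m => s (D.evalTMark m)
      map_add' := fun a b => by simp
      map_smul' := fun z m => by simp [χ] }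
  have hu' : IsScalarExtension (X.evalAt R X.ε) g' :=
    P.univA.of_comp (χ := χ) (fun z => (evalAt_baseHom s X.ε z).symm)
      (huS.comp (χ := χ) (fun z => rfl) (IsScalarExtension.self s.toRingHom) (g₃ := g₃) fun m => rfl)
      fun m => (hg' m).symm
  have hglue : ∀ i, M.fA (P.gA (E i)) = M.fB (P.gB (D.constTB (Pi.single i 1))) := fun i => by
    rw [← P.commA, ← P.commB, D.fA_constTA_single]
  have hev : ∀ i l, l ≠ i → M.toFibre (q l) (P.gA (E i)) = 0 := by
    intro i l hl
    obtain ⟨-, el, hel⟩ := D.tri.exists_fibre_equiv (q l) (D.evalTQ l) (D.surjective_evalQ l)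
    have h0 : D.tri.toFibre (q l) (E i) = 0 := el.injective (by
      rw [hel, D.evalTQ_constTA, Pi.single_eq_of_ne hl, map_zero])
    rw [← P.fibreMap_apply, h0, map_zero]
  have hmark : ∀ i, g' (P.gA (E i)) = 1 := fun i => by
    rw [hg', D.evalTMark_constTA, Finset.sum_pi_single', if_pos (Finset.mem_univ i), map_one]
  let c : R := hu'.lift F.g 1
  have hc : ∀ m, F.g m = c * g' m := fun m => by
    rw [← hu'.lift_apply F.g m, mul_comm, ← smul_eq_mul (g' m), ← map_smul, smul_eq_mul, mul_one]
  have he : ∀ i, P.gA (E i) = c • F.e i := fun i => by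
    have h := F.eq_smul_sec hM ⟨(P.gA (E i), P.gB (D.constTB (Pi.single i 1))),
      LinearMap.mem_ker.mpr ((Tri.diff_apply M _ _).trans (sub_eq_zero.mpr (hglue i)))⟩ i (hev i)
    have h' := congrArg (fun w : M.H0 => w.1.1) h
    rw [show c = F.g (P.gA (E i)) by rw [hc, hmark, mul_one]]
    exact h'
  let c' : R := F.univ_g.lift g' 1
  have hc' : ∀ m, g' m = c' * F.g m := fun m => by
    rw [← F.univ_g.lift_apply g' m, mul_comm, ← smul_eq_mul (F.g m), ← map_smul, smul_eq_mul,
      mul_one]
  refine AlgHom.ext fun a => Matrix.ext fun i j => ?_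
  have h1 : P.gA (((1 : S) ⊗ₜ[k] a) • E j) = ((1 : R) ⊗ₜ[k] a) • (c • F.e j) := by
    rw [P.gA.map_smulₛₗ, baseHom_tmul, map_one, he]
  have hval : ∀ l, RepMod.val (φ := D.φ) (((1 : S) ⊗ₜ[k] a) • E j) l = D.φ a l j := by
    intro l
    show (((1 : S) ⊗ₜ[k] a) • (D.constA (Pi.single j 1) : D.modA)).val l = _
    rw [RepMod.val_tmul_smul, map_one, one_smul]
    show (D.φ a *ᵥ fun m => Polynomial.C ((Pi.single j (1 : S) : Fin X.rankX → S) m)) l = _
    simp [Matrix.mulVec, dotProduct, Pi.single_apply, apply_ite Polynomial.C]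
  have h2 : P.gA (((1 : S) ⊗ₜ[k] a) • E j) =
      c • F.theta fun l => (D.φ a l j).map s.toRingHom := by
    rw [D.sum_smul_const (((1 : S) ⊗ₜ[k] a) • E j), map_sum, F.theta_apply, Finset.smul_sum]
    refine Finset.sum_congr rfl fun l _ => ?_
    rw [hval, P.gA.map_smulₛₗ, aeval_map_baseHom, he, smul_comm]
  have hcc : c' * c = 1 := by
    have h3 := hc' (P.gA (E i))
    rw [hmark, hc, hmark, mul_one] at h3
    exact h3.symm
  have h4 : (F.theta fun l => (D.φ a l j).map s.toRingHom) = ((1 : R) ⊗ₜ[k] a) • F.e j := by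
    have h5 := congrArg (c' • ·) (h2.symm.trans h1)
    simpa only [smul_comm ((1 : R) ⊗ₜ[k] a) c (F.e j), smul_smul, hcc, one_smul] using h5
  show mapRep s D.φ a i j = F.mat hM a i j
  rw [mapRep_apply, Matrix.map_apply]
  exact congrFun (F.injective_theta hM (h4.trans (F.theta_mat_col hM a j).symm)) i

/-- Classification of normalised triples with a frame. -/
theorem exists_unique_pullback_tri (D : X.ChartDatum q S)
    (hD : ∀ E : X.ChartDatum q R, ∃! s : S →ₐ[k] R, (D.map s).φ = E.φ) {M : X.Tri R}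
    (hM : X.FrameGood q M) (hn : M.Normalised) :
    ∃! s : S →ₐ[k] R, Nonempty (Tri.Pullback s D.tri M) := by
  obtain ⟨F⟩ := exists_frameSections hM hn
  obtain ⟨s, hs, huniq⟩ := hD (F.datum hM)
  exact ⟨s, exists_pullback_of_datum hM F D s hs,
    fun s' ⟨P⟩ => huniq s' (datum_eq_of_pullback hM F D s' P)⟩

end TwoChart

end Fermat.Agent.Picard
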