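/-
The Euler characteristic of a translated triple.
-/
import Fermat.Agent.Picard.Algebra.Existence
import Fermat.Agent.Picard.Points.Exist
import Mathlib.FieldTheory.IsAlgClosed.AlgebraicClosure

set_option autoImplicit false

universe u

open scoped TensorProduct

noncomputable section

namespace Fermat.Agent.Picard.TwoChart

open Points

variable {k : Type u} [Field k] [IsAlgClosed k] {X : TwoChart k} (i : X.ChartIndex)

/-- The degree of the translation. -/
def ChartIndex.shiftDeg : ℤ := i.m * degInf X - i.P.length

/-- Translating adds the degree of the translation to the Euler characteristic. -/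
theorem ChartIndex.index_shift {K : Type u} [Field K] [Algebra k K] [IsAlgClosed K]
    (L : X.Tri K) : (i.shift L).diff.index = L.diff.index + i.shiftDeg := by
  obtain ⟨D, hD, N, ⟨e⟩⟩ := exists_div L
  obtain ⟨l, rfl⟩ := exists_listDiv D hD
  have hmap : (listDiv (i.P.map Sum.inl) : Div X k).map (Algebra.ofId k K) =
      listDiv (i.P.map (kPt K)) := by
    rw [listDiv_map, List.map_map]; rfl
  let eN : ((X.shiftTri i.m i.P).baseChange (Algebra.ofId k K)).Equiv
      ((listDiv (i.P.map (kPt K))).tri (listDiv_invertible _) i.m) :=
    (triBaseChange _ _ _ (by rw [hmap]; exact listDiv_invertible _) _).trans (triCongr hmap _ _ _)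
  have hmul : (listDiv l * listDiv (i.P.map (kPt K)) : Div X K) =
      listDiv (l ++ i.P.map (kPt K)) := by
    simp [listDiv]
  let eS : (i.shift L).Equiv
      ((listDiv (l ++ i.P.map (kPt K))).tri (listDiv_invertible _) (N + i.m)) :=
    ((e.tensor eN).trans (triTensorEquiv _ _ _ _ _ _)).trans (triCongr hmul _ _ _)
  show euler (i.shift L) = euler L + i.shiftDeg
  rw [euler_congr eS, euler_congr e, euler_listDiv, euler_listDiv]
  show eulerO X K (N + i.m) - _ = eulerO X K N - _ + _
  rw [eulerO_eq (N + i.m), eulerO_eq N, List.length_append, List.length_map,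
    ChartIndex.shiftDeg]
  push_cast
  ring

theorem ChartIndex.index_shift_trivial :
    (i.shift (X.trivialTri k)).diff.index = (X.trivialTri k).diff.index + i.shiftDeg :=
  i.index_shift _

variable {R : Type u} [CommRing R] [Algebra k R]

/-- On a fibre over an algebraically closed field the chart condition fixes the degree. -/
theorem ChartIndex.index_of_good_field {K : Type u} [Field K] [Algebra k K] [IsAlgClosed K]
    {L : X.Tri K} (h : i.Good L) : L.diff.index + i.shiftDeg = X.rankX := by
  rw [← i.index_shift]
  exact ((Tri.bijective_evMap_field_iff _ _).1 ((frameGood_iff i.q _).1 h).2.1).2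

/-- A triple in the chart of a translation of the right degree has degree zero. -/
theorem ChartIndex.deg0_of_good
    (hnum : (i.shift (X.trivialTri k)).diff.index = X.rankX) {L : X.Tri R} (h : i.Good L) :
    L.Deg0 := by
  intro K _ _ φ L' P
  let ψ : K →ₐ[k] AlgebraicClosure K := IsScalarTower.toAlgHom k K (AlgebraicClosure K)
  obtain ⟨χ, hχ⟩ := L'.exists_eulerFun
  have h1 := hχ K (AlgHom.id k K) _
    ((L'.pullbackBaseChange (AlgHom.id k K)))
  have hid : L'.diff.index = (L'.baseChange (AlgHom.id k K)).diff.index :=
    (Tri.index_congr ((Tri.Equiv.refl L').toPullback.equiv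
      (L'.pullbackBaseChange (AlgHom.id k K)))).symm
  have h2 := hχ (AlgebraicClosure K) ψ _ (L'.pullbackBaseChange ψ)
  have hgood : i.Good (L'.baseChange ψ) :=
    i.good_pullback (L'.pullbackBaseChange ψ) (i.good_pullback P h)
  have h3 := i.index_of_good_field hgood
  rw [i.index_shift_trivial] at hnum
  have hsub : ∀ p q : PrimeSpectrum K, p = q := fun p q => Subsingleton.elim p q
  rw [index_trivial_eq K, hid, h1,
    hsub ⟨RingHom.ker (AlgHom.id k K).toRingHom, RingHom.ker_isPrime _⟩
      ⟨RingHom.ker ψ.toRingHom, RingHom.ker_isPrime _⟩, ← h2]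
  omega

/-- A degree zero triple in a chart forces the degree of the translation. -/
theorem ChartIndex.index_of_good_deg0 [Nontrivial R] {L : X.Tri R} (hd : L.Deg0) (h : i.Good L) :
    (i.shift (X.trivialTri k)).diff.index = X.rankX := by
  obtain ⟨m, hm⟩ := Ideal.exists_maximal R
  let K := AlgebraicClosure m.ResidueField
  let φ : R →ₐ[k] K := (IsScalarTower.toAlgHom k m.ResidueField K).comp
    (IsScalarTower.toAlgHom k R m.ResidueField)
  have h1 := i.index_of_good_field (i.good_pullback (L.pullbackBaseChange φ) h)
  rw [hd K _ _ φ _ (L.pullbackBaseChange φ), index_trivial_eq K] at h1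
  rw [i.index_shift_trivial]
  exact h1

end Fermat.Agent.Picard.TwoChart
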