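/-
Triples lift along square zero extensions of the base.

Invertible modules lift along a surjection with square zero kernel (lift an idempotent matrix,
use Nakayama for invertibility); the gluing on the overlap lifts by projectivity.
-/
import Fermat.Agent.Picard.Algebra.Loci

set_option autoImplicit false

universe u

open scoped TensorProduct

noncomputable section

namespace Fermat.Agent.Picard

section SquareZero

variable {S T : Type u} [CommRing S] [CommRing T] {φ : S →+* T}
variable {M N : Type u} [AddCommGroup M] [AddCommGroup N] [Module S M] [Module T N]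
variable {g : M →ₛₗ[φ] N}

/-- An extension of scalars along a surjection is surjective. -/
theorem IsScalarExtension.surjective (hg : IsScalarExtension φ g) (hφ : Function.Surjective φ) :
    Function.Surjective g := fun n => by
  refine IsScalarExtension.induction_on hg n (fun t m => ?_) fun a b ha hb => ?_
  · obtain ⟨s, rfl⟩ := hφ t
    exact ⟨s • m, g.map_smulₛₗ s m⟩
  · obtain ⟨x, rfl⟩ := ha
    obtain ⟨y, rfl⟩ := hb
    exact ⟨x + y, map_add g x y⟩

/-- The kernel of an extension of scalars of a projective module. -/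
theorem IsScalarExtension.mem_ker_smul (hg : IsScalarExtension φ g) [Module.Projective S M] {m : M}
    (hm : g m = 0) : m ∈ RingHom.ker φ • (⊤ : Submodule S M) := by
  obtain ⟨s, hs⟩ := Module.projective_def'.mp ‹Module.Projective S M›
  have h0 : ∀ i, s m i ∈ RingHom.ker φ := fun i => by
    let l : M →ₛₗ[φ] T :=
      { toFun := fun m => φ (s m i)
        map_add' := fun a b => by simp
        map_smul' := fun r a => by simp }
    have := hg.lift_apply l m
    rw [hm, map_zero] at this
    exact RingHom.mem_ker.mpr this.symm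
  have hm' : Finsupp.linearCombination S id (s m) = m := LinearMap.congr_fun hs m
  rw [← hm', Finsupp.linearCombination_apply]
  exact Submodule.sum_mem _ fun i _ => Submodule.smul_mem_smul (h0 i) Submodule.mem_top

/-- Nakayama for a square zero ideal. -/
theorem eq_top_of_sup_sq_zero_smul {J : Ideal S} (hJ : J ^ 2 = ⊥) (p : Submodule S M)
    (h : p ⊔ J • ⊤ = ⊤) : p = ⊤ := by
  have h1 : J • (⊤ : Submodule S M) ≤ p := by
    rw [← h, Submodule.smul_sup, ← Submodule.smul_assoc, smul_eq_mul, ← pow_two, hJ,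
      Submodule.bot_smul, sup_bot_eq]
    exact Submodule.smul_le_right
  rwa [sup_eq_left.mpr h1] at h

/-- A linear map is surjective if it is so modulo a square zero ideal. -/
theorem IsScalarExtension.surjective_of_mod (hg : IsScalarExtension φ g) [Module.Projective S M]
    (hJ : RingHom.ker φ ^ 2 = ⊥) {P : Type u} [AddCommGroup P] [Module S P] (f : P →ₗ[S] M)
    (hf : ∀ m, ∃ x, g (f x) = g m) : Function.Surjective f := by
  refine LinearMap.range_eq_top.mp (eq_top_of_sup_sq_zero_smul hJ _ (eq_top_iff.mpr fun m _ => ?_))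
  obtain ⟨x, hx⟩ := hf m
  rw [← add_sub_cancel (f x) m]
  exact Submodule.add_mem_sup (LinearMap.mem_range_self f x)
    (hg.mem_ker_smul (by rw [map_sub, hx, sub_self]))

/-- Projective modules lift semilinear maps through surjective semilinear maps. -/
theorem exists_lift_semilinear (hgs : Function.Surjective g) {P : Type u} [AddCommGroup P]
    [Module S P] [Module.Projective S P] (h : P →ₛₗ[φ] N) :
    ∃ f : P →ₗ[S] M, ∀ x, g (f x) = h x := by
  let : Module S N := Module.compHom N φ
  let g' : M →ₗ[S] N := { toFun := g, map_add' := g.map_add, map_smul' := g.map_smulₛₗ }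
  let h' : P →ₗ[S] N := { toFun := h, map_add' := h.map_add, map_smul' := h.map_smulₛₗ }
  obtain ⟨f, hf⟩ := Module.projective_lifting_property g' h' hgs
  exact ⟨f, fun x => LinearMap.congr_fun hf x⟩

/-- Finite projective modules lift along a surjection with square zero kernel. -/
theorem exists_projective_lift_module (hφ : Function.Surjective φ) (hJ : RingHom.ker φ ^ 2 = ⊥)
    (N : Type u) [AddCommGroup N] [Module T N] [Module.Finite T N] [Module.Projective T N] :
    ∃ (M : Type u) (_ : AddCommGroup M) (_ : Module S M) (_ : Module.Finite S M)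
      (_ : Module.Projective S M) (g : M →ₛₗ[φ] N), IsScalarExtension φ g := by
  classical
  obtain ⟨n, f, hf⟩ := Module.Finite.exists_fin' T N
  obtain ⟨σ, hσ⟩ := Module.projective_lifting_property f LinearMap.id hf
  have hσ' : ∀ x, f (σ x) = x := fun x => LinearMap.congr_fun hσ x
  let E₀ : Matrix (Fin n) (Fin n) T := LinearMap.toMatrix' (σ ∘ₗ f)
  have hE₀ : IsIdempotentElem E₀ := by
    show LinearMap.toMatrix' _ * LinearMap.toMatrix' _ = _
    rw [← LinearMap.toMatrix'_comp]
    refine congrArg _ (LinearMap.ext fun i => ?_)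
    simp [hσ']
  have hnil : ∀ A ∈ RingHom.ker (φ.mapMatrix (m := Fin n)), IsNilpotent A := by
    intro A hA
    refine ⟨2, ?_⟩
    ext i j
    rw [pow_two, Matrix.mul_apply, Matrix.zero_apply]
    refine Finset.sum_eq_zero fun l _ => ?_
    have h : ∀ i j, A i j ∈ RingHom.ker φ := fun i j => by
      have := congrArg (fun B : Matrix (Fin n) (Fin n) T => B i j) (RingHom.mem_ker.mp hA)
      exact RingHom.mem_ker.mpr this
    have h2 : A i l * A l j ∈ RingHom.ker φ ^ 2 := by
      rw [pow_two]; exact Ideal.mul_mem_mul (h i l) (h l j)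
    rwa [hJ, Ideal.mem_bot] at h2
  obtain ⟨E, hE, hEE⟩ := exists_isIdempotentElem_eq_of_ker_isNilpotent φ.mapMatrix hnil E₀
    ⟨E₀.map (Function.surjInv hφ), by ext i j; simp [Function.surjInv_eq hφ]⟩ hE₀
  let e : (Fin n → S) →ₗ[S] (Fin n → S) := Matrix.toLin' E
  have he : ∀ x, e (e x) = e x := fun x => by
    show Matrix.toLin' E (Matrix.toLin' E x) = Matrix.toLin' E x
    rw [← LinearMap.comp_apply, ← Matrix.toLin'_mul, hE.eq]
  have hφe : ∀ x : Fin n → S, φ ∘ e x = σ (f (φ ∘ x)) := fun x => by
    funext i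
    show φ (Matrix.toLin' E x i) = σ (f (φ ∘ x)) i
    rw [Matrix.toLin'_apply, RingHom.map_mulVec]
    have : E.map φ = E₀ := hEE
    rw [this]
    exact congrFun (LinearMap.toMatrix'_mulVec (σ ∘ₗ f) (φ ∘ x)) i
  let P : Submodule S (Fin n → S) := LinearMap.range e
  let p : (Fin n → S) →ₗ[S] P := LinearMap.codRestrict P e fun x => LinearMap.mem_range_self e x
  have hp : p ∘ₗ P.subtype = LinearMap.id := LinearMap.ext fun x => Subtype.ext <| by
    obtain ⟨y, hy⟩ := x.2
    show e x.1 = x.1
    rw [← hy, he]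
  have hps : Function.Surjective p := fun x => ⟨x.1, LinearMap.congr_fun hp x⟩
  let g : P →ₛₗ[φ] N :=
    { toFun := fun x => f (φ ∘ x.1)
      map_add' := fun x y => by
        rw [← map_add]; congr 1; funext i; simp
      map_smul' := fun s x => by
        rw [← map_smul]; congr 1; funext i; simp }
  refine ⟨P, inferInstance, inferInstance, Module.Finite.of_surjective p hps,
    Module.Projective.of_split P.subtype p hp, g, ?_⟩
  intro Q _ _ h
  let l : (Fin n → T) →ₗ[T] Q := Fintype.linearCombination T fun i => h (p (Pi.single i 1))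
  have hl : ∀ x : Fin n → S, l (φ ∘ x) = h (p x) := fun x => by
    conv_rhs => rw [pi_eq_sum_univ' x]
    simp [l, Fintype.linearCombination_apply]
  refine ⟨l ∘ₗ σ, fun x => ?_, fun l' hl' => LinearMap.ext fun y => ?_⟩
  · show l (σ (f (φ ∘ x.1))) = h x
    rw [← hφe, hl]
    congr 1
    have hx := LinearMap.congr_fun hp x
    calc p (e x.1) = p x.1 := Subtype.ext (he x.1)
      _ = x := hx
  · obtain ⟨x, hx⟩ : ∃ x : Fin n → S, φ ∘ x = σ y :=
      ⟨fun i => Function.surjInv hφ (σ y i), funext fun i => Function.surjInv_eq hφ _⟩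
    have hy : g (p x) = y := by
      show f (φ ∘ e x) = y
      rw [hφe, hσ', hx, hσ']
    calc l' y = l' (g (p x)) := by rw [hy]
      _ = h (p x) := hl' _
      _ = l (φ ∘ x) := (hl x).symm
      _ = (l ∘ₗ σ) y := by rw [hx]; rfl

/-- Invertible modules lift along a surjection with square zero kernel. -/
theorem exists_invertible_lift_module (hφ : Function.Surjective φ) (hJ : RingHom.ker φ ^ 2 = ⊥)
    (N : Type u) [AddCommGroup N] [Module T N] [Module.Invertible T N] :
    ∃ (M : Type u) (_ : AddCommGroup M) (_ : Module S M) (_ : Module.Invertible S M)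
      (g : M →ₛₗ[φ] N), IsScalarExtension φ g := by
  obtain ⟨M, iM, iM', fM, pM, g, hg⟩ := exists_projective_lift_module hφ hJ N
  obtain ⟨M', iM₁, iM₁', fM', pM', g', hg'⟩ :=
    exists_projective_lift_module hφ hJ (Module.Dual T N)
  let c : N ⊗[T] Module.Dual T N ≃ₗ[T] T :=
    TensorProduct.comm T N (Module.Dual T N) ≪≫ₗ Module.Invertible.linearEquiv T N
  let t : M ⊗[S] M' →ₛₗ[φ] T :=
    { toFun := fun z => c (IsScalarExtension.tensorMap g g' z)
      map_add' := fun a b => by simp
      map_smul' := fun s z => by simp }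
  have ht : IsScalarExtension φ t := (hg.tensor hg').of_equiv c fun _ => rfl
  obtain ⟨f, hf⟩ := exists_lift_semilinear (g := φ.toSemilinearMap) hφ t
  have hfs : Function.Surjective f :=
    (IsScalarExtension.self φ).surjective_of_mod hJ f fun s => by
      obtain ⟨z, hz⟩ := ht.surjective hφ (φ s)
      exact ⟨z, (hf z).trans hz⟩
  obtain ⟨σ, hσ⟩ := Module.projective_lifting_property f LinearMap.id hfs
  have hker : ∀ z, f z = 0 → z ∈ RingHom.ker φ • (⊤ : Submodule S (M ⊗[S] M')) := fun z hz => by
    refine ht.mem_ker_smul ?_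
    rw [← hf, hz, map_zero]
  have hfi : Function.Injective f := (injective_iff_map_eq_zero f).mpr fun z hz => by
    let q : M ⊗[S] M' →ₗ[S] M ⊗[S] M' := LinearMap.id - σ ∘ₗ f
    have hq : LinearMap.range q ≤ RingHom.ker φ • ⊤ := by
      rintro _ ⟨y, rfl⟩
      refine hker _ ?_
      have := LinearMap.congr_fun hσ (f y)
      simp only [LinearMap.comp_apply, LinearMap.id_coe, id_eq] at this
      simp [q, this]
    have h1 : q z ∈ Submodule.map q (RingHom.ker φ • ⊤) := Submodule.mem_map_of_mem (hker z hz)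
    rw [Submodule.map_smul'', Submodule.map_top] at h1
    have h2 := Submodule.smul_mono (le_refl (RingHom.ker φ)) hq h1
    rw [← Submodule.smul_assoc, smul_eq_mul, ← pow_two, hJ, Submodule.bot_smul,
      Submodule.mem_bot] at h2
    simpa [q, hz] using h2
  exact ⟨M, iM, iM', Module.Invertible.left (LinearEquiv.ofBijective f ⟨hfi, hfs⟩), g, hg⟩

end SquareZero

namespace TwoChart

variable {k : Type u} [Field k] {X : TwoChart k}
variable {R R₀ : Type u} [CommRing R] [Algebra k R] [CommRing R₀] [Algebra k R₀]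

theorem baseHom_surjective (π : R →ₐ[k] R₀) (hπ : Function.Surjective π) (S : Type u) [CommRing S]
    [Algebra k S] : Function.Surjective (baseHom π S) :=
  Algebra.TensorProduct.map_surjective π (AlgHom.id k S) hπ Function.surjective_id

theorem ker_baseHom_sq (π : R →ₐ[k] R₀) (hπ : Function.Surjective π)
    (hker : RingHom.ker π.toRingHom ^ 2 = ⊥) (S : Type u) [CommRing S] [Algebra k S] :
    RingHom.ker (baseHom π S) ^ 2 = ⊥ := by
  have h : RingHom.ker (baseHom π S) = (RingHom.ker π.toRingHom).map
      (Algebra.TensorProduct.includeLeft : R →ₐ[k] R ⊗[k] S) :=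
    Algebra.TensorProduct.rTensor_ker π hπ
  rw [h, ← Ideal.map_pow, hker, Ideal.map_bot]

/-- A triple from extensions of scalars on the two charts. -/
abbrev Tri.ofExtensions (MA MB MW : Type u) [AddCommGroup MA] [AddCommGroup MB] [AddCommGroup MW]
    [Module (R ⊗[k] X.A) MA] [Module (R ⊗[k] X.B) MB] [Module (R ⊗[k] X.W) MW]
    [Module.Invertible (R ⊗[k] X.A) MA] [Module.Invertible (R ⊗[k] X.B) MB]
    [Module.Invertible (R ⊗[k] X.W) MW] (fA : MA →ₛₗ[X.resA R] MW) (fB : MB →ₛₗ[X.resB R] MW)
    (hA : IsScalarExtension (X.resA R) fA) (hB : IsScalarExtension (X.resB R) fB) : X.Tri R where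
  MA := MA
  MB := MB
  MW := MW
  fA := fA
  fB := fB
  surjA w := by
    obtain ⟨n, m, h⟩ := loc_surj_of_univ hA ((1 : R) ⊗ₜ[k] X.x) (fun z => by
      obtain ⟨n, a, ha⟩ := exists_pow_mul_mem_range R (T := X.W) X.x z
      exact ⟨n, a, by rw [resA_tmul]; exact ha⟩) w
    exact ⟨n, m, by rwa [resA_tmul] at h⟩
  injA m hm := ⟨0, by
    rw [pow_zero, one_smul]
    exact hA.injective (X.resA_injective R) (hm.trans (map_zero _).symm)⟩
  surjB w := by
    obtain ⟨n, m, h⟩ := loc_surj_of_univ hB ((1 : R) ⊗ₜ[k] X.y) (fun z => by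
      obtain ⟨n, a, ha⟩ := exists_pow_mul_mem_range R (T := X.W) X.y z
      exact ⟨n, a, by rw [resB_tmul]; exact ha⟩) w
    exact ⟨n, m, by rwa [resB_tmul] at h⟩
  injB m hm := ⟨0, by
    rw [pow_zero, one_smul]
    exact hB.injective (X.resB_injective R) (hm.trans (map_zero _).symm)⟩

/-- A triple lifts along a surjection with square zero kernel. -/
theorem Tri.exists_lift (π : R →ₐ[k] R₀) (hπ : Function.Surjective π)
    (hker : RingHom.ker π.toRingHom ^ 2 = ⊥) (L₀ : X.Tri R₀) :
    ∃ L : X.Tri R, Nonempty (Tri.Pullback π L L₀) := by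
  obtain ⟨MA, iA, iA', invA, gA, hgA⟩ := exists_invertible_lift_module
    (baseHom_surjective π hπ X.A) (ker_baseHom_sq π hπ hker X.A) L₀.MA
  obtain ⟨MB, iB, iB', invB, gB, hgB⟩ := exists_invertible_lift_module
    (baseHom_surjective π hπ X.B) (ker_baseHom_sq π hπ hker X.B) L₀.MB
  let χA : R ⊗[k] X.A →+* R₀ ⊗[k] X.W := (baseHom π X.W).comp (X.resA R)
  let χB : R ⊗[k] X.B →+* R₀ ⊗[k] X.W := (baseHom π X.W).comp (X.resB R)
  let cA : MA →ₛₗ[χA] L₀.MW :=
    { toFun := fun m => L₀.fA (gA m)
      map_add' := fun a b => by simp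
      map_smul' := fun s m => by simp [χA, baseHom_resA] }
  let cB : MB →ₛₗ[χB] L₀.MW :=
    { toFun := fun m => L₀.fB (gB m)
      map_add' := fun a b => by simp
      map_smul' := fun s m => by simp [χB, baseHom_resB] }
  have hcA : IsScalarExtension χA cA :=
    hgA.comp (fun s => baseHom_resA π s) L₀.univ_fA fun _ => rfl
  have hcB : IsScalarExtension χB cB :=
    hgB.comp (fun s => baseHom_resB π s) L₀.univ_fB fun _ => rfl
  let gW : ExtMod (X.resA R) MA →ₛₗ[baseHom π X.W] L₀.MW :=
    (ExtMod.isScalarExtension (X.resA R) (L := MA)).liftSemi cA.toAddMonoidHom fun s m => by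
      show cA (s • m) = _
      rw [cA.map_smulₛₗ]; rfl
  have hgW : IsScalarExtension (baseHom π X.W) gW :=
    (ExtMod.isScalarExtension (X.resA R) (L := MA)).of_comp (fun _ => rfl) hcA fun m =>
      (IsScalarExtension.liftSemi_apply _ cA.toAddMonoidHom _ m).symm
  let gW' : ExtMod (X.resB R) MB →ₛₗ[baseHom π X.W] L₀.MW :=
    (ExtMod.isScalarExtension (X.resB R) (L := MB)).liftSemi cB.toAddMonoidHom fun s m => by
      show cB (s • m) = _
      rw [cB.map_smulₛₗ]; rfl
  have hgW' : IsScalarExtension (baseHom π X.W) gW' :=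
    (ExtMod.isScalarExtension (X.resB R) (L := MB)).of_comp (fun _ => rfl) hcB fun m =>
      (IsScalarExtension.liftSemi_apply _ cB.toAddMonoidHom _ m).symm
  have hs := baseHom_surjective π hπ X.W
  obtain ⟨h, hh⟩ := exists_lift_semilinear (hgW.surjective hs) gW'
  have hsurj : Function.Surjective h :=
    hgW.surjective_of_mod (ker_baseHom_sq π hπ hker X.W) h fun m => by
      obtain ⟨x, hx⟩ := hgW'.surjective hs (gW m)
      exact ⟨x, (hh x).trans hx⟩
  let e : ExtMod (X.resB R) MB ≃ₗ[R ⊗[k] X.W] ExtMod (X.resA R) MA :=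
    LinearEquiv.ofBijective h (Module.Invertible.bijective_of_surjective hsurj)
  let fB : MB →ₛₗ[X.resB R] ExtMod (X.resA R) MA :=
    { toFun := fun m => e (ExtMod.mk (X.resB R) m)
      map_add' := fun a b => by simp
      map_smul' := fun s m => by simp }
  have hfB : IsScalarExtension (X.resB R) fB :=
    (ExtMod.isScalarExtension (X.resB R)).of_equiv e fun _ => rfl
  refine ⟨Tri.ofExtensions MA MB (ExtMod (X.resA R) MA) (ExtMod.mk _) fB
    (ExtMod.isScalarExtension _) hfB,
    ⟨{ gA := gA, gB := gB, gW := gW, commA := fun m => ?_, commB := fun m => ?_,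
       univA := hgA, univB := hgB, univW := hgW }⟩⟩
  · exact IsScalarExtension.liftSemi_apply _ cA.toAddMonoidHom _ m
  · show gW (h (ExtMod.mk _ m)) = _
    rw [hh]
    exact IsScalarExtension.liftSemi_apply _ cB.toAddMonoidHom _ m

/-- A lift of a normalised triple is normalised. -/
theorem Tri.Normalised.of_lift {π : R →ₐ[k] R₀} (hπ : Function.Surjective π)
    (hker : RingHom.ker π.toRingHom ^ 2 = ⊥) {L : X.Tri R} {L₀ : X.Tri R₀}
    (P : Tri.Pullback π L L₀) (h : L₀.Normalised) : L.Normalised := by
  obtain ⟨g₀, hg₀⟩ := h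
  let χ : R ⊗[k] X.A →+* R₀ := π.toRingHom.comp (X.evalε R)
  let c : L.MA →ₛₗ[χ] R₀ :=
    { toFun := fun m => g₀ (P.gA m)
      map_add' := fun a b => by simp
      map_smul' := fun s m => by simp [χ, evalε_baseHom] }
  have hc : IsScalarExtension χ c :=
    P.univA.comp (fun s => (evalε_baseHom π s).symm) hg₀ fun _ => rfl
  let F := ExtMod (X.evalε R) L.MA
  let q : F →ₛₗ[π.toRingHom] R₀ :=
    (ExtMod.isScalarExtension (X.evalε R) (L := L.MA)).liftSemi c.toAddMonoidHom fun s m => by
      show c (s • m) = _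
      rw [c.map_smulₛₗ]; rfl
  have hq : IsScalarExtension π.toRingHom q :=
    (ExtMod.isScalarExtension (X.evalε R) (L := L.MA)).of_comp (fun _ => rfl) hc fun m =>
      (IsScalarExtension.liftSemi_apply _ c.toAddMonoidHom _ m).symm
  obtain ⟨x, hx⟩ := hq.surjective hπ 1
  have hsurj : Function.Surjective (LinearMap.toSpanSingleton R F x) :=
    hq.surjective_of_mod hker _ fun m => by
      obtain ⟨r, hr⟩ := hπ (q m)
      refine ⟨r, ?_⟩
      rw [LinearMap.toSpanSingleton_apply, q.map_smulₛₗ, hx, smul_eq_mul, mul_one]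
      exact hr
  let e : R ≃ₗ[R] F :=
    LinearEquiv.ofBijective _ (Module.Invertible.bijective_of_surjective hsurj)
  let g : L.MA →ₛₗ[X.evalε R] R :=
    { toFun := fun m => e.symm (ExtMod.mk (X.evalε R) m)
      map_add' := fun a b => by simp
      map_smul' := fun s m => by simp }
  exact ⟨g, (ExtMod.isScalarExtension (X.evalε R)).of_equiv e.symm fun _ => rfl⟩

end TwoChart

end Fermat.Agent.Picard
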