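/-
A universal algebra for a chart condition is smooth.
-/
import Fermat.Agent.Picard.Algebra.Loci
import Fermat.Agent.Picard.Algebra.Lift

set_option autoImplicit false

universe u

open scoped TensorProduct

noncomputable section

namespace Fermat.Agent.Picard.TwoChart

variable {k : Type u} [Field k] {X : TwoChart k}
variable {R R₀ : Type u} [CommRing R] [Algebra k R] [CommRing R₀] [Algebra k R₀]

/-- Degree zero only depends on the reduced base. -/
theorem Tri.Deg0.of_lift {π : R →ₐ[k] R₀} (hπ : Function.Surjective π)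
    (hker : RingHom.ker π.toRingHom ^ 2 = ⊥) {L : X.Tri R} {L₀ : X.Tri R₀}
    (P : Tri.Pullback π L L₀) (h : L₀.Deg0) : L.Deg0 := by
  intro K _ _ φ L' Q
  have hle : RingHom.ker π ≤ RingHom.ker φ := fun r hr ↦ by
    have hmem : r * r ∈ RingHom.ker π.toRingHom ^ 2 := by
      rw [pow_two]
      exact Ideal.mul_mem_mul hr hr
    rw [hker, Ideal.mem_bot] at hmem
    exact mul_self_eq_zero.1 (by rw [← map_mul, hmem, map_zero])
  let φ₀ : R₀ →ₐ[k] K := AlgHom.liftOfSurjective π hπ φ hle
  have hφ : φ₀.comp π = φ := AlgHom.ext fun r ↦ AlgHom.liftOfSurjective_apply π hπ φ hle r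
  have Q₀ := (P.comp (L₀.pullbackBaseChange φ₀)).cast hφ
  exact h K inferInstance inferInstance φ₀ L'
    ((L₀.pullbackBaseChange φ₀).congrRight (Q₀.equiv Q))

variable [IsAlgClosed k]

/-- The chart condition only depends on the reduced base. -/
theorem ChartIndex.good_of_lift (i : X.ChartIndex) {π : R →ₐ[k] R₀} (hπ : Function.Surjective π)
    (hker : RingHom.ker π.toRingHom ^ 2 = ⊥) {L : X.Tri R} {L₀ : X.Tri R₀}
    (P : Tri.Pullback π L L₀) (h : i.Good L₀) : i.Good L := by
  refine (i.locus_spec L).2.2 (Set.eq_univ_of_forall fun p ↦ ?_)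
  refine (i.good_iff_range P).1 h ?_
  rw [range_comap_of_surjective _ _ hπ, PrimeSpectrum.mem_zeroLocus]
  intro r hr
  refine p.isPrime.mem_of_pow_mem 2 ?_
  have hmem : r ^ 2 ∈ RingHom.ker π.toRingHom ^ 2 := Ideal.pow_mem_pow hr 2
  rw [hker, Ideal.mem_bot] at hmem
  rw [hmem]
  exact Ideal.zero_mem _

/-- An algebra of finite type carrying a universal triple for a chart condition is smooth. -/
theorem ChartIndex.smooth_of_universal (i : X.ChartIndex) {S : Type u} [CommRing S] [Algebra k S]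
    [Algebra.FiniteType k S] (U : X.Tri S) (hn : U.Normalised) (hd : U.Deg0) (hg : i.Good U)
    (huniv : ∀ (R : Type u) [CommRing R] [Algebra k R] (L : X.Tri R),
      L.Normalised → L.Deg0 → i.Good L → ∃! φ : S →ₐ[k] R, Nonempty (Tri.Pullback φ U L)) :
    Algebra.Smooth k S := by
  have : Algebra.FormallySmooth k S := by
    refine Algebra.FormallySmooth.of_comp_surjective fun B _ _ I hI f ↦ ?_
    let π : B →ₐ[k] B ⧸ I := Ideal.Quotient.mkₐ k I
    have hπ : Function.Surjective π := Ideal.Quotient.mkₐ_surjective k I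
    have hker : RingHom.ker π.toRingHom ^ 2 = ⊥ := by
      rw [show RingHom.ker π.toRingHom = I from Ideal.mk_ker]
      exact hI
    let L₀ : X.Tri (B ⧸ I) := U.baseChange f
    have P₀ : Tri.Pullback f U L₀ := U.pullbackBaseChange f
    have hn₀ : L₀.Normalised := Tri.normalised_pullback hn P₀
    have hd₀ : L₀.Deg0 := fun K _ _ ψ L' Q ↦ hd K _ _ (ψ.comp f) L' (P₀.comp Q)
    have hg₀ : i.Good L₀ := i.good_pullback P₀ hg
    obtain ⟨L, ⟨P⟩⟩ := Tri.exists_lift π hπ hker L₀
    obtain ⟨g, ⟨Pg⟩, -⟩ := huniv B L (Tri.Normalised.of_lift hπ hker P hn₀)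
      (Tri.Deg0.of_lift hπ hker P hd₀) (i.good_of_lift hπ hker P hg₀)
    exact ⟨g, (huniv (B ⧸ I) L₀ hn₀ hd₀ hg₀).unique ⟨Pg.comp P⟩ ⟨P₀⟩⟩
  exact ⟨this, Algebra.FinitePresentation.of_finiteType.1 inferInstance⟩

end Fermat.Agent.Picard.TwoChart
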