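/-
The universal chart datum over an algebra of finite type.
-/
import Fermat.Agent.Picard.Algebra.ChartDatum

set_option autoImplicit false

universe u

open scoped TensorProduct Matrix Polynomial

noncomputable section

namespace Fermat.Agent.Picard

variable {k : Type u} [Field k] {T : Type u} [CommRing T] [Algebra k T] {n r : ℕ} {t : T}
  {b : Fin r → T}

/-- The linear map with prescribed values on a polynomial basis. -/
def polyLin (hb : IsPolyBasis (k := k) t b) {R : Type u} [CommRing R] [Algebra k R]
    (C : Fin r → Matrix (Fin n) (Fin n) R[X]) : T →ₗ[k] Matrix (Fin n) (Fin n) R[X] where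
  toFun a := ∑ j, (hb.coord a j).map (algebraMap k R) • C j
  map_add' a a' := by simp [Polynomial.map_add, add_smul, Finset.sum_add_distrib]
  map_smul' c a := by
    simp only [map_smul, Pi.smul_apply, Polynomial.map_smul, RingHom.id_apply, Finset.smul_sum]
    refine Finset.sum_congr rfl fun j _ => ?_
    rw [← smul_assoc, algebraMap_smul]

theorem polyLin_apply (hb : IsPolyBasis (k := k) t b) {R : Type u} [CommRing R] [Algebra k R]
    (C : Fin r → Matrix (Fin n) (Fin n) R[X]) (a : T) :
    polyLin hb C a = ∑ j, (hb.coord a j).map (algebraMap k R) • C j := rfl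

theorem polyLin_map (hb : IsPolyBasis (k := k) t b) {R R' : Type u} [CommRing R] [Algebra k R]
    [CommRing R'] [Algebra k R'] (s : R →ₐ[k] R') (C : Fin r → Matrix (Fin n) (Fin n) R[X]) (a : T) :
    (polyLin hb C a).map (Polynomial.map s.toRingHom) =
      polyLin hb (fun j => (C j).map (Polynomial.map s.toRingHom)) a := by
  rw [polyLin_apply, polyLin_apply]
  ext1 i l
  simp only [Matrix.map_apply, Matrix.sum_apply, Matrix.smul_apply, smul_eq_mul, Polynomial.map_sum,
    Polynomial.map_mul, Polynomial.map_map]
  refine Finset.sum_congr rfl fun j _ => ?_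
  rw [show s.toRingHom.comp (algebraMap k R) = algebraMap k R' from s.comp_algebraMap]

theorem polyLin_eq (hb : IsPolyBasis (k := k) t b) {R : Type u} [CommRing R] [Algebra k R]
    (φ : T →ₐ[k] Matrix (Fin n) (Fin n) R[X]) (hφ : φ t = Matrix.scalar (Fin n) Polynomial.X)
    (a : T) : polyLin hb (fun j => φ (b j)) a = φ a := by
  have hf : ∀ f : k[X], φ (Polynomial.aeval t f) = Matrix.scalar (Fin n) (f.map (algebraMap k R)) :=
      fun f => by
    induction f using Polynomial.induction_on with
    | C c =>
      ext i j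
      by_cases h : i = j <;>
        simp [Matrix.scalar, Matrix.algebraMap_matrix_apply, h, Polynomial.algebraMap_apply]
    | add f g hf hg => rw [map_add, map_add, hf, hg, Polynomial.map_add, map_add]
    | monomial m c ih =>
      rw [pow_succ, ← mul_assoc, map_mul, Polynomial.aeval_X, map_mul, ih, hφ, ← map_mul]
      simp only [Polynomial.map_mul, Polynomial.map_X]
  conv_rhs => rw [← hb.sum_coord a]
  rw [map_sum, polyLin_apply]
  refine Finset.sum_congr rfl fun j _ => ?_
  rw [map_mul, hf, Matrix.scalar_apply, ← Matrix.smul_eq_diagonal_mul]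

namespace TwoChart

variable {X : TwoChart k}

/-- Chart data are parametrised by an algebra of finite type. -/
theorem exists_universal_datum (X : TwoChart k) {n : ℕ} (q : Fin n → (X.A →ₐ[k] k)) :
    ∃ (S : Type u) (_ : CommRing S) (_ : Algebra k S), Algebra.FiniteType k S ∧
      ∃ D : X.ChartDatum q S, ∀ (R : Type u) [CommRing R] [Algebra k R] (E : X.ChartDatum q R),
        ∃! s : S →ₐ[k] R, (D.map s).φ = E.φ := by
  obtain ⟨r, b, hb⟩ := exists_polyBasis X.x X.finite_x X.injective_x
  choose N B hB using fun j => X.exists_chartB_lift (b j)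
  let V : Type := Σ j : Fin r, Fin n × Fin n × Fin (N j + 1)
  let P : Type u := MvPolynomial V k
  -- the point of the parameter space attached to a datum
  let pt : ∀ (R : Type u) [CommRing R] [Algebra k R], X.ChartDatum q R → P →ₐ[k] R :=
    fun R _ _ E => MvPolynomial.aeval fun v => (E.φ (b v.1) v.2.1 v.2.2.1).coeff (v.2.2.2 : ℕ)
  -- polynomials vanishing on all data
  let I : Ideal P :=
    { carrier := {p | ∀ (R : Type u) [CommRing R] [Algebra k R] (E : X.ChartDatum q R), pt R E p = 0}
      add_mem' := fun hp hq R _ _ E => by rw [map_add, hp R E, hq R E, add_zero]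
      zero_mem' := fun R _ _ E => map_zero _
      smul_mem' := fun c p hp R _ _ E => by rw [smul_eq_mul, map_mul, hp R E, mul_zero] }
  let S : Type u := P ⧸ I
  let π : P →ₐ[k] S := Ideal.Quotient.mkₐ k I
  let sE : ∀ (R : Type u) [CommRing R] [Algebra k R], X.ChartDatum q R → S →ₐ[k] R :=
    fun R _ _ E => Ideal.Quotient.liftₐ I (pt R E) fun p hp => hp R E
  have hsep : ∀ z w : S, (∀ (R : Type u) [CommRing R] [Algebra k R] (E : X.ChartDatum q R),
      sE R E z = sE R E w) → z = w := fun z w h => by
    obtain ⟨z, rfl⟩ := Ideal.Quotient.mkₐ_surjective k I z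
    obtain ⟨w, rfl⟩ := Ideal.Quotient.mkₐ_surjective k I w
    refine Ideal.Quotient.eq.mpr fun R _ _ E => ?_
    rw [map_sub, sub_eq_zero]
    exact h R E
  let C : Fin r → Matrix (Fin n) (Fin n) S[X] := fun j => Matrix.of fun i l =>
    ∑ d : Fin (N j + 1), Polynomial.monomial (d : ℕ) (π (MvPolynomial.X ⟨j, i, l, d⟩))
  have hC : ∀ (R : Type u) [CommRing R] [Algebra k R] (E : X.ChartDatum q R) (j : Fin r),
      (C j).map (Polynomial.map (sE R E).toRingHom) = E.φ (b j) := fun R _ _ E j => by
    ext1 i l
    have hdeg := E.deg (b j) (N j) (B j) (hB j) i l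
    have e : ∀ d : Fin (N j + 1), sE R E (π (MvPolynomial.X ⟨j, i, l, d⟩)) =
        (E.φ (b j) i l).coeff (d : ℕ) := fun d => MvPolynomial.aeval_X _ _
    simp only [C, Matrix.map_apply, Matrix.of_apply, Polynomial.map_sum, Polynomial.map_monomial]
    refine Eq.trans ?_ ((E.φ (b j) i l).as_sum_range' (N j + 1) (Nat.lt_succ_of_le hdeg)).symm
    rw [Finset.sum_range]
    exact Finset.sum_congr rfl fun d _ => congrArg _ (e d)
  let Φ := polyLin hb C
  have hΦ : ∀ (R : Type u) [CommRing R] [Algebra k R] (E : X.ChartDatum q R) (a : X.A),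
      (Φ a).map (Polynomial.map (sE R E).toRingHom) = E.φ a := fun R _ _ E a => by
    rw [polyLin_map hb (sE R E) C a, funext (hC R E), polyLin_eq hb E.φ E.map_x a]
  have hΦe : ∀ (R : Type u) [CommRing R] [Algebra k R] (E : X.ChartDatum q R) (a : X.A) (i l : Fin n),
      (Φ a i l).map (sE R E).toRingHom = E.φ a i l := fun R _ _ E a i l =>
    congrFun (congrFun (hΦ R E a) i) l
  have hmat : ∀ M M' : Matrix (Fin n) (Fin n) S[X],
      (∀ (R : Type u) [CommRing R] [Algebra k R] (E : X.ChartDatum q R),
        M.map (Polynomial.map (sE R E).toRingHom) = M'.map (Polynomial.map (sE R E).toRingHom)) →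
      M = M' := fun M M' h => by
    ext i l m
    refine hsep _ _ fun R _ _ E => ?_
    have := congrArg (fun p => Polynomial.coeff p m) (congrFun (congrFun (h R E) i) l)
    simpa using this
  have hscalar : ∀ (R : Type u) [CommRing R] (f : S →+* R) (p : S[X]),
      (Matrix.scalar (Fin n) p).map (Polynomial.map f) = Matrix.scalar (Fin n) (p.map f) :=
      fun R _ f p => by
    ext1 i l
    by_cases h : i = l <;> simp [Matrix.scalar, h]
  have hone : Φ 1 = 1 := hmat _ _ fun R _ _ E => by
    rw [hΦ R E, map_one, Matrix.map_one _ (Polynomial.map_zero _) (Polynomial.map_one _)]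
  have hmul : ∀ a a', Φ (a * a') = Φ a * Φ a' := fun a a' => hmat _ _ fun R _ _ E => by
    rw [hΦ R E, map_mul, ← hΦ R E a, ← hΦ R E a', ← Polynomial.coe_mapRingHom, ← Matrix.map_mul]
  let D : X.ChartDatum q S :=
    { φ := AlgHom.ofLinearMap Φ hone hmul
      map_x := hmat _ _ fun R _ _ E => by
        rw [hscalar, Polynomial.map_X]
        exact (hΦ R E X.x).trans E.map_x
      deg := fun a M β h i l => Polynomial.natDegree_le_iff_coeff_eq_zero.mpr fun m hm =>
        hsep _ _ fun R _ _ E => by
          have hd := E.deg a M β h i l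
          rw [map_zero]
          have e := congrArg (fun p => Polynomial.coeff p m) (hΦe R E a i l)
          simp only [Polynomial.coeff_map] at e
          exact e.trans (Polynomial.coeff_eq_zero_of_natDegree_lt (lt_of_le_of_lt hd hm))
      eval_q := fun a l j => hsep _ _ fun R _ _ E => by
        show sE R E ((Φ a l j).eval _) = sE R E _
        rw [apply_ite (sE R E), map_zero, AlgHom.commutes, ← E.eval_q a l j, ← hΦe R E a l j,
          Polynomial.eval_map, ← (sE R E).commutes (q l X.x)]
        exact (Polynomial.eval₂_at_apply (sE R E).toRingHom _).symm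
      eval_ε := fun a j => hsep _ _ fun R _ _ E => by
        show sE R E (∑ i, (Φ a i j).eval _) = _
        rw [map_sum, AlgHom.commutes, ← E.eval_ε a j]
        refine Finset.sum_congr rfl fun i _ => ?_
        rw [← hΦe R E a i j, Polynomial.eval_map, ← (sE R E).commutes (X.ε X.x)]
        exact (Polynomial.eval₂_at_apply (sE R E).toRingHom _).symm }
  refine ⟨S, inferInstance, inferInstance,
    Algebra.FiniteType.of_surjective π (Ideal.Quotient.mkₐ_surjective k I), D,
    fun R _ _ E => ⟨sE R E, ?_, fun s hs => ?_⟩⟩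
  · refine AlgHom.ext fun a => ?_
    show mapRep (sE R E) D.φ a = E.φ a
    rw [mapRep_apply]
    exact hΦ R E a
  · refine Ideal.Quotient.algHom_ext k (MvPolynomial.algHom_ext fun v => ?_)
    obtain ⟨j, i, l, d⟩ := v
    have h1 : (Φ (b j) i l).map s.toRingHom = E.φ (b j) i l := by
      have := DFunLike.congr_fun hs (b j)
      rw [show (D.map s).φ (b j) = mapRep s D.φ (b j) from rfl, mapRep_apply] at this
      exact congrFun (congrFun this i) l
    have hcoord : hb.coord (b j) = Pi.single j 1 := by
      conv_lhs => rw [show b j = ∑ j', Polynomial.aeval X.x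
        ((Pi.single j 1 : Fin r → k[X]) j') * b j' by
          rw [Finset.sum_eq_single j (fun j' _ h => by simp [h]) (by simp)]
          simp]
      exact hb.coord_eq _
    have hΦb : Φ (b j) i l = C j i l := by
      show polyLin hb C (b j) i l = _
      rw [polyLin_apply, hcoord, Finset.sum_eq_single j (fun j' _ h => by simp [h]) (by simp)]
      simp
    rw [hΦb] at h1
    have h2 : (C j i l).coeff (d : ℕ) = π (MvPolynomial.X ⟨j, i, l, d⟩) := by
      simp only [C, Matrix.of_apply, Polynomial.finsetSum_coeff, Polynomial.coeff_monomial]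
      rw [Finset.sum_eq_single d (fun d' _ h => if_neg fun e => h (Fin.ext e)) (by simp), if_pos rfl]
    have h3 := congrArg (fun p => Polynomial.coeff p (d : ℕ)) h1
    simp only [Polynomial.coeff_map, h2] at h3
    show s (π (MvPolynomial.X ⟨j, i, l, d⟩)) = pt R E (MvPolynomial.X ⟨j, i, l, d⟩)
    refine Eq.trans ?_ (MvPolynomial.aeval_X (R := k) (fun v : V => (E.φ (b v.1) v.2.1 v.2.2.1).coeff (v.2.2.2 : ℕ)) ⟨j, i, l, d⟩).symm
    exact h3

end TwoChart

end Fermat.Agent.Picard
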