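/-
Each chart condition is represented by a smooth algebra.
-/
import Fermat.Agent.Picard.Algebra.Classify
import Fermat.Agent.Picard.Algebra.UniversalDatum
import Fermat.Agent.Picard.Algebra.ShiftEuler
import Fermat.Agent.Picard.Algebra.SmoothChart

set_option autoImplicit false

universe u

open scoped TensorProduct

noncomputable section

namespace Fermat.Agent.Picard.TwoChart

variable {k : Type u} [Field k] {X : TwoChart k}
variable {R R' : Type u} [CommRing R] [Algebra k R] [CommRing R'] [Algebra k R']

/-- Tensor products of triples commute. -/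
def Tri.tensorComm (L M : X.Tri R) : (L.tensor M).Equiv (M.tensor L) where
  eA := TensorProduct.comm _ _ _
  eB := TensorProduct.comm _ _ _
  eW := TensorProduct.comm _ _ _
  commA z := by
    refine tensor_comm_ext (fun a b => ?_) z
    rfl
  commB z := by
    refine tensor_comm_ext (fun a b => ?_) z
    rfl

/-- Every triple over the base field is normalised. -/
theorem Tri.normalised_of_field {K : Type u} [Field K] [Algebra k K] (L : X.Tri K) :
    L.Normalised := by
  obtain ⟨e⟩ := (Module.Invertible.free_iff_linearEquiv (R := K) (M := L.fibre X.ε)).mp inferInstance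
  let g : L.MA →ₛₗ[X.evalε K] K :=
    { toFun := fun m => e (L.toFibre X.ε m)
      map_add' := fun a b => by rw [map_add, map_add]
      map_smul' := fun s m => by
        rw [(L.toFibre X.ε).map_smulₛₗ, map_smul]
        rfl }
  exact ⟨g, (L.univ_toFibre X.ε).of_equiv e fun _ => rfl⟩

/-- A tensor product of normalised triples is normalised. -/
theorem Tri.Normalised.tensor {L M : X.Tri R} (hL : L.Normalised) (hM : M.Normalised) :
    (L.tensor M).Normalised := by
  obtain ⟨g, hg⟩ := hL
  obtain ⟨g', hg'⟩ := hM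
  let G : (L.tensor M).MA →ₛₗ[X.evalε R] R :=
    (TensorProduct.lid R R).toLinearMap.comp (IsScalarExtension.tensorMap g g')
  exact ⟨G, (hg.tensor hg').of_equiv (TensorProduct.lid R R) fun _ => rfl⟩

variable [IsAlgClosed k] (i : X.ChartIndex)

/-- The translation triple. -/
abbrev ChartIndex.fwd (R : Type u) [CommRing R] [Algebra k R] : X.Tri R :=
  (X.shiftTri i.m i.P).baseChange (Algebra.ofId k R)

/-- The inverse translation triple. -/
abbrev ChartIndex.bwd (R : Type u) [CommRing R] [Algebra k R] : X.Tri R :=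
  (X.shiftTri i.m' i.P').baseChange (Algebra.ofId k R)

theorem ChartIndex.exists_fwd_bwd :
    Nonempty (((i.fwd R).tensor (i.bwd R)).Equiv (X.trivialTri R)) := by
  obtain ⟨e⟩ := i.inv
  exact ⟨((Tri.pullbackBaseChange (X.shiftTri i.m i.P) (Algebra.ofId k R)).tensor
    (Tri.pullbackBaseChange (X.shiftTri i.m' i.P') (Algebra.ofId k R))).equiv
      ((X.trivialPullback (Algebra.ofId k R)).congrLeft e)⟩

theorem ChartIndex.exists_shift_tensor_bwd (M : X.Tri R) :
    Nonempty ((i.shift (M.tensor (i.bwd R))).Equiv M) := by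
  obtain ⟨e⟩ := i.exists_fwd_bwd (R := R)
  exact ⟨(Tri.tensorAssoc M (i.bwd R) (i.fwd R)).trans
    (((Tri.Equiv.refl M).tensor ((Tri.tensorComm _ _).trans e)).trans (Tri.tensorTrivial M))⟩

theorem ChartIndex.exists_tensor_bwd_shift (L : X.Tri R) :
    Nonempty (((i.shift L).tensor (i.bwd R)).Equiv L) := by
  obtain ⟨e⟩ := i.exists_fwd_bwd (R := R)
  exact ⟨(Tri.tensorAssoc L (i.fwd R) (i.bwd R)).trans
    (((Tri.Equiv.refl L).tensor e).trans (Tri.tensorTrivial L))⟩

theorem ChartIndex.exists_bwd_pullback (φ : R →ₐ[k] R') :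
    Nonempty (Tri.Pullback φ (i.bwd R) (i.bwd R')) :=
  ⟨((i.bwd R).pullbackBaseChange φ).congrRight
    ((((Tri.pullbackBaseChange (X.shiftTri i.m' i.P') (Algebra.ofId k R)).comp
      ((i.bwd R).pullbackBaseChange φ)).cast (Subsingleton.elim _ _)).equiv
        (Tri.pullbackBaseChange (X.shiftTri i.m' i.P') (Algebra.ofId k R')))⟩

/-- Each chart condition is represented by a smooth algebra of finite type. -/
theorem ChartIndex.exists_chart_aux :
    ∃ (S : Type u) (_ : CommRing S) (_ : Algebra k S),
      Algebra.FiniteType k S ∧ Algebra.Smooth k S ∧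
      ∃ U : X.Tri S, U.Normalised ∧ U.Deg0 ∧ i.Good U ∧
        ∀ (R : Type u) [CommRing R] [Algebra k R] (L : X.Tri R),
          L.Normalised → L.Deg0 → i.Good L →
            ∃! φ : S →ₐ[k] R, Nonempty (Tri.Pullback φ U L) := by
  classical
  obtain ⟨S₀, _, _, hS₀, D₀, hD₀⟩ := exists_universal_datum X i.q
  let J : Ideal S₀ := if (i.shift (X.trivialTri k)).diff.index = X.rankX then ⊥ else ⊤
  let S := S₀ ⧸ J
  have : Algebra.FiniteType k S :=
    Algebra.FiniteType.of_surjective (Ideal.Quotient.mkₐ k J) (Ideal.Quotient.mkₐ_surjective k J)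
  let D : X.ChartDatum i.q S := D₀.map (Ideal.Quotient.mkₐ k J)
  let U : X.Tri S := D.tri.tensor (i.bwd S)
  obtain ⟨eU⟩ := i.exists_shift_tensor_bwd D.tri
  have hn : U.Normalised := D.normalised_tri.tensor
    (Tri.normalised_pullback (Tri.normalised_of_field (X.shiftTri i.m' i.P'))
      (Tri.pullbackBaseChange _ _))
  have hg : i.Good U := D.frameGood_tri.pullback eU.symm.toPullback
  have hd : U.Deg0 := by
    by_cases hnum : (i.shift (X.trivialTri k)).diff.index = X.rankX
    · exact i.deg0_of_good hnum hg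
    · intro K _ _ φ L' _
      exfalso
      have hJ : J = ⊤ := if_neg hnum
      have : Subsingleton S := Ideal.Quotient.subsingleton_iff.mpr hJ
      exact one_ne_zero (α := K) (by
        rw [← map_one φ, Subsingleton.elim (1 : S) 0, map_zero])
  have huniv : ∀ (R : Type u) [CommRing R] [Algebra k R] (L : X.Tri R),
      L.Normalised → L.Deg0 → i.Good L → ∃! φ : S →ₐ[k] R, Nonempty (Tri.Pullback φ U L) := by
    intro R _ _ L hLn hLd hLg
    have hM : (i.shift L).Normalised := hLn.tensor
      (Tri.normalised_pullback (Tri.normalised_of_field (X.shiftTri i.m i.P))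
        (Tri.pullbackBaseChange _ _))
    have hD : ∀ E : X.ChartDatum i.q R, ∃! s : S →ₐ[k] R, (D.map s).φ = E.φ := by
      intro E
      obtain ⟨s₀, hs₀, huniq⟩ := hD₀ R E
      have hcomp : ∀ s : S →ₐ[k] R,
          (D.map s).φ = (D₀.map (s.comp (Ideal.Quotient.mkₐ k J))).φ := fun s => by
        refine AlgHom.ext fun a => Matrix.ext fun l j => ?_
        show mapRep s (mapRep (Ideal.Quotient.mkₐ k J) D₀.φ) a l j =
          mapRep (s.comp (Ideal.Quotient.mkₐ k J)) D₀.φ a l j
        simp only [mapRep_apply, Matrix.map_apply, Polynomial.map_map]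
        rfl
      have hle : ∀ r ∈ J, s₀ r = 0 := fun r hr => by
        by_cases hnum : (i.shift (X.trivialTri k)).diff.index = X.rankX
        · rw [show J = ⊥ from if_pos hnum, Ideal.mem_bot] at hr
          rw [hr, map_zero]
        · have : Subsingleton R := not_nontrivial_iff_subsingleton.mp fun _ =>
            hnum (i.index_of_good_deg0 hLd hLg)
          exact Subsingleton.elim _ _
      refine ⟨Ideal.Quotient.liftₐ J s₀ hle, ?_, fun s hs => ?_⟩
      · show (D.map _).φ = E.φ
        rw [hcomp, Ideal.Quotient.liftₐ_comp]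
        exact hs₀
      · have := huniq (s.comp (Ideal.Quotient.mkₐ k J)) ((hcomp s).symm.trans hs)
        refine AlgHom.ext fun x => ?_
        obtain ⟨r, rfl⟩ := Ideal.Quotient.mk_surjective x
        exact DFunLike.congr_fun this r
    obtain ⟨s, ⟨Q⟩, huniq⟩ := exists_unique_pullback_tri D hD (M := i.shift L) hLg hM
    obtain ⟨eL⟩ := i.exists_tensor_bwd_shift L
    obtain ⟨B⟩ := i.exists_bwd_pullback s
    exact ⟨s, ⟨(Q.tensor B).congrRight eL⟩, fun s' ⟨P⟩ =>
      huniq s' ⟨(i.shiftPullback P).congrLeft eU.symm⟩⟩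
  exact ⟨S, inferInstance, inferInstance, inferInstance, i.smooth_of_universal U hn hd hg huniv,
    U, hn, hd, hg, huniv⟩

end Fermat.Agent.Picard.TwoChart
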