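/-
The results of the algebraic side consumed by the construction of the Jacobian scheme.
-/
import Fermat.Agent.Picard.Algebra.Charts
import Fermat.Agent.Picard.Algebra.Euler
import Fermat.Agent.Picard.Algebra.Existence
import Fermat.Agent.Picard.Algebra.ExistsChart
import Fermat.Agent.Picard.Algebra.Loci
import Fermat.Agent.Picard.Algebra.Rigid

set_option autoImplicit false

universe u

open scoped TensorProduct

noncomputable section

namespace Fermat.Agent.Picard.TwoChart

variable {k : Type u} [Field k] {X : TwoChart k}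
variable {R R' : Type u} [CommRing R] [Algebra k R] [CommRing R'] [Algebra k R']

theorem Tri.Deg0.congr {L L' : X.Tri R} (h : L.Deg0) (e : L.Equiv L') : L'.Deg0 :=
  fun K _ _ φ L'' P => h K _ _ φ L'' (P.congrLeft e)

theorem Tri.Deg0.pullback {φ : R →ₐ[k] R'} {L : X.Tri R} {L' : X.Tri R'} (h : L.Deg0)
    (P : Tri.Pullback φ L L') : L'.Deg0 :=
  fun K _ _ ψ L'' Q => h K _ _ (ψ.comp φ) L'' (P.comp Q)

theorem Tri.deg0_trivial : (X.trivialTri R).Deg0 :=
  fun _ _ _ φ _ P => Tri.index_congr ((X.trivialPullback φ).equiv P)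

/-- Degree zero can be tested on one field valued point for each prime. -/
theorem Tri.deg0_of_forall_prime {L : X.Tri R}
    (h : ∀ p : PrimeSpectrum R, ∃ (K : Type u) (_ : Field K) (_ : Algebra k K) (φ : R →ₐ[k] K)
      (L' : X.Tri K) (_ : Tri.Pullback φ L L'),
      RingHom.ker φ.toRingHom = p.asIdeal ∧ L'.diff.index = (X.trivialTri K).diff.index) :
    L.Deg0 := by
  intro K _ _ φ L' P
  obtain ⟨χ, hχ⟩ := L.exists_eulerFun
  obtain ⟨K₀, _, _, φ₀, L₀, P₀, hker, hidx⟩ :=
    h ⟨RingHom.ker φ.toRingHom, RingHom.ker_isPrime φ.toRingHom⟩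
  rw [index_trivial_eq K, ← index_trivial_eq K₀, ← hidx, hχ K φ L' P, hχ K₀ φ₀ L₀ P₀]
  congr 1
  exact (PrimeSpectrum.ext hker).symm

/-- The Euler characteristic of the fibres is locally constant. -/
theorem Tri.exists_euler_function (L : X.Tri R) :
    ∃ χ : LocallyConstant (PrimeSpectrum R) ℤ,
      ∀ (K : Type u) [Field K] [Algebra k K] (φ : R →ₐ[k] K) (L' : X.Tri K)
        (_ : Tri.Pullback φ L L'),
        L'.diff.index =
          χ ⟨RingHom.ker φ.toRingHom, RingHom.ker_isPrime φ.toRingHom⟩ :=
  L.exists_eulerFun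

/-- The Euler characteristic of the structure sheaf does not depend on the field. -/
theorem index_trivialTri (K : Type u) [Field K] [Algebra k K] :
    (X.trivialTri K).diff.index = (X.trivialTri k).diff.index :=
  index_trivial_eq K

theorem Tri.Normalised.congr {L L' : X.Tri R} (h : L.Normalised) (e : L.Equiv L') :
    L'.Normalised :=
  Tri.normalised_congr h e

theorem Tri.Normalised.pullback {φ : R →ₐ[k] R'} {L : X.Tri R} {L' : X.Tri R'}
    (h : L.Normalised) (P : Tri.Pullback φ L L') : L'.Normalised :=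
  Tri.normalised_pullback h P

theorem Tri.normalised_trivial : (X.trivialTri R).Normalised :=
  Tri.normalised_trivialTri

/-- An automorphism of a triple is multiplication by a unit of the base. -/
theorem Tri.Equiv.exists_unit {L : X.Tri R} (e : L.Equiv L) :
    ∃ u : Rˣ, (∀ m, e.eA m = (u : R) • m) ∧ (∀ m, e.eB m = (u : R) • m) ∧
      ∀ m, e.eW m = (u : R) • m :=
  e.exists_scalar

section Chart

variable [IsAlgClosed k]

/-- Each chart condition is represented by a smooth algebra of finite type. -/
theorem ChartIndex.exists_chart (i : X.ChartIndex) :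
    ∃ (S : Type u) (_ : CommRing S) (_ : Algebra k S),
      Algebra.FiniteType k S ∧ Algebra.Smooth k S ∧
      ∃ U : X.Tri S, U.Normalised ∧ U.Deg0 ∧ i.Good U ∧
        ∀ (R : Type u) [CommRing R] [Algebra k R] (L : X.Tri R),
          L.Normalised → L.Deg0 → i.Good L →
            ∃! φ : S →ₐ[k] R, Nonempty (Tri.Pullback φ U L) :=
  i.exists_chart_aux

/-- The chart locus is open. -/
theorem ChartIndex.isOpen_locus (i : X.ChartIndex) (L : X.Tri R) : IsOpen (i.locus L) :=
  (i.locus_spec L).1

/-- Being in a chart after pullback. -/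
theorem ChartIndex.good_iff_range_subset (i : X.ChartIndex) {φ : R →ₐ[k] R'} {L : X.Tri R}
    {L' : X.Tri R'} (P : Tri.Pullback φ L L') :
    i.Good L' ↔ Set.range (PrimeSpectrum.comap φ.toRingHom) ⊆ i.locus L :=
  i.good_iff_range P

/-- Any two degree zero triples lie in a common chart near each point. -/
theorem exists_common_chart {L L' : X.Tri R} (hL : L.Deg0) (hL' : L'.Deg0)
    (p : PrimeSpectrum R) : ∃ i : X.ChartIndex, p ∈ i.locus L ∧ p ∈ i.locus L' :=
  exists_common_chart_aux hL hL' p

theorem exists_chart_mem {L : X.Tri R} (hL : L.Deg0) (p : PrimeSpectrum R) :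
    ∃ i : X.ChartIndex, p ∈ i.locus L :=
  let ⟨i, h, _⟩ := exists_common_chart hL hL p
  ⟨i, h⟩

end Chart

end Fermat.Agent.Picard.TwoChart
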